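import Mathlib

/-!
# The ideal of the diagonal of a smooth affine curve

Over an algebraically closed field, for a Dedekind coordinate ring `B` with geometrically integral
fibre the kernel of `B ⊗ B → B` has a dual basis.
-/

set_option autoImplicit false
set_option linter.unusedSectionVars false

noncomputable section

open TensorProduct

namespace FLTAgent.PicScheme

universe u

variable (k : Type u) [Field k] (B : Type u) [CommRing B] [Algebra k B]

/-- The properties of the coordinate ring used for the diagonal. -/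
structure GoodChart : Prop where
  finiteType : Algebra.FiniteType k B
  domain : IsDomain (B ⊗[k] B)
  point : ∀ m : Ideal B, m.IsMaximal → ∀ b : B, ∃ c : k, b - algebraMap k B c ∈ m
  uniformizer : ∀ m : Ideal B, m.IsMaximal → ∃ t ∈ m, ∀ b ∈ m, ∃ s ∉ m, ∃ c : B, s * b = c * t

/-- The ideal of the diagonal. -/
def diagonal : Ideal (B ⊗[k] B) := RingHom.ker (Algebra.TensorProduct.lmul' k (S := B)).toRingHom

variable {k B}

/-- The difference of the two embeddings. -/
def dd (b : B) : B ⊗[k] B := b ⊗ₜ 1 - 1 ⊗ₜ b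

theorem mem_diagonal {z : B ⊗[k] B} :
    z ∈ diagonal k B ↔ Algebra.TensorProduct.lmul' k (S := B) z = 0 := Iff.rfl

theorem dd_mem (b : B) : dd (k := k) b ∈ diagonal k B := by
  rw [mem_diagonal, dd, map_sub, Algebra.TensorProduct.lmul'_apply_tmul,
    Algebra.TensorProduct.lmul'_apply_tmul, mul_one, one_mul, sub_self]

theorem dd_mul (x y : B) :
    dd (k := k) (x * y) = (x ⊗ₜ 1) * dd y + (1 ⊗ₜ y) * dd x := by
  simp only [dd, mul_sub, Algebra.TensorProduct.tmul_mul_tmul, mul_one, one_mul, mul_comm y x]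
  abel

theorem dd_const (c : k) : dd (k := k) (algebraMap k B c) = 0 := by
  rw [dd, Algebra.algebraMap_eq_smul_one, TensorProduct.smul_tmul, sub_self]

theorem dd_sub (x y : B) : dd (k := k) (x - y) = dd x - dd y := by
  simp only [dd, TensorProduct.sub_tmul, TensorProduct.tmul_sub]
  abel

theorem diagonal_eq_span : diagonal k B = Ideal.span (Set.range (dd (k := k))) := by
  refine le_antisymm (fun z hz => ?_) (Ideal.span_le.2 (by rintro _ ⟨b, rfl⟩; exact dd_mem b))
  suffices h : ∀ z : B ⊗[k] B,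
      z - Algebra.TensorProduct.lmul' k (S := B) z ⊗ₜ 1 ∈ Ideal.span (Set.range (dd (k := k))) by
    have := h z
    rwa [mem_diagonal.1 hz, TensorProduct.zero_tmul, sub_zero] at this
  intro z
  induction z using TensorProduct.induction_on with
  | zero => simp
  | tmul x y =>
    rw [Algebra.TensorProduct.lmul'_apply_tmul, show x ⊗ₜ[k] y - (x * y) ⊗ₜ[k] (1 : B) =
        -((x ⊗ₜ 1) * dd y) by
      simp only [dd, mul_sub, Algebra.TensorProduct.tmul_mul_tmul, mul_one, one_mul, neg_sub]]
    exact neg_mem (Ideal.mul_mem_left _ _ (Ideal.subset_span ⟨y, rfl⟩))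
  | add a b ha hb =>
    rw [map_add, TensorProduct.add_tmul, add_sub_add_comm]
    exact add_mem ha hb

/-- The ideal of the diagonal has a dual basis. -/
theorem GoodChart.exists_dual_basis (hB : GoodChart k B) :
    ∃ (n : ℕ) (x : Fin n → diagonal k B) (y : Fin n → diagonal k B →ₗ[B ⊗[k] B] B ⊗[k] B),
      ∀ z : diagonal k B, ∑ j, y j z • x j = z := by
  classical
  haveI := hB.finiteType
  haveI := hB.domain
  haveI : IsNoetherianRing (B ⊗[k] B) := by
    haveI : IsNoetherianRing B := Algebra.FiniteType.isNoetherianRing k B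
    haveI : Algebra.FiniteType B (B ⊗[k] B) := inferInstance
    exact Algebra.FiniteType.isNoetherianRing B (B ⊗[k] B)
  -- locally one generator
  have hloc : ∀ P : Ideal (B ⊗[k] B), P.IsMaximal →
      ∃ S ∉ P, ∃ x ∈ diagonal k B, ∀ z ∈ diagonal k B, ∃ c, S * z = c * x := by
    intro P hP
    by_cases hJ : diagonal k B ≤ P
    swap
    · obtain ⟨z, hz, hzP⟩ := Set.not_subset.1 hJ
      exact ⟨z, hzP, z, hz, fun w _ => ⟨w, mul_comm _ _⟩⟩
    set μ := (Algebra.TensorProduct.lmul' k (S := B)).toRingHom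
    have hμ : Function.Surjective μ := fun b => ⟨b ⊗ₜ 1, by simp [μ]⟩
    set m := P.map μ
    have hm : m.comap μ = P := by
      rw [Ideal.comap_map_of_surjective μ hμ, sup_eq_left]
      exact hJ
    have hmmax : m.IsMaximal := by
      rcases Ideal.map_eq_top_or_isMaximal_of_surjective μ hμ hP with h | h
      · exfalso
        apply hP.ne_top
        rw [← hm, show m = ⊤ from h, Ideal.comap_top]
      · exact h
    obtain ⟨t, ht, hu⟩ := hB.uniformizer m hmmax
    have hmem : ∀ w : B, w ∈ m → (1 : B) ⊗ₜ[k] w ∈ P ∧ w ⊗ₜ[k] (1 : B) ∈ P := fun w hw =>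
      ⟨by rw [← hm]; simpa [μ] using hw, by rw [← hm]; simpa [μ] using hw⟩
    refine Classical.byContradiction fun hno => ?_
    set N : Ideal (B ⊗[k] B) := Ideal.span {dd t}
    have hle : diagonal k B ≤ N ⊔ P • diagonal k B := by
      conv_lhs => rw [diagonal_eq_span]
      refine Ideal.span_le.2 ?_
      rintro _ ⟨b₀, rfl⟩
      obtain ⟨c₀, hb⟩ := hB.point m hmmax b₀
      rw [show dd (k := k) b₀ = dd (b₀ - algebraMap k B c₀) by rw [dd_sub, dd_const, sub_zero]]
      obtain ⟨s, hs, c, hsc⟩ := hu _ hb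
      set b := b₀ - algebraMap k B c₀
      have hsP : s ⊗ₜ[k] (1 : B) ∉ P := fun h => hs (by
        rw [← hm] at h; simpa [μ] using h)
      have h1 : (s ⊗ₜ[k] (1 : B)) * dd b ∈ N ⊔ P • diagonal k B := by
        have h2 := dd_mul (k := k) s b
        rw [hsc, dd_mul (k := k) c t] at h2
        rw [show (s ⊗ₜ[k] (1 : B)) * dd b =
          (c ⊗ₜ 1) * dd t + ((1 ⊗ₜ t) * dd c - (1 ⊗ₜ b) * dd s) by linear_combination -h2]
        refine Submodule.add_mem_sup (Ideal.mul_mem_left _ _ (Ideal.subset_span rfl)) ?_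
        exact sub_mem (Submodule.smul_mem_smul (hmem t ht).1 (dd_mem c))
          (Submodule.smul_mem_smul (hmem b hb).1 (dd_mem s))
      obtain ⟨a, p, hp, hap⟩ := hP.exists_inv hsP
      rw [show dd (k := k) b = a * ((s ⊗ₜ 1) * dd b) + p * dd b by
        rw [← mul_assoc, ← add_mul, hap, one_mul]]
      exact add_mem (Ideal.mul_mem_left _ a h1)
        (Submodule.mem_sup_right (Submodule.smul_mem_smul hp (dd_mem b)))
    have hfg : (Submodule.map N.mkQ (diagonal k B)).FG :=
      (IsNoetherian.noetherian (diagonal k B)).map _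
    have hsmul : Submodule.map N.mkQ (diagonal k B) ≤ P • Submodule.map N.mkQ (diagonal k B) := by
      refine (Submodule.map_mono hle).trans ?_
      rw [Submodule.map_sup, Submodule.map_smul'', show Submodule.map N.mkQ N = ⊥ by
        rw [eq_bot_iff, Submodule.map_le_iff_le_comap, Submodule.comap_bot, Submodule.ker_mkQ],
        bot_sup_eq]
    obtain ⟨S, hS, hS0⟩ := Submodule.exists_sub_one_mem_and_smul_eq_zero_of_fg_of_le_smul P _ hfg hsmul
    refine hno ⟨S, fun h => hP.ne_top ((Ideal.eq_top_iff_one P).2 ?_), dd t, dd_mem t, fun z hz => ?_⟩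
    · have := P.sub_mem h hS
      rwa [sub_sub_cancel] at this
    · have h3 := hS0 (N.mkQ z) ⟨z, hz, rfl⟩
      rw [← map_smul, Submodule.mkQ_apply, Submodule.Quotient.mk_eq_zero] at h3
      obtain ⟨c, hc⟩ := Ideal.mem_span_singleton'.1 h3
      exact ⟨c, hc.symm⟩
  choose S hS x hx hc using hloc
  have htop : Ideal.span (Set.range fun P : {P : Ideal (B ⊗[k] B) // P.IsMaximal} => S P.1 P.2) = ⊤ := by
    by_contra h
    obtain ⟨P, hP, hle⟩ := Ideal.exists_le_maximal _ h
    exact hS P hP (hle (Ideal.subset_span ⟨⟨P, hP⟩, rfl⟩))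
  obtain ⟨F, hF⟩ := Finsupp.mem_span_range_iff_exists_finsupp.1 ((Ideal.eq_top_iff_one _).1 htop)
  have hone : ∑ P ∈ F.support, F P * S P.1 P.2 = 1 := hF
  have hcoef : ∀ P : {P : Ideal (B ⊗[k] B) // P.IsMaximal},
      ∃ y : diagonal k B →ₗ[B ⊗[k] B] B ⊗[k] B, ∀ z : diagonal k B, y z * x P.1 P.2 = S P.1 P.2 * z := by
    intro P
    by_cases h0 : x P.1 P.2 = 0
    · refine ⟨0, fun z => ?_⟩
      obtain ⟨c, hc'⟩ := hc P.1 P.2 z z.2
      rw [hc', h0, mul_zero, mul_zero]
    · choose c hc' using fun z : diagonal k B => hc P.1 P.2 z z.2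
      refine ⟨{ toFun := c, map_add' := ?_, map_smul' := ?_ }, fun z => (hc' z).symm⟩
      · intro z w
        refine mul_right_cancel₀ h0 ?_
        rw [add_mul, ← hc', ← hc', ← hc', Submodule.coe_add, mul_add]
      · intro r z
        refine mul_right_cancel₀ h0 ?_
        rw [RingHom.id_apply, smul_eq_mul, mul_assoc, ← hc', ← hc', SetLike.val_smul, smul_eq_mul,
          mul_left_comm]
  choose y hy using hcoef
  set e := F.support.equivFin
  refine ⟨F.support.card, fun j => ⟨x (e.symm j).1.1 (e.symm j).1.2, hx _ _⟩,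
    fun j => F (e.symm j).1 • y (e.symm j).1, fun z => Subtype.ext ?_⟩
  rw [AddSubmonoidClass.coe_finsetSum]
  simp only [SetLike.val_smul, LinearMap.smul_apply, smul_eq_mul, mul_assoc, hy]
  rw [← e.sum_comp]
  simp only [Equiv.symm_apply_apply]
  rw [Finset.sum_coe_sort F.support (fun P => F P * (S P.1 P.2 * (z : B ⊗[k] B)))]
  simp only [← mul_assoc, ← Finset.sum_mul, hone, one_mul]

end FLTAgent.PicScheme
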