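import Fermat.Agent.PicScheme.Interface
import Fermat.Agent.PicScheme.Chart.Diagonal
import Fermat.Agent.PicScheme.Curve.Basic
import Fermat.Agent.AV.Curve.Domain

/-!
# The charts of a frame are smooth affine curves
-/

set_option autoImplicit false
set_option linter.style.haveILetI false

noncomputable section

universe u

open CategoryTheory AlgebraicGeometry TensorProduct Polynomial
  NeronModelInfra

namespace FLTAgent.PicScheme

variable {k : Type u} [Field k]

theorem finiteType_of_finite_aeval {B : Type u} [CommRing B] [Algebra k B] {f : B}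
    (h : RingHom.Finite (Polynomial.aeval (R := k) f).toRingHom) : Algebra.FiniteType k B := by
  letI := (Polynomial.aeval (R := k) f).toRingHom.toAlgebra
  haveI : IsScalarTower k k[X] B := IsScalarTower.of_algebraMap_eq fun a => by
    show algebraMap k B a = Polynomial.aeval f (Polynomial.C a)
    rw [Polynomial.aeval_C]
  haveI : Module.Finite k[X] B := h
  exact Algebra.FiniteType.trans (R := k) (S := k[X]) inferInstance inferInstance

theorem aeval_injective_of_free {B : Type u} [CommRing B] [Nontrivial B] [Algebra k B] {f : B}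
    (h : letI := (Polynomial.aeval (R := k) f).toRingHom.toAlgebra; Module.Free k[X] B) :
    Function.Injective (Polynomial.aeval (R := k) f) := by
  letI := (Polynomial.aeval (R := k) f).toRingHom.toAlgebra
  haveI : Module.Free k[X] B := h
  refine (injective_iff_map_eq_zero _).2 fun p hp => ?_
  have h1 : p • (1 : B) = 0 := by
    rw [Algebra.smul_def, mul_one]
    exact hp
  exact (smul_eq_zero.1 h1).resolve_right one_ne_zero

theorem isDomain_tensor_self [IsAlgClosed k] (B : Type u) [CommRing B] [IsDomain B]
    [Algebra k B] : IsDomain (B ⊗[k] B) := by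
  let L := FractionRing B
  haveI := AV.tensor_isDomain (K := k) L L
  let φ := Algebra.TensorProduct.map (IsScalarTower.toAlgHom k B L) (IsScalarTower.toAlgHom k B L)
  have hinj : Function.Injective φ :=
    TensorProduct.map_injective_of_flat_flat (IsScalarTower.toAlgHom k B L).toLinearMap
      (IsScalarTower.toAlgHom k B L).toLinearMap
      (IsFractionRing.injective B L) (IsFractionRing.injective B L)
  exact hinj.isDomain φ.toRingHom

variable {C : Scheme.{u}} {c : C ⟶ Spec (CommRingCat.of k)}
  {ε : SchemeHomOver (𝟙 (Spec (CommRingCat.of k))) c}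

theorem isDomain_of_openImmersion [IsIntegral C] {B : Type u} [CommRing B] [Nontrivial B]
    (j : Spec (CommRingCat.of B) ⟶ C) [IsOpenImmersion j] : IsDomain B := by
  haveI : Nonempty (Spec (CommRingCat.of B)) := (inferInstance : Nonempty (PrimeSpectrum B))
  haveI : IsIntegral (Spec (CommRingCat.of B)) := isIntegral_of_isOpenImmersion j
  exact (affine_isIntegral_iff (CommRingCat.of B)).1 inferInstance

theorem dvd_or_dvd_of_openImmersion [IsProper c] [SmoothOfRelativeDimension 1 c] [IsIntegral C]
    {B : Type u} [CommRing B] (j : Spec (CommRingCat.of B) ⟶ C) [IsOpenImmersion j]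
    (m : Ideal B) [m.IsPrime] (x y : Localization.AtPrime m) : x ∣ y ∨ y ∣ x := by
  let X := Crv.of c
  let p : Spec (CommRingCat.of B) := ⟨m, inferInstance⟩
  let S := (Spec (CommRingCat.of B)).presheaf.stalk p
  letI : Algebra B S := StructureSheaf.stalkAlgebra B p
  haveI : IsLocalization.AtPrime S m := StructureSheaf.IsLocalization.to_stalk B p
  let e := (IsLocalization.algEquiv m.primeCompl (Localization.AtPrime m) S).toRingEquiv
  let σ := (asIso (j.stalkMap p)).commRingCatIsoToRingEquiv
  obtain h | h := X.dvd_or_dvd (j p) (σ.symm (e x)) (σ.symm (e y))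
  · left
    have h2 := map_dvd e.symm (map_dvd σ h)
    simpa using h2
  · right
    have h2 := map_dvd e.symm (map_dvd σ h)
    simpa using h2

/-- An affine open of a smooth proper curve has the properties used for the diagonal. -/
theorem goodChart_of_openImmersion [IsAlgClosed k] [IsProper c] [SmoothOfRelativeDimension 1 c]
    [IsIntegral C] {B : Type u} [CommRing B] [Nontrivial B] [Algebra k B]
    (hft : Algebra.FiniteType k B) (j : Spec (CommRingCat.of B) ⟶ C) [IsOpenImmersion j] :
    GoodChart k B where
  finiteType := hft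
  domain := by
    have := isDomain_of_openImmersion j
    exact isDomain_tensor_self B
  point m hm b := by
    haveI := hm
    letI : Field (B ⧸ m) := Ideal.Quotient.field m
    haveI : Module.Finite k (B ⧸ m) := finite_of_finite_type_of_isJacobsonRing k (B ⧸ m)
    obtain ⟨a, ha⟩ := (IsAlgClosed.algebraMap_bijective_of_isIntegral (k := k)
      (K := B ⧸ m)).2 (Ideal.Quotient.mk m b)
    refine ⟨a, Ideal.Quotient.eq_zero_iff_mem.1 ?_⟩
    rw [map_sub, ← ha, sub_eq_zero]
    rfl
  uniformizer m hm := by
    have := isDomain_of_openImmersion j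
    haveI : IsNoetherianRing B := Algebra.FiniteType.isNoetherianRing k B
    let Bm := Localization.AtPrime m
    haveI : IsDomain Bm := IsLocalization.isDomain_localization m.primeCompl_le_nonZeroDivisors
    haveI : IsNoetherianRing Bm := IsLocalization.isNoetherianRing m.primeCompl Bm inferInstance
    haveI : ValuationRing Bm :=
      ValuationRing.iff_dvd_total.2 ⟨fun a b => dvd_or_dvd_of_openImmersion (c := c) j m a b⟩
    haveI : IsPrincipalIdealRing Bm :=
      ((IsBezout.TFAE (R := Bm)).out 0 1 : IsNoetherianRing Bm ↔ IsPrincipalIdealRing Bm).1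
        inferInstance
    obtain ⟨g, hg⟩ := IsPrincipalIdealRing.principal (IsLocalRing.maximalIdeal Bm)
    obtain ⟨⟨t, u⟩, ht⟩ := IsLocalization.surj m.primeCompl g
    have hgm : g ∈ IsLocalRing.maximalIdeal Bm := hg ▸ Ideal.mem_span_singleton_self g
    have htm : t ∈ m := (IsLocalization.AtPrime.to_map_mem_maximal_iff Bm m t).1
      (ht ▸ Ideal.mul_mem_right _ _ hgm)
    refine ⟨t, htm, fun b hb => ?_⟩
    have hb' : algebraMap B Bm b ∈ Ideal.span {g} :=
      (show IsLocalRing.maximalIdeal Bm = Ideal.span {g} from hg) ▸
        (IsLocalization.AtPrime.to_map_mem_maximal_iff Bm m b).2 hb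
    obtain ⟨r, hr⟩ := Ideal.mem_span_singleton'.1 hb'
    obtain ⟨⟨r₀, v⟩, hr₀⟩ := IsLocalization.surj m.primeCompl r
    refine ⟨u.1 * v.1, mul_mem u.2 v.2, r₀, ?_⟩
    apply IsLocalization.injective Bm m.primeCompl_le_nonZeroDivisors
    rw [map_mul, map_mul, map_mul, ← ht, ← hr₀, ← hr]
    ring

namespace Frame

variable (F : Frame c ε)

theorem nontrivial₁ : Nontrivial F.X.B₁ := F.X.pt.toRingHom.domain_nontrivial

theorem aeval_f_injective : Function.Injective (Polynomial.aeval (R := k) F.X.f) := by
  have := F.nontrivial₁
  exact aeval_injective_of_free F.X.free₁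

section

variable [IsIntegral C]

theorem isDomain₁ : IsDomain F.X.B₁ := by
  have := F.open₁
  have := F.nontrivial₁
  exact isDomain_of_openImmersion F.j₁.1

theorem nontrivial₀ : Nontrivial F.X.B₀ := by
  have := F.isDomain₁
  letI := F.X.ι₁.toRingHom.toAlgebra
  haveI := F.X.away₁
  have hf : F.X.f ≠ 0 := fun h => Polynomial.X_ne_zero
    (F.aeval_f_injective (by rw [Polynomial.aeval_X, h, map_zero]))
  exact (IsLocalization.injective F.X.B₀
    (powers_le_nonZeroDivisors_of_noZeroDivisors hf)).nontrivial

theorem nontrivial₂ : Nontrivial F.X.B₂ := by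
  have := F.nontrivial₀
  exact F.X.ι₂.toRingHom.domain_nontrivial

theorem aeval_g_injective : Function.Injective (Polynomial.aeval (R := k) F.X.g) := by
  have := F.nontrivial₂
  exact aeval_injective_of_free F.X.free₂

theorem isDomain₂ : IsDomain F.X.B₂ := by
  have := F.open₂
  have := F.nontrivial₂
  exact isDomain_of_openImmersion F.j₂.1

theorem ι₁_injective : Function.Injective F.X.ι₁ := by
  have := F.isDomain₁
  letI := F.X.ι₁.toRingHom.toAlgebra
  haveI := F.X.away₁
  have hf : F.X.f ≠ 0 := fun h => Polynomial.X_ne_zero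
    (F.aeval_f_injective (by rw [Polynomial.aeval_X, h, map_zero]))
  exact IsLocalization.injective F.X.B₀ (powers_le_nonZeroDivisors_of_noZeroDivisors hf)

theorem ι₂_injective : Function.Injective F.X.ι₂ := by
  have := F.isDomain₂
  letI := F.X.ι₂.toRingHom.toAlgebra
  haveI := F.X.away₂
  have hg : F.X.g ≠ 0 := fun h => Polynomial.X_ne_zero
    (F.aeval_g_injective (by rw [Polynomial.aeval_X, h, map_zero]))
  exact IsLocalization.injective F.X.B₀ (powers_le_nonZeroDivisors_of_noZeroDivisors hg)

theorem isDomain₀ : IsDomain F.X.B₀ := by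
  have := F.isDomain₁
  letI := F.X.ι₁.toRingHom.toAlgebra
  haveI := F.X.away₁
  have hf : F.X.f ≠ 0 := fun h => Polynomial.X_ne_zero
    (F.aeval_f_injective (by rw [Polynomial.aeval_X, h, map_zero]))
  exact IsLocalization.isDomain_of_le_nonZeroDivisors (R := F.X.B₁) F.X.B₀
    (powers_le_nonZeroDivisors_of_noZeroDivisors hf)

theorem isDomain_tensor₀ [IsAlgClosed k] : IsDomain (F.X.B₀ ⊗[k] F.X.B₀) := by
  have := F.isDomain₀
  exact isDomain_tensor_self F.X.B₀

end

/-- The first chart is a smooth affine curve with the properties used for the diagonal. -/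
theorem goodChart [IsAlgClosed k] [IsProper c] [SmoothOfRelativeDimension 1 c]
    [IsIntegral C] : GoodChart k F.X.B₁ := by
  have := F.open₁
  have := F.nontrivial₁
  exact goodChart_of_openImmersion (c := c) (finiteType_of_finite_aeval F.X.finite₁) F.j₁.1

/-- The second chart is a smooth affine curve with the properties used for the diagonal. -/
theorem goodChart₂ [IsAlgClosed k] [IsProper c] [SmoothOfRelativeDimension 1 c]
    [IsIntegral C] : GoodChart k F.X.B₂ := by
  have := F.open₂
  have := F.nontrivial₂
  exact goodChart_of_openImmersion (c := c) (finiteType_of_finite_aeval F.X.finite₂) F.j₂.1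

end Frame

end FLTAgent.PicScheme
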