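import Fermat.Agent.PicScheme.Chart.Inverse
import Fermat.Agent.PicScheme.Sheaf.Local

/-!
# A point of the chart over a principal localisation

Elements which span modulo an ideal up to a multiplier, and are independent modulo the ideal up to
the same multiplier, give a point of the chart once the multiplier is inverted.
-/

set_option autoImplicit false
set_option linter.unusedSectionVars false
set_option linter.style.haveILetI false

noncomputable section

universe u

open TensorProduct Matrix Filter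

namespace FLTAgent.PicScheme

variable {k : Type u} [Field k] {X : Charts k} {A : Type u} [CommRing A] [Algebra k A]

/-- An element whose image lies in the extended ideal lies in the ideal after multiplication by a
power of the inverted element. -/
theorem exists_pow_smul_mem_of_image_mem {B : Type u} [CommRing B] [Algebra k B] (f : A) {m : ℕ}
    (s : Fin m → A ⊗[k] B) (x : A ⊗[k] B)
    (hx : Datum.chartMap B (toAway k f) x ∈
      Ideal.span (Set.range (Datum.chartMap B (toAway k f) ∘ s))) :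
    ∃ M : ℕ, f ^ M • x ∈ Ideal.span (Set.range s) := by
  obtain ⟨r, hr⟩ := (Ideal.mem_span_range_iff_exists_fun).1 hx
  obtain ⟨N, hN⟩ := (eventually_all.2 fun j => exists_pow_smul_eq_image f (r j)).exists
  choose y hy using hN
  have h0 : Datum.chartMap B (toAway k f) (f ^ N • x - ∑ j, y j * s j) = 0 := by
    rw [map_sub, chartMap_smul, map_sum, ← hr, Finset.smul_sum, sub_eq_zero]
    refine Finset.sum_congr rfl fun j _ => ?_
    rw [map_mul, hy, smul_mul_assoc]
    rfl
  obtain ⟨M, hM⟩ := (eventually_pow_smul_eq_zero f _ h0).exists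
  refine ⟨M + N, ?_⟩
  rw [smul_sub, sub_eq_zero, smul_smul, ← pow_add] at hM
  rw [hM]
  exact Submodule.smul_of_tower_mem _ _
    (Submodule.sum_mem _ fun j _ => Ideal.mul_mem_left _ _ (Ideal.subset_span ⟨j, rfl⟩))

variable {n : ℕ} {e : Fin n → X.B₁} {L : Datum X A} {s₁ : Fin L.n₁ → X.R₁ A}
  {s₂ : Fin L.n₂ → X.R₂ A}

/-- A section whose ideal is free on the elements `e i` up to a multiplier is cut out by a point of
the chart once the multiplier is inverted. -/
theorem exists_cuts_away (hs₁ : L.e₁ *ᵥ s₁ = s₁) (hs₂ : L.e₂ *ᵥ s₂ = s₂)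
    (hc : L.u *ᵥ (X.res₁ A ∘ s₁) = X.res₂ A ∘ s₂)
    (hu : Ideal.span (Set.range s₂) ⊔ Ideal.span {(1 : A) ⊗ₜ[k] X.g} = ⊤) (f : A)
    (hspan : ∀ z : X.R₁ A, f • z ∈ Submodule.span A (Set.range fun i => (1 : A) ⊗ₜ[k] e i) ⊔
      (Ideal.span (Set.range s₁)).restrictScalars A)
    (hind : ∀ a : Fin n → A, (∑ i, a i • ((1 : A) ⊗ₜ[k] e i)) ∈ Ideal.span (Set.range s₁) →
      ∀ i, f * a i = 0) :
    ∃ p : ChartPt k e (Localization.Away f), Cuts p (L.map (toAway k f))
      (Datum.chartMap X.B₁ (toAway k f) ∘ s₁) (Datum.chartMap X.B₂ (toAway k f) ∘ s₂) := by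
  classical
  set φ := toAway k f
  set cm := Datum.chartMap X.B₁ φ
  set I' : Ideal (X.R₁ (Localization.Away f)) := Ideal.span (Set.range (cm ∘ s₁))
  have hI' : ∀ w ∈ Ideal.span (Set.range s₁), cm w ∈ I' := fun w hw => by
    have h := Ideal.mem_map_of_mem cm hw
    rw [Ideal.map_span, ← Set.range_comp] at h
    exact h
  have hfu : IsUnit (φ f) := IsLocalization.Away.algebraMap_isUnit f
  have hE : ∀ i, cm ((1 : A) ⊗ₜ[k] e i) = (1 : Localization.Away f) ⊗ₜ[k] e i := fun i => by
    simp [cm, Datum.chartMap]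
  set v : Fin n → X.R₁ (Localization.Away f) ⧸ I' :=
    fun i => Ideal.Quotient.mk I' ((1 : Localization.Away f) ⊗ₜ[k] e i)
  have hmk : ∀ (c : Localization.Away f) (y : X.R₁ (Localization.Away f)),
      Ideal.Quotient.mk I' (c • y) = c • Ideal.Quotient.mk I' y := fun c y => rfl
  have hsp : ⊤ ≤ Submodule.span (Localization.Away f) (Set.range v) := by
    intro z _
    obtain ⟨y, rfl⟩ := Ideal.Quotient.mk_surjective z
    obtain ⟨N, z, hz⟩ := (exists_pow_smul_eq_image f y).exists
    obtain ⟨w, hw, w', hw', hww⟩ := Submodule.mem_sup.1 (hspan z)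
    obtain ⟨a, rfl⟩ := (Submodule.mem_span_range_iff_exists_fun A).1 hw
    have h1 : (φ f * φ (f ^ N)) • y = (∑ i, φ (a i) • (1 : Localization.Away f) ⊗ₜ[k] e i) + cm w' := by
      rw [mul_smul, ← hz, ← chartMap_smul, ← hww, map_add, map_sum]
      simp only [chartMap_smul, hE, cm]
    obtain ⟨c, hc'⟩ := hfu.mul (show IsUnit (φ (f ^ N)) by rw [map_pow]; exact hfu.pow N)
    rw [← hc', ← Units.smul_def] at h1
    rw [← inv_smul_smul c y, h1, Units.smul_def, hmk, map_add,
      Ideal.Quotient.eq_zero_iff_mem.2 (hI' _ hw'), add_zero, map_sum]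
    refine Submodule.smul_mem _ _ (Submodule.sum_mem _ fun i _ => ?_)
    rw [hmk]
    exact Submodule.smul_mem _ _ (Submodule.subset_span ⟨i, rfl⟩)
  have hli : LinearIndependent (Localization.Away f) v := by
    refine Fintype.linearIndependent_iff.2 fun c hc0 => ?_
    obtain ⟨⟨_, N, rfl⟩, hN⟩ := IsLocalization.exist_integer_multiples_of_finite
      (Submonoid.powers f) c
    choose a ha using hN
    have ha' : ∀ i, φ (a i) = φ (f ^ N) * c i := fun i => (ha i).trans (Algebra.smul_def _ _)
    have hmem : cm (∑ i, a i • ((1 : A) ⊗ₜ[k] e i)) ∈ I' := by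
      rw [← Ideal.Quotient.eq_zero_iff_mem, map_sum, map_sum]
      simp only [cm, chartMap_smul, ha', hE, hmk, mul_smul, ← Finset.smul_sum]
      exact (congrArg _ hc0).trans (smul_zero _)
    obtain ⟨M, hM⟩ := exists_pow_smul_mem_of_image_mem f s₁ _ hmem
    rw [Finset.smul_sum] at hM
    simp only [smul_smul] at hM
    intro i
    have h1 : φ (f * (f ^ M * a i)) = 0 := by rw [hind _ hM i, map_zero]
    rw [map_mul, map_mul, ha', map_pow, map_pow] at h1
    exact (hfu.pow N).mul_right_eq_zero.1 ((hfu.pow M).mul_right_eq_zero.1 (hfu.mul_right_eq_zero.1 h1))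
  set b := Module.Basis.mk hli hsp
  set p : ChartPt k e (Localization.Away f) := ChartPt.ofIdeal k e I' b fun i => Module.Basis.mk_apply hli hsp i
  have hext : ∀ y : X.R₁ (Localization.Away f), p.ext' y = b.equivFun (Ideal.Quotient.mk I' y) := by
    intro y
    induction y using TensorProduct.induction_on with
    | zero => simp
    | tmul c x =>
      rw [p.ext'_tmul, show c ⊗ₜ[k] x = c • ((1 : Localization.Away f) ⊗ₜ[k] x) by
        rw [TensorProduct.smul_tmul', smul_eq_mul, mul_one], hmk, map_smul]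
      rfl
    | add x y hx hy => rw [map_add, map_add, hx, hy, map_add]
  refine ⟨p, ?_, ?_, ?_, ?_, ?_⟩
  · conv_rhs => rw [← hs₁]
    exact (funext fun i => RingHom.map_mulVec (Datum.chartMap X.B₁ φ).toRingHom L.e₁ s₁ i).symm
  · conv_rhs => rw [← hs₂]
    exact (funext fun i => RingHom.map_mulVec (Datum.chartMap X.B₂ φ).toRingHom L.e₂ s₂ i).symm
  · funext i
    have h1 := congrArg (Datum.chartMap X.B₀ φ).toRingHom (congrFun hc i)
    have h2 := (RingHom.map_mulVec (Datum.chartMap X.B₀ φ).toRingHom L.u (X.res₁ A ∘ s₁) i).symm.trans h1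
    have h3 : (X.res₁ (Localization.Away f) ∘ Datum.chartMap X.B₁ φ ∘ s₁ :
        Fin L.n₁ → X.R₀ (Localization.Away f)) = (Datum.chartMap X.B₀ φ).toRingHom ∘ (X.res₁ A ∘ s₁) :=
      funext fun j => (Datum.chartMap_res₁ φ (s₁ j)).symm
    refine (Eq.trans ?_ (h2.trans (Datum.chartMap_res₂ φ (s₂ i))))
    exact congrArg (fun v => ((L.u.map (Datum.chartMap X.B₀ φ).toRingHom) *ᵥ v) i) h3
  · show I' = p.ideal
    refine Ideal.ext fun y => ?_
    rw [p.mem_ideal, hext, LinearEquiv.map_eq_zero_iff, Ideal.Quotient.eq_zero_iff_mem]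
  · have h1 := congrArg (Ideal.map (Datum.chartMap X.B₂ φ)) hu
    rw [Ideal.map_sup, Ideal.map_span, Ideal.map_span, Ideal.map_top, Set.image_singleton,
      ← Set.range_comp] at h1
    have hg : Datum.chartMap X.B₂ φ ((1 : A) ⊗ₜ[k] X.g) = (1 : Localization.Away f) ⊗ₜ[k] X.g := by
      simp [Datum.chartMap]
    rw [hg] at h1
    exact h1

end FLTAgent.PicScheme
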