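import Fermat.Agent.PicScheme.Chart.Good
import Fermat.Agent.PicScheme.Group
import Fermat.Agent.PicScheme.Sheaf.Cls

/-!
# Classes of good points of the chart
-/

set_option autoImplicit false
set_option linter.unusedSectionVars false

noncomputable section

universe u

open TensorProduct Matrix Filter

namespace FLTAgent.PicScheme

variable {k : Type u} [Field k] {X : Charts k} {A A' : Type u} [CommRing A] [Algebra k A]
  [CommRing A'] [Algebra k A'] {n : ℕ} {e : Fin n → X.B₁}

namespace ChartPt

variable {p p' : ChartPt k e A}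

/-- The datum of a good point, as a rigidifiable datum. -/
def IsGood.datum (hp : p.IsGood) : RigDatum X A :=
  ⟨hp.2.choose, hp.2.choose_spec.choose_spec.choose_spec.1.isRigidifiable hp.1⟩

theorem IsGood.exists_cuts (hp : p.IsGood) : ∃ s₁ s₂, Cuts p hp.datum.1 s₁ s₂ :=
  ⟨_, _, hp.2.choose_spec.choose_spec.choose_spec.1⟩

/-- The class of a good point. -/
def IsGood.cls (hp : p.IsGood) : Cls X A := Quot.mk _ hp.datum

theorem IsGood.cls_eq_mk_iff (hp : p.IsGood) {L : RigDatum X A} :
    hp.cls = Quot.mk _ L ↔ ∃ s₁ s₂, Cuts p L.1 s₁ s₂ := by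
  obtain ⟨s₁, s₂, hs⟩ := hp.exists_cuts
  exact ⟨fun h => ⟨_, _, hs.of_iso (Cls.mk_eq_iff.1 h).some⟩,
    fun ⟨_, _, ht⟩ => Cls.mk_eq_iff.2 (hs.nonempty_iso ht)⟩

theorem IsGood.cls_map (hp : p.IsGood) (f : A →ₐ[k] A') :
    (hp.map f).cls = Cls.map f hp.cls := by
  obtain ⟨s₁, s₂, hs⟩ := hp.exists_cuts
  exact (hp.map f).cls_eq_mk_iff.2 ⟨_, _, hs.map f⟩

theorem IsGood.cls_inj (hp : p.IsGood) (hp' : p'.IsGood) (h : hp.cls = hp'.cls) : p = p' := by
  obtain ⟨s₁, s₂, hs⟩ := hp.exists_cuts
  obtain ⟨t₁, t₂, ht⟩ := hp'.exists_cuts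
  exact hp.eq_of_iso hp' hs ht (Cls.mk_eq_iff.1 h).some

theorem IsGood.cls_congr (hp : p.IsGood) (hp' : p'.IsGood) (h : p = p') : hp.cls = hp'.cls := by
  subst h; rfl

end ChartPt

theorem ChartPt.map_id' (p : ChartPt k e A) : p.map (AlgHom.id k A) = p :=
  ChartPt.ext (LinearMap.ext fun _ => funext fun _ => ChartPt.map_φ _ _ _ _)

theorem ChartRing.lift_map (p : ChartPt k e A) (g : A →ₐ[k] A') :
    ChartRing.lift (p.map g) = g.comp (ChartRing.lift p) := by
  refine (ChartRing.equiv (k := k) (e := e)).injective ?_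
  rw [ChartRing.equiv_comp]
  exact ((ChartRing.equiv).apply_symm_apply (p.map g)).trans
    (congrArg (fun q => ChartPt.map g q) ((ChartRing.equiv).apply_symm_apply p)).symm

theorem ChartRing.univPt_map_lift (p : ChartPt k e A) :
    (ChartRing.univPt k e).map (ChartRing.lift p) = p :=
  (ChartRing.equiv).apply_symm_apply p

/-- An element of a localisation becomes a unit further on, near a point where it is invertible. -/
theorem exists_isUnit_awayLE (f : A) (a : Localization.Away f) {K : Type u} [Field K]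
    [Algebra k K] (ψ : Localization.Away f →ₐ[k] K) (ha : ψ a ≠ 0) :
    ∃ (f' : A) (hd : f ∣ f'), ψ (toAway k f f') ≠ 0 ∧ IsUnit (awayLE (k := k) hd a) := by
  obtain ⟨⟨b, ⟨_, N, rfl⟩⟩, hb⟩ := IsLocalization.surj (Submonoid.powers f) a
  have hd : f ∣ f * b := dvd_mul_right f b
  have hf : ψ (toAway k f f) ≠ 0 :=
    ((isUnit_toAway_of_dvd (k := k) (dvd_refl f)).map ψ).ne_zero
  have hb' : toAway k f b = a * toAway k f (f ^ N) := hb.symm
  refine ⟨f * b, hd, ?_, ?_⟩
  · rw [map_mul, map_mul, hb', map_mul, map_pow, map_pow]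
    exact mul_ne_zero hf (mul_ne_zero ha (pow_ne_zero _ hf))
  · have e := congrArg (awayLE (k := k) hd) hb'
    rw [map_mul] at e
    have e' : ∀ z, awayLE (k := k) hd (toAway k f z) = toAway k (f * b) z :=
      fun z => AlgHom.congr_fun (awayLE_comp hd) z
    rw [e', e'] at e
    have := isUnit_toAway_of_dvd (k := k) (dvd_mul_left b f)
    rw [e] at this
    exact isUnit_of_mul_isUnit_left this

/-- Elements equal on a cover by principal opens are equal. -/
theorem elem_ext_away {m : ℕ} (r : Fin m → A) (hr : Ideal.span (Set.range r) = ⊤) {x y : A}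
    (h : ∀ a, toAway k (r a) x = toAway k (r a) y) : x = y := by
  obtain ⟨M, hM⟩ := (eventually_all.2 fun a => eventually_eq_scalar (k := k) (r a) (h a)).exists
  obtain ⟨c, hc⟩ := exists_sum_pow r hr M
  calc x = ∑ a, c a * (r a ^ M * x) := by simp only [← mul_assoc, ← Finset.sum_mul, hc, one_mul]
    _ = ∑ a, c a * (r a ^ M * y) := by simp only [hM]
    _ = y := by simp only [← mul_assoc, ← Finset.sum_mul, hc, one_mul]

/-- Elements agreeing on overlaps glue. -/
theorem exists_glue_elem {m : ℕ} (r : Fin m → A) (hr : Ideal.span (Set.range r) = ⊤)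
    (x : ∀ a, Localization.Away (r a))
    (hx : ∀ a b, awayLE (k := k) (dvd_mul_right (r a) (r b)) (x a) =
      awayLE (k := k) (dvd_mul_left (r b) (r a)) (x b)) :
    ∃ y : A, ∀ a, toAway k (r a) y = x a := by
  obtain ⟨N, hN⟩ := (eventually_all.2 fun a => eventually_lift_scalar (k := k) (r a) (x a)).exists
  choose G hG using hN
  obtain ⟨M, hM⟩ := (eventually_all.2 fun a => eventually_all.2 fun b =>
    eventually_eq_scalar (k := k) (r a * r b) (x := r b ^ N * G a) (y := r a ^ N * G b) (by
      have ea : ∀ z, awayLE (k := k) (dvd_mul_right (r a) (r b)) (toAway k (r a) z) =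
          toAway k (r a * r b) z := fun z => AlgHom.congr_fun (awayLE_comp (dvd_mul_right (r a) (r b))) z
      have eb : ∀ z, awayLE (k := k) (dvd_mul_left (r b) (r a)) (toAway k (r b) z) =
          toAway k (r a * r b) z := fun z => AlgHom.congr_fun (awayLE_comp (dvd_mul_left (r b) (r a))) z
      rw [map_mul, map_mul, ← ea (G a), ← eb (G b), hG, hG, map_mul, map_mul, ea, eb, hx a b]
      ring)).exists
  obtain ⟨c, hc⟩ := exists_sum_pow r hr (N + M)
  refine ⟨∑ b, c b * (r b ^ M * G b), fun a => ?_⟩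
  have h1 : r a ^ (N + M) * (∑ b, c b * (r b ^ M * G b)) = r a ^ M * G a := by
    calc r a ^ (N + M) * (∑ b, c b * (r b ^ M * G b))
        = ∑ b, c b * ((r a * r b) ^ M * (r a ^ N * G b)) := by
          rw [Finset.mul_sum]; exact Finset.sum_congr rfl fun b _ => by ring
      _ = ∑ b, (c b * r b ^ (N + M)) * (r a ^ M * G a) :=
          Finset.sum_congr rfl fun b _ => by rw [← hM a b]; ring
      _ = r a ^ M * G a := by rw [← Finset.sum_mul, hc, one_mul]
  have h2 := congrArg (toAway k (r a)) h1
  have hu : IsUnit (toAway k (r a) (r a ^ (N + M))) := by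
    rw [map_pow]; exact (isUnit_toAway_of_dvd dvd_rfl).pow _
  refine hu.mul_left_cancel ((map_mul (toAway k (r a)) _ _).symm.trans (h2.trans ?_))
  rw [map_mul, hG, map_pow, map_pow, map_pow, pow_add]
  ring

/-- Homomorphisms agreeing on overlaps glue. -/
theorem exists_glue_algHom {R : Type u} [CommRing R] [Algebra k R] {m : ℕ} (r : Fin m → A)
    (hr : Ideal.span (Set.range r) = ⊤) (ψ : ∀ a, R →ₐ[k] Localization.Away (r a))
    (h : ∀ a b, (awayLE (k := k) (dvd_mul_right (r a) (r b))).comp (ψ a) =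
      (awayLE (k := k) (dvd_mul_left (r b) (r a))).comp (ψ b)) :
    ∃ Ψ : R →ₐ[k] A, ∀ a, (toAway k (r a)).comp Ψ = ψ a := by
  choose y hy using fun z : R => exists_glue_elem r hr (fun a => ψ a z)
    fun a b => AlgHom.congr_fun (h a b) z
  refine ⟨AlgHom.mk'
    { toFun := y
      map_one' := elem_ext_away (k := k) r hr fun a => by rw [hy, map_one, map_one]
      map_mul' := fun u v => elem_ext_away (k := k) r hr fun a => by
        rw [hy, map_mul, map_mul, hy, hy]
      map_zero' := elem_ext_away (k := k) r hr fun a => by rw [hy, map_zero, map_zero]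
      map_add' := fun u v => elem_ext_away (k := k) r hr fun a => by
        rw [hy, map_add, map_add, hy, hy] } fun c u => ?_, fun a => AlgHom.ext fun z => hy z a⟩
  refine elem_ext_away (k := k) r hr fun a => ?_
  show toAway k (r a) (y (c • u)) = toAway k (r a) (c • y u)
  rw [hy, map_smul, map_smul, hy]

end FLTAgent.PicScheme
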