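import Fermat.Agent.PicScheme.Chart.Inverse
import Fermat.Agent.PicScheme.Points.Cover

/-!
# The point of the chart defined by a single section over a field
-/

set_option autoImplicit false
set_option linter.style.haveILetI false

noncomputable section

universe u

open TensorProduct Matrix

namespace FLTAgent.PicScheme

open Degree

variable {k : Type u} [Field k] {X : Charts k} {K : Type u} [Field K] [Algebra k K]

/-- A quotient by an ideal containing a monic polynomial of the coordinate is finite. -/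
theorem finite_quotient_of_monic_mem {B : Type u} [CommRing B] [Algebra k B] {b : B}
    (hb : PolyChart.IsFree k b) (I : Ideal (K ⊗[k] B)) {Q : Polynomial K} (hQ : Q.Monic)
    (hQI : atCoord K b Q ∈ I) : Module.Finite K ((K ⊗[k] B) ⧸ I) := by
  obtain ⟨β⟩ := exists_coordBasis hb
  obtain ⟨σ, hσ⟩ := (β.rem Q Q.natDegree).exists_rightInverse_of_surjective
    (LinearMap.range_eq_top.2 (β.rem_surjective hQ rfl))
  refine Module.Finite.of_surjective ((Ideal.Quotient.mkₐ K I).toLinearMap ∘ₗ σ) fun y => ?_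
  obtain ⟨x, rfl⟩ := Ideal.Quotient.mk_surjective y
  refine ⟨β.rem Q Q.natDegree x, Ideal.Quotient.eq.2 ?_⟩
  obtain ⟨w, hw⟩ := (β.rem_eq_zero_iff hQ rfl).1
    (show β.rem Q Q.natDegree (σ (β.rem Q Q.natDegree x) - x) = 0 by
      rw [map_sub, ← LinearMap.comp_apply, hσ, LinearMap.id_apply, sub_self])
  rw [hw]
  exact I.mul_mem_right w hQI

/-- An ideal with finite quotient is the ideal of a point of some chart. -/
theorem exists_chartPt_of_finite {B : Type u} [CommRing B] [Algebra k B] (I : Ideal (K ⊗[k] B))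
    [Module.Finite K ((K ⊗[k] B) ⧸ I)] :
    ∃ (n : ℕ) (e : Fin n → B) (q : ChartPt k e K), q.ideal = I := by
  classical
  set S : Set ((K ⊗[k] B) ⧸ I) :=
    Set.range fun b : B => Ideal.Quotient.mk I ((1 : K) ⊗ₜ[k] b) with hS
  have hsp : Submodule.span K S = ⊤ := by
    rw [eq_top_iff]
    rintro y -
    obtain ⟨x, rfl⟩ := Ideal.Quotient.mk_surjective y
    induction x using TensorProduct.induction_on with
    | zero => rw [map_zero]; exact zero_mem _
    | tmul a b =>
      rw [show a ⊗ₜ[k] b = a • ((1 : K) ⊗ₜ[k] b) by simp [TensorProduct.smul_tmul'],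
        show Ideal.Quotient.mk I (a • ((1 : K) ⊗ₜ[k] b)) = a • Ideal.Quotient.mk I ((1 : K) ⊗ₜ[k] b)
          from map_smul (Ideal.Quotient.mkₐ K I) a _]
      exact Submodule.smul_mem _ _ (Submodule.subset_span ⟨b, rfl⟩)
    | add a b ha hb => rw [map_add]; exact add_mem ha hb
  obtain ⟨T, hTS, hTsp, hTli⟩ := exists_linearIndependent K S
  haveI : Finite T := hTli.finite
  haveI := Fintype.ofFinite T
  let Bs : Module.Basis T K ((K ⊗[k] B) ⧸ I) :=
    Module.Basis.mk hTli (by rw [Subtype.range_coe, hTsp, hsp])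
  let B' := Bs.reindex (Fintype.equivFin T)
  choose e he using fun i => hTS ((Fintype.equivFin T).symm i).2
  have hB' : ∀ i, B' i = Ideal.Quotient.mk I ((1 : K) ⊗ₜ[k] e i) := fun i => by
    simp only [B', Bs, Module.Basis.reindex_apply, Module.Basis.mk_apply]
    exact (he i).symm
  refine ⟨_, e, ChartPt.ofIdeal k e I B' hB', ?_⟩
  have hext : ∀ x, (ChartPt.ofIdeal k e I B' hB').ext' x = B'.equivFun (Ideal.Quotient.mk I x) := by
    intro x
    induction x using TensorProduct.induction_on with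
    | zero => simp
    | tmul a b =>
      rw [ChartPt.ext'_tmul, show a ⊗ₜ[k] b = a • ((1 : K) ⊗ₜ[k] b) by
          simp [TensorProduct.smul_tmul'],
        show Ideal.Quotient.mk I (a • ((1 : K) ⊗ₜ[k] b)) = a • Ideal.Quotient.mk I ((1 : K) ⊗ₜ[k] b)
          from map_smul (Ideal.Quotient.mkₐ K I) a _, map_smul]
      rfl
    | add a b ha hb => rw [map_add, map_add, map_add, ha, hb]
  ext x
  rw [ChartPt.mem_ideal, hext, LinearEquiv.map_eq_zero_iff, Ideal.Quotient.eq_zero_iff_mem]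

/-- A section over a field with no base point on the marked fibres is cut out by a point of some
chart. -/
theorem exists_cuts_of_section {M : Datum X K} (hchi : M.chi = 1)
    (hs : Function.Surjective (dlt M)) (p : fixed K M.e₁ × fixed K M.e₂) (hp : dlt M p = 0)
    (hpt : ∃ i, ptEval K X.pt ((p.1 : Fin M.n₁ → X.R₁ K) i) ≠ 0)
    (hg : Ideal.span (insert ((1 : K) ⊗ₜ[k] X.g) (Set.range (p.2 : Fin M.n₂ → X.R₂ K))) = ⊤) :
    ∃ (n : ℕ) (e : Fin n → X.B₁) (q : ChartPt k e K) (s₁ : Fin M.n₁ → X.R₁ K)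
      (s₂ : Fin M.n₂ → X.R₂ K), Cuts q M s₁ s₂ ∧
      Ideal.map (Algebra.TensorProduct.lift (AlgHom.id K K) ((Algebra.ofId k K).comp X.pt)
        (fun _ _ => Commute.all _ _)).toRingHom q.ideal = ⊤ ∧
      M.overlap ≤ LinearMap.range M.delta ∧
      ∀ y ∈ M.H0, ∃ a : K, y = a • (s₁, s₂) := by
  set s₁ : Fin M.n₁ → X.R₁ K := (p.1 : Fin M.n₁ → X.R₁ K)
  set s₂ : Fin M.n₂ → X.R₂ K := (p.2 : Fin M.n₂ → X.R₂ K)
  have hc : M.u *ᵥ (X.res₁ K ∘ s₁) = X.res₂ K ∘ s₂ := by
    have h := congrArg Subtype.val hp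
    rw [dlt_coe'] at h
    exact sub_eq_zero.1 h
  have hu : Ideal.span (Set.range s₂) ⊔ Ideal.span {(1 : K) ⊗ₜ[k] X.g} = ⊤ := by
    rw [← hg, Ideal.span_insert, sup_comm]
  obtain ⟨Q, hQ, hQI⟩ := exists_monic_mem hc hu
  haveI := finite_quotient_of_monic_mem X.isFree.1 (Ideal.span (Set.range s₁)) hQ hQI
  obtain ⟨n, e, q, hq⟩ := exists_chartPt_of_finite (Ideal.span (Set.range s₁))
  refine ⟨n, e, q, s₁, s₂, ⟨p.1.2, p.2.2, hc, hq.symm, hu⟩, ?_, ?_, fun y hy => ?_⟩
  · obtain ⟨i, hi⟩ := hpt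
    rw [hq]
    refine Ideal.eq_top_of_isUnit_mem _ (Ideal.mem_map_of_mem _ (Ideal.subset_span ⟨i, rfl⟩)) ?_
    exact isUnit_iff_ne_zero.2 hi
  · intro z hz
    rw [overlap_eq_fixed] at hz
    exact (mem_range_delta M ⟨z, hz⟩).1 (hs _)
  · haveI := (hasFiniteComplex M).1
    have h1 : Module.finrank K (LinearMap.ker (dlt M)) = 1 := by
      have h := chi_eq_euler M
      rw [hchi, euler] at h
      haveI : Subsingleton (fixed K (M.e₂.map (X.res₂ K)) ⧸ LinearMap.range (dlt M)) := by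
        rw [LinearMap.range_eq_top.2 hs]
        infer_instance
      rw [Module.finrank_zero_of_subsingleton (R := K)
        (M := fixed K (M.e₂.map (X.res₂ K)) ⧸ LinearMap.range (dlt M))] at h
      omega
    have hne : (⟨p, hp⟩ : LinearMap.ker (dlt M)) ≠ 0 := fun h => by
      obtain ⟨i, hi⟩ := hpt
      have h' : p = 0 := congrArg Subtype.val h
      exact hi (by simp only [s₁, h']; exact map_zero _)
    obtain ⟨a, ha⟩ := (finrank_eq_one_iff_of_nonzero' _ hne).1 h1
      ((kerEquiv M).symm ⟨y, hy⟩)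
    refine ⟨a, ?_⟩
    have h2 := congrArg (fun z => ((kerEquiv M z : M.H0) : (Fin M.n₁ → X.R₁ K) × (Fin M.n₂ → X.R₂ K))) ha
    simp only [LinearEquiv.apply_symm_apply] at h2
    exact h2.symm

end FLTAgent.PicScheme

end
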