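import Fermat.Agent.PicScheme.Chart
import Fermat.Agent.PicScheme.Chart.Diagonal

/-!
# The ideal of a point of the chart is finite projective

A quotient of `A ⊗ B` which is free over `A` has a two-step resolution through the ideal of the
diagonal, so its ideal has a dual basis.
-/

set_option autoImplicit false
set_option linter.unusedSectionVars false

noncomputable section

open TensorProduct Matrix

namespace FLTAgent.PicScheme

universe u

namespace ChartPt

variable {k B : Type u} [Field k] [CommRing B] [Algebra k B] {n : ℕ} {e : Fin n → B}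
  {A : Type u} [CommRing A] [Algebra k A] (p : ChartPt k e A)

/-- Multiplication by an element on the coordinates of the quotient. -/
def mulMat (c : B) : Matrix (Fin n) (Fin n) (A ⊗[k] B) :=
  Matrix.of fun l i => p.φ (c * e i) l ⊗ₜ[k] (1 : B)

/-- Multiplication as a homomorphism into matrices. -/
def mulHom : B →ₐ[k] Matrix (Fin n) (Fin n) (A ⊗[k] B) :=
  AlgHom.ofLinearMap
    { toFun := p.mulMat
      map_add' := fun c d => Matrix.ext fun l i => by
        simp [mulMat, add_mul, TensorProduct.add_tmul]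
      map_smul' := fun r c => Matrix.ext fun l i => by
        simp [mulMat, TensorProduct.smul_tmul'] }
    (Matrix.ext fun l i => by
      show p.φ (1 * e i) l ⊗ₜ[k] (1 : B) = (1 : Matrix (Fin n) (Fin n) (A ⊗[k] B)) l i
      rw [one_mul, p.basis, Matrix.one_apply, Pi.single_apply]
      by_cases h : l = i
      · rw [if_pos h, if_pos h]; rfl
      · rw [if_neg h, if_neg h, TensorProduct.zero_tmul])
    fun c d => Matrix.ext fun l i => by
      show p.φ (c * d * e i) l ⊗ₜ[k] (1 : B) = (p.mulMat c * p.mulMat d) l i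
      rw [mul_assoc, p.mul, Matrix.mul_apply, Finset.sum_apply, TensorProduct.sum_tmul]
      refine Finset.sum_congr rfl fun j _ => ?_
      rw [Pi.smul_apply, smul_eq_mul, mulMat, mulMat, Matrix.of_apply, Matrix.of_apply,
        Algebra.TensorProduct.tmul_mul_tmul, one_mul, mul_comm]

/-- `B ⊗ B` acting on vectors: the left factor by scalars, the right one on the quotient. -/
def theta : B ⊗[k] B →ₐ[k] Matrix (Fin n) (Fin n) (A ⊗[k] B) :=
  Algebra.TensorProduct.lift
    ((IsScalarTower.toAlgHom k (A ⊗[k] B) (Matrix (Fin n) (Fin n) (A ⊗[k] B))).comp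
      Algebra.TensorProduct.includeRight)
    p.mulHom fun b c => by
      show Commute (algebraMap (A ⊗[k] B) (Matrix (Fin n) (Fin n) (A ⊗[k] B)) ((1 : A) ⊗ₜ[k] b)) _
      exact Algebra.commute_algebraMap_left _ _

theorem theta_tmul (b c : B) :
    p.theta (b ⊗ₜ c) = ((1 : A) ⊗ₜ[k] b) • p.mulMat c := by
  rw [theta, Algebra.TensorProduct.lift_tmul, AlgHom.comp_apply, IsScalarTower.toAlgHom_apply,
    Algebra.TensorProduct.includeRight_apply, Algebra.smul_def]
  rfl

/-- The element of a vector of coefficients. -/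
def comb : (Fin n → A ⊗[k] B) →ₗ[A ⊗[k] B] A ⊗[k] B :=
  Fintype.linearCombination (A ⊗[k] B) fun i => (1 : A) ⊗ₜ[k] e i

theorem comb_apply (w : Fin n → A ⊗[k] B) : comb (e := e) w = ∑ i, w i * ((1 : A) ⊗ₜ[k] e i) := by
  simp [comb, Fintype.linearCombination_apply]

/-- The relations among the generators of the quotient. -/
def kerComb : Submodule (A ⊗[k] B) (Fin n → A ⊗[k] B) := Submodule.comap (comb (e := e)) p.ideal

theorem mem_kerComb {w : Fin n → A ⊗[k] B} :
    w ∈ p.kerComb ↔ p.ext' (comb (e := e) w) = 0 := Iff.rfl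

theorem theta_dd (b : B) :
    p.theta (dd b) = ((1 : A) ⊗ₜ[k] b) • (1 : Matrix (Fin n) (Fin n) (A ⊗[k] B)) - p.mulMat b := by
  have h1 : p.mulMat 1 = 1 := map_one p.mulHom
  rw [dd, map_sub, p.theta_tmul, p.theta_tmul, h1]
  congr 1
  rw [← Algebra.TensorProduct.one_def, one_smul]

theorem theta_dd_mem (b : B) (v : Fin n → A ⊗[k] B) : p.theta (dd b) *ᵥ v ∈ p.kerComb := by
  rw [← Finset.univ_sum_single v, Matrix.mulVec_sum]
  refine sum_mem fun i _ => ?_
  rw [show Pi.single i (v i) = v i • Pi.single i (1 : A ⊗[k] B) by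
    rw [← Pi.single_smul, smul_eq_mul, mul_one], Matrix.mulVec_smul]
  refine p.kerComb.smul_mem _ ?_
  rw [p.mem_kerComb, p.theta_dd, Matrix.sub_mulVec, Matrix.smul_mulVec, Matrix.one_mulVec, map_sub,
    map_smul, smul_eq_mul]
  have h1 : comb (e := e) (Pi.single i (1 : A ⊗[k] B)) = (1 : A) ⊗ₜ[k] e i := by
    rw [comb, Fintype.linearCombination_apply_single, one_smul]
  rw [h1, Algebra.TensorProduct.tmul_mul_tmul, one_mul, Matrix.mulVec_single_one, comb_apply,
    map_sub, map_sum, p.ext'_tmul, one_smul, sub_eq_zero]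
  rw [Finset.sum_congr rfl fun l _ => show p.ext' ((p.mulMat b).col i l * ((1 : A) ⊗ₜ[k] e l)) =
      Pi.single l (p.φ (b * e i) l) by
    rw [Matrix.col_apply, mulMat, Matrix.of_apply, Algebra.TensorProduct.tmul_mul_tmul, mul_one, one_mul, p.ext'_tmul,
      p.basis, ← Pi.single_smul, smul_eq_mul, mul_one]]
  exact (Finset.univ_sum_single _).symm

theorem theta_mem (z : diagonal k B) (v : Fin n → A ⊗[k] B) :
    p.theta (z : B ⊗[k] B) *ᵥ v ∈ p.kerComb := by
  obtain ⟨z, hz⟩ := z
  show p.theta z *ᵥ v ∈ p.kerComb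
  rw [diagonal_eq_span] at hz
  induction hz using Submodule.span_induction generalizing v with
  | mem x hx => obtain ⟨b, rfl⟩ := hx; exact p.theta_dd_mem b v
  | zero => simp
  | add x y _ _ hx hy => rw [map_add, Matrix.add_mulVec]; exact add_mem (hx v) (hy v)
  | smul r x _ hx =>
    rw [smul_eq_mul, mul_comm, map_mul, ← Matrix.mulVec_mulVec]
    exact hx _

variable {m : ℕ} {x : Fin m → diagonal k B} (y : Fin m → diagonal k B →ₗ[B ⊗[k] B] B ⊗[k] B)

/-- The coefficient of a relation on the `j`th generator of the diagonal, as a matrix. -/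
def coefMat (j : Fin m) : A ⊗[k] B →ₗ[A] Matrix (Fin n) (Fin n) (A ⊗[k] B) :=
  TensorProduct.AlgebraTensorModule.lift
    (LinearMap.toSpanSingleton A (B →ₗ[k] Matrix (Fin n) (Fin n) (A ⊗[k] B))
      { toFun := fun b => p.theta (y j ⟨dd b, dd_mem b⟩)
        map_add' := fun b c => by
          rw [show (⟨dd (k := k) (b + c), dd_mem _⟩ : diagonal k B) = ⟨dd b, dd_mem b⟩ + ⟨dd c, dd_mem c⟩ from
            Subtype.ext (by simp [dd, TensorProduct.add_tmul, TensorProduct.tmul_add, add_sub_add_comm]),
            map_add, map_add]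
        map_smul' := fun r b => by
          rw [RingHom.id_apply, show (⟨dd (k := k) (r • b), dd_mem _⟩ : diagonal k B) =
            algebraMap k (B ⊗[k] B) r • ⟨dd b, dd_mem b⟩ from Subtype.ext (by
              show dd (r • b) = algebraMap k (B ⊗[k] B) r * dd b
              rw [← Algebra.smul_def, dd, dd, smul_sub, ← TensorProduct.smul_tmul',
                TensorProduct.tmul_smul]),
            map_smul, smul_eq_mul, map_mul, AlgHom.commutes, ← Algebra.smul_def] })

theorem coefMat_tmul (j : Fin m) (a : A) (b : B) :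
    p.coefMat y j (a ⊗ₜ b) = a • p.theta (y j ⟨dd b, dd_mem b⟩) := by
  simp [coefMat, LinearMap.toSpanSingleton]

/-- The coefficients of a relation on the `j`th generator. -/
def coef (j : Fin m) (w : Fin n → A ⊗[k] B) : Fin n → A ⊗[k] B :=
  ∑ i, p.coefMat y j (w i) *ᵥ Pi.single i 1

theorem coef_add (j : Fin m) (w w' : Fin n → A ⊗[k] B) :
    p.coef y j (w + w') = p.coef y j w + p.coef y j w' := by
  simp only [coef, map_add, Pi.add_apply, Matrix.add_mulVec, Finset.sum_add_distrib]

theorem coefMat_mul (j : Fin m) (c : B) (r : A ⊗[k] B) :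
    p.coefMat y j (((1 : A) ⊗ₜ c) * r) = ((1 : A) ⊗ₜ[k] c) • p.coefMat y j r +
      p.theta (y j ⟨dd c, dd_mem c⟩) *
        TensorProduct.AlgebraTensorModule.lift (LinearMap.toSpanSingleton A
          (B →ₗ[k] Matrix (Fin n) (Fin n) (A ⊗[k] B)) p.mulHom.toLinearMap) r := by
  induction r using TensorProduct.induction_on with
  | zero => simp
  | tmul a b =>
    rw [Algebra.TensorProduct.tmul_mul_tmul, one_mul, p.coefMat_tmul, p.coefMat_tmul]
    rw [show (⟨dd (k := k) (c * b), dd_mem _⟩ : diagonal k B) =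
      (c ⊗ₜ[k] (1 : B)) • ⟨dd b, dd_mem b⟩ + ((1 : B) ⊗ₜ[k] b) • ⟨dd c, dd_mem c⟩ from
        Subtype.ext (by simpa using dd_mul (k := k) c b)]
    rw [map_add, map_smul, map_smul, smul_eq_mul, smul_eq_mul, map_add, map_mul,
      mul_comm ((1 : B) ⊗ₜ[k] b), map_mul, p.theta_tmul c 1, p.theta_tmul 1 b,
      show p.mulMat 1 = 1 from map_one p.mulHom, ← Algebra.TensorProduct.one_def, one_smul,
      smul_mul_assoc, one_mul, smul_add, smul_comm a]
    simp only [TensorProduct.AlgebraTensorModule.lift_tmul, LinearMap.toSpanSingleton_apply,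
      LinearMap.smul_apply, AlgHom.toLinearMap_apply, mul_smul_comm]
    rfl
  | add r s hr hs => simp only [mul_add, map_add, hr, hs, smul_add]; abel

theorem sum_lift_mulHom (w : Fin n → A ⊗[k] B) :
    (∑ i, (TensorProduct.AlgebraTensorModule.lift (LinearMap.toSpanSingleton A
      (B →ₗ[k] Matrix (Fin n) (Fin n) (A ⊗[k] B)) p.mulHom.toLinearMap) (w i)) *ᵥ Pi.single i 1) =
      fun l => p.ext' (comb (e := e) w) l ⊗ₜ[k] (1 : B) := by
  funext l
  rw [Finset.sum_apply, comb_apply, map_sum, Finset.sum_apply, TensorProduct.sum_tmul]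
  refine Finset.sum_congr rfl fun i _ => ?_
  induction w i using TensorProduct.induction_on with
  | zero => simp
  | tmul a b =>
    rw [TensorProduct.AlgebraTensorModule.lift_tmul, Algebra.TensorProduct.tmul_mul_tmul, mul_one,
      p.ext'_tmul, Matrix.mulVec_single_one]
    show (a • p.mulMat b) l i = _
    rw [Matrix.smul_apply, mulMat, Matrix.of_apply, TensorProduct.smul_tmul', Pi.smul_apply]
  | add r s hr hs =>
    simp only [map_add, Matrix.add_mulVec, Pi.add_apply, add_mul, TensorProduct.add_tmul, hr, hs]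

theorem sum_lift_mulHom_eq_zero (w : p.kerComb) :
    (∑ i, (TensorProduct.AlgebraTensorModule.lift (LinearMap.toSpanSingleton A
      (B →ₗ[k] Matrix (Fin n) (Fin n) (A ⊗[k] B)) p.mulHom.toLinearMap) (w.1 i)) *ᵥ Pi.single i 1) = 0 := by
  rw [p.sum_lift_mulHom, p.mem_kerComb.1 w.2]
  funext l
  simp

theorem coef_smulA (j : Fin m) (a : A) (w : Fin n → A ⊗[k] B) :
    p.coef y j (a • w) = a • p.coef y j w := by
  simp only [coef, Pi.smul_apply, map_smul, Matrix.smul_mulVec, Finset.smul_sum]

theorem coef_smul (j : Fin m) (r : A ⊗[k] B) (w : p.kerComb) :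
    p.coef y j (r • w.1) = r • p.coef y j w.1 := by
  induction r using TensorProduct.induction_on with
  | zero =>
    rw [zero_smul, zero_smul]
    simp only [coef, Pi.zero_apply, map_zero, Matrix.zero_mulVec, Finset.sum_const_zero]
  | tmul a c =>
    rw [show a ⊗ₜ[k] c = a • ((1 : A) ⊗ₜ[k] c) by rw [TensorProduct.smul_tmul', smul_eq_mul, mul_one],
      smul_assoc, smul_assoc, p.coef_smulA]
    congr 1
    simp only [coef, Pi.smul_apply, smul_eq_mul, p.coefMat_mul, Matrix.add_mulVec,
      Finset.sum_add_distrib, Matrix.smul_mulVec, ← Matrix.mulVec_mulVec, ← Finset.smul_sum,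
      ← Matrix.mulVec_sum, p.sum_lift_mulHom_eq_zero, Matrix.mulVec_zero, add_zero]
  | add r s hr hs => rw [add_smul, p.coef_add, hr, hs, add_smul]

theorem sum_theta_coef (hxy : ∀ z : diagonal k B, ∑ j, y j z • x j = z) (w : p.kerComb) :
    ∑ j, p.theta (x j : B ⊗[k] B) *ᵥ p.coef y j w.1 = w.1 := by
  simp only [coef, Matrix.mulVec_sum, Matrix.mulVec_mulVec]
  rw [Finset.sum_comm]
  simp only [← Matrix.sum_mulVec]
  have key : ∀ r : A ⊗[k] B, (∑ j, p.theta (x j : B ⊗[k] B) * p.coefMat y j r) =
      r • (1 : Matrix (Fin n) (Fin n) (A ⊗[k] B)) -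
        TensorProduct.AlgebraTensorModule.lift (LinearMap.toSpanSingleton A
          (B →ₗ[k] Matrix (Fin n) (Fin n) (A ⊗[k] B)) p.mulHom.toLinearMap) r := by
    intro r
    induction r using TensorProduct.induction_on with
    | zero => simp
    | tmul a b =>
      simp only [p.coefMat_tmul, mul_smul_comm, ← map_mul, ← Finset.smul_sum]
      rw [← map_sum]
      have := congrArg Subtype.val (hxy ⟨dd b, dd_mem b⟩)
      simp only [AddSubmonoidClass.coe_finsetSum, SetLike.val_smul, smul_eq_mul] at this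
      simp only [mul_comm (x _ : B ⊗[k] B), this, p.theta_dd, smul_sub]
      rw [TensorProduct.AlgebraTensorModule.lift_tmul]
      congr 1
      rw [← smul_assoc, TensorProduct.smul_tmul', smul_eq_mul, mul_one]
    | add r s hr hs =>
      simp only [map_add, mul_add, Finset.sum_add_distrib, hr, hs, add_smul]
      abel
  simp only [key, Matrix.sub_mulVec, Finset.sum_sub_distrib, p.sum_lift_mulHom_eq_zero, sub_zero,
    Matrix.smul_mulVec, Matrix.one_mulVec]
  conv_rhs => rw [← Finset.univ_sum_single w.1]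
  exact Finset.sum_congr rfl fun i _ => by rw [← Pi.single_smul, smul_eq_mul, mul_one]

/-- The relations form a finite projective module. -/
theorem kerComb_finite_projective (hB : GoodChart k B) :
    Module.Finite (A ⊗[k] B) p.kerComb ∧ Module.Projective (A ⊗[k] B) p.kerComb := by
  obtain ⟨m, x, y, hxy⟩ := hB.exists_dual_basis
  set s : p.kerComb →ₗ[A ⊗[k] B] (Fin m → Fin n → A ⊗[k] B) :=
    { toFun := fun w j => p.coef y j w.1
      map_add' := fun v w => funext fun j => p.coef_add y j v.1 w.1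
      map_smul' := fun r w => funext fun j => p.coef_smul y j r w }
  set t : (Fin m → Fin n → A ⊗[k] B) →ₗ[A ⊗[k] B] p.kerComb :=
    (∑ j, (Matrix.mulVecLin (p.theta (x j : B ⊗[k] B))) ∘ₗ LinearMap.proj j).codRestrict p.kerComb
      fun v => by
        rw [LinearMap.sum_apply]
        exact sum_mem fun j _ => p.theta_mem (x j) _
  have hts : t ∘ₗ s = LinearMap.id := LinearMap.ext fun w => Subtype.ext (by
    simpa [t, s, LinearMap.sum_apply] using p.sum_theta_coef y hxy w)
  exact ⟨Module.Finite.of_surjective t fun w => ⟨s w, LinearMap.congr_fun hts w⟩,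
    Module.Projective.of_split s t hts⟩

/-- The ideal of a point is finite projective. -/
theorem ideal_finite_projective (hB : GoodChart k B) :
    Module.Finite (A ⊗[k] B) p.ideal ∧ Module.Projective (A ⊗[k] B) p.ideal := by
  obtain ⟨h1, h2⟩ := p.kerComb_finite_projective hB
  set v : Fin n → A ⊗[k] B := fun l => p.φ 1 l ⊗ₜ[k] (1 : B)
  have hv : 1 - comb (e := e) v ∈ p.ideal := by
    rw [p.mem_ideal, map_sub, comb_apply, map_sum, sub_eq_zero]
    have : ∀ l, p.ext' (v l * ((1 : A) ⊗ₜ[k] e l)) = Pi.single l (p.φ 1 l) := fun l => by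
      rw [Algebra.TensorProduct.tmul_mul_tmul, mul_one, one_mul, p.ext'_tmul, p.basis,
        ← Pi.single_smul, smul_eq_mul, mul_one]
    rw [Finset.sum_congr rfl fun l _ => this l, Finset.univ_sum_single, Algebra.TensorProduct.one_def,
      p.ext'_tmul, one_smul]
  set s : p.ideal →ₗ[A ⊗[k] B] p.kerComb × (A ⊗[k] B) :=
    { toFun := fun z => (⟨(z : A ⊗[k] B) • v, by
        show comb (e := e) ((z : A ⊗[k] B) • v) ∈ p.ideal
        rw [map_smul, smul_eq_mul]
        exact p.ideal.mul_mem_right _ z.2⟩, z)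
      map_add' := fun z w => Prod.ext (Subtype.ext (by simp [add_smul])) rfl
      map_smul' := fun r z => Prod.ext (Subtype.ext (by simp [mul_smul])) rfl }
  set t : p.kerComb × (A ⊗[k] B) →ₗ[A ⊗[k] B] p.ideal :=
    (((comb (e := e)).domRestrict p.kerComb).codRestrict p.ideal fun w => w.2).coprod
      ((LinearMap.toSpanSingleton (A ⊗[k] B) (A ⊗[k] B) (1 - comb (e := e) v)).codRestrict p.ideal
        fun r => p.ideal.mul_mem_left r hv)
  have hts : t ∘ₗ s = LinearMap.id := LinearMap.ext fun z => Subtype.ext (by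
    show comb (e := e) ((z : A ⊗[k] B) • v) + (z : A ⊗[k] B) • (1 - comb (e := e) v) = z
    rw [map_smul, smul_eq_mul, smul_eq_mul]
    ring)
  exact ⟨Module.Finite.of_surjective t fun w => ⟨s w, LinearMap.congr_fun hts w⟩,
    Module.Projective.of_split s t hts⟩

/-- The ideal of a point has a dual basis. -/
theorem exists_dual_basis (hB : GoodChart k B) :
    ∃ (m : ℕ) (x : Fin m → p.ideal) (y : Fin m → p.ideal →ₗ[A ⊗[k] B] A ⊗[k] B),
      ∀ z : p.ideal, ∑ j, y j z • x j = z := by
  obtain ⟨h1, h2⟩ := p.ideal_finite_projective hB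
  obtain ⟨m, f, hf⟩ := Module.Finite.exists_fin' (A ⊗[k] B) p.ideal
  obtain ⟨s, hs⟩ := Module.projective_lifting_property f LinearMap.id hf
  refine ⟨m, fun j => f (Pi.single j 1), fun j => LinearMap.proj j ∘ₗ s, fun z => ?_⟩
  conv_rhs => rw [← show f (s z) = z from LinearMap.congr_fun hs z, ← Finset.univ_sum_single (s z),
    map_sum]
  refine Finset.sum_congr rfl fun j _ => ?_
  rw [← map_smul, ← Pi.single_smul, smul_eq_mul, mul_one]
  rfl

end ChartPt

end FLTAgent.PicScheme
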