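import Fermat.Agent.PicScheme.Chart.Sections
import Fermat.Agent.PicScheme.Chart.Ideal
import Fermat.Agent.PicScheme.Tensor

/-!
# The datum of a point of the chart
-/

set_option autoImplicit false
set_option linter.unusedSectionVars false

noncomputable section

universe u

open TensorProduct Matrix

namespace FLTAgent.PicScheme

section DualBasis

variable {R : Type u} [CommRing R] {J : Ideal R}

/-- A dual basis of an ideal. -/
structure DBasis (J : Ideal R) (m : ℕ) where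
  x : Fin m → J
  y : Fin m → J →ₗ[R] R
  sum_eq : ∀ z : J, ∑ j, y j z * (x j : R) = z

namespace DBasis

variable {m m' : ℕ} (D : DBasis J m) (D' : DBasis J m')

/-- The coefficients of the generators of the second basis on the first. -/
def cross : Matrix (Fin m) (Fin m') R := Matrix.of fun i j => D.y i (D'.x j)

theorem apply_mul (i : Fin m) (z w : J) : D.y i z * (w : R) = D.y i w * (z : R) := by
  have h : (w : R) • z = (z : R) • w := Subtype.ext (mul_comm _ _)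
  have := congrArg (D.y i) h
  rw [map_smul, map_smul, smul_eq_mul, smul_eq_mul] at this
  linear_combination this

theorem apply_sum (i : Fin m) (z : J) : ∑ j, D'.y j z * D.y i (D'.x j) = D.y i z := by
  have h : ∑ j, D'.y j z • D'.x j = z := Subtype.ext (by
    rw [AddSubmonoidClass.coe_finsetSum]
    simpa using D'.sum_eq z)
  conv_rhs => rw [← h, map_sum]
  simp [map_smul]

theorem cross_mul {m'' : ℕ} (D'' : DBasis J m'') :
    D.cross D' * D'.cross D'' = D.cross D'' := by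
  ext i l
  simp only [Matrix.mul_apply, cross, Matrix.of_apply]
  rw [← D.apply_sum D' i (D''.x l)]
  exact Finset.sum_congr rfl fun j _ => mul_comm _ _

theorem isRankOne {P : J} (hP : ∀ r : R, r * (P : R) = 0 → r = 0) : IsRankOne (D.cross D) where
  idem := D.cross_mul D D
  trace := by
    refine sub_eq_zero.1 (hP _ ?_)
    rw [Matrix.trace, sub_mul, one_mul, Finset.sum_mul, sub_eq_zero]
    conv_rhs => rw [← D.sum_eq P]
    exact Finset.sum_congr rfl fun i _ => D.apply_mul i (D.x i) P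
  minors i j l n := by
    simp only [cross, Matrix.of_apply]
    have h1 : D.y l (D.y i (D.x j) • D.x n) = D.y l (D.y i (D.x n) • D.x j) :=
      congrArg (D.y l) (Subtype.ext (D.apply_mul i (D.x j) (D.x n)))
    rwa [map_smul, map_smul, smul_eq_mul, smul_eq_mul] at h1

end DBasis

end DualBasis

variable {k : Type u} [Field k] {X : Charts k} {A : Type u} [CommRing A] [Algebra k A]
  {n : ℕ} {e : Fin n → X.B₁}

theorem res₁_f : X.res₁ A ((1 : A) ⊗ₜ[k] X.f) = X.t₀ A := rfl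

theorem res₂_g : X.res₂ A ((1 : A) ⊗ₜ[k] X.g) = X.s₀ A := rfl

namespace ChartPt

variable (p : ChartPt k e A)

/-- The ideal on the overlap. -/
def ideal₀ : Ideal (X.R₀ A) where
  carrier := {z | ∃ (N : ℕ) (w : X.R₁ A), w ∈ p.ideal ∧ X.t₀ A ^ N * z = X.res₁ A w}
  zero_mem' := ⟨0, 0, zero_mem _, by simp⟩
  add_mem' := by
    rintro z z' ⟨N, w, hw, h⟩ ⟨N', w', hw', h'⟩
    refine ⟨N + N', ((1 : A) ⊗ₜ X.f) ^ N' * w + ((1 : A) ⊗ₜ X.f) ^ N * w',
      add_mem (Ideal.mul_mem_left _ _ hw) (Ideal.mul_mem_left _ _ hw'), ?_⟩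
    rw [map_add, map_mul, map_mul, map_pow, map_pow, ← h, ← h', res₁_f]
    ring
  smul_mem' := by
    rintro r z ⟨N, w, hw, h⟩
    obtain ⟨M, v, hv⟩ := X.exists_res₁ A r
    refine ⟨M + N, v * w, Ideal.mul_mem_left _ _ hw, ?_⟩
    rw [smul_eq_mul, map_mul, ← hv, ← h]
    ring

theorem res_mem_ideal₀ {w : X.R₁ A} (hw : w ∈ p.ideal) : X.res₁ A w ∈ p.ideal₀ :=
  ⟨0, w, hw, by simp⟩

theorem exists_ext (Y : p.ideal →ₗ[X.R₁ A] X.R₁ A) :
    ∃ Y₀ : p.ideal₀ →ₗ[X.R₀ A] X.R₀ A,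
      ∀ w : p.ideal, Y₀ ⟨X.res₁ A w, p.res_mem_ideal₀ w.2⟩ = X.res₁ A (Y w) := by
  have hwd : ∀ (z : X.R₀ A) (N N' : ℕ) (w w' : p.ideal), X.t₀ A ^ N * z = X.res₁ A w →
      X.t₀ A ^ N' * z = X.res₁ A w' →
      X.s₀ A ^ N * X.res₁ A (Y w) = X.s₀ A ^ N' * X.res₁ A (Y w') := by
    intro z N N' w w' h h'
    have e1 : (((1 : A) ⊗ₜ[k] X.f) ^ N' : X.R₁ A) • w = (((1 : A) ⊗ₜ[k] X.f) ^ N : X.R₁ A) • w' :=
      Subtype.ext (X.res₁_injective A X.isFree (by
        simp only [SetLike.val_smul, smul_eq_mul, map_mul, map_pow, res₁_f, ← h, ← h']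
        ring))
    have e2 := congrArg (fun v => X.res₁ A (Y v)) e1
    simp only [map_smul, smul_eq_mul, map_mul, map_pow, res₁_f] at e2
    have hts : ∀ M, X.s₀ A ^ M * X.t₀ A ^ M = 1 := fun M => by rw [← mul_pow, X.s₀_mul_t₀, one_pow]
    calc X.s₀ A ^ N * X.res₁ A (Y w)
        = X.s₀ A ^ N * X.s₀ A ^ N' * (X.t₀ A ^ N' * X.res₁ A (Y w)) := by
          linear_combination (-(X.s₀ A ^ N * X.res₁ A (Y w))) * hts N'
      _ = X.s₀ A ^ N * X.s₀ A ^ N' * (X.t₀ A ^ N * X.res₁ A (Y w')) := by rw [e2]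
      _ = X.s₀ A ^ N' * X.res₁ A (Y w') := by
          linear_combination (X.s₀ A ^ N' * X.res₁ A (Y w')) * hts N
  choose N w hw h using fun z : p.ideal₀ => z.2
  have hval : ∀ (z : p.ideal₀) (M : ℕ) (v : p.ideal), X.t₀ A ^ M * (z : X.R₀ A) = X.res₁ A v →
      X.s₀ A ^ N z * X.res₁ A (Y ⟨w z, hw z⟩) = X.s₀ A ^ M * X.res₁ A (Y v) :=
    fun z M v hv => hwd z (N z) M ⟨w z, hw z⟩ v (h z) hv
  refine ⟨{ toFun := fun z => X.s₀ A ^ N z * X.res₁ A (Y ⟨w z, hw z⟩), map_add' := ?_, map_smul' := ?_ },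
    fun v => (hval _ 0 v (by simp)).trans (by simp)⟩
  · intro z z'
    rw [hval (z + z') (N z + N z') ((((1 : A) ⊗ₜ[k] X.f) ^ N z' : X.R₁ A) • ⟨w z, hw z⟩ +
      (((1 : A) ⊗ₜ[k] X.f) ^ N z : X.R₁ A) • ⟨w z', hw z'⟩) ?_]
    · simp only [map_add, map_smul, smul_eq_mul, map_mul, map_pow, res₁_f]
      have hts : ∀ M, X.s₀ A ^ M * X.t₀ A ^ M = 1 := fun M => by rw [← mul_pow, X.s₀_mul_t₀, one_pow]
      linear_combination (X.s₀ A ^ N z * X.res₁ A (Y ⟨w z, hw z⟩)) * hts (N z') +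
        (X.s₀ A ^ N z' * X.res₁ A (Y ⟨w z', hw z'⟩)) * hts (N z)
    · simp only [Submodule.coe_add, SetLike.val_smul, smul_eq_mul, map_add, map_mul, map_pow,
        res₁_f, ← h]
      ring
  · intro r z
    obtain ⟨M, v, hv⟩ := X.exists_res₁ A r
    rw [hval (r • z) (M + N z) (v • ⟨w z, hw z⟩) ?_, RingHom.id_apply, smul_eq_mul]
    · rw [map_smul, smul_eq_mul, map_mul, ← hv]
      have hts : X.s₀ A ^ M * X.t₀ A ^ M = 1 := by rw [← mul_pow, X.s₀_mul_t₀, one_pow]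
      linear_combination (X.s₀ A ^ N z * r * X.res₁ A (Y ⟨w z, hw z⟩)) * hts
    · simp only [SetLike.val_smul, smul_eq_mul, map_mul, ← hv, ← h]
      ring

/-- Every point of the chart is cut out by a section of some datum. -/
theorem exists_cuts (hB : GoodChart k X.B₁) :
    ∃ (L : Datum X A) (s₁ : Fin L.n₁ → X.R₁ A) (s₂ : Fin L.n₂ → X.R₂ A), Cuts p L s₁ s₂ := by
  obtain ⟨m, x, y, hxy⟩ := p.exists_dual_basis hB
  let D₁ : DBasis p.ideal m := ⟨x, y, fun z => by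
    have := congrArg Subtype.val (hxy z)
    simpa [AddSubmonoidClass.coe_finsetSum] using this⟩
  set P : p.ideal := ⟨_, p.normPoly_mem⟩
  have hP : ∀ r : X.R₁ A, r * (P : X.R₁ A) = 0 → r = 0 := fun r hr =>
    Charts.mul_norm_eq_zero p.normPoly_monic hr
  choose y₀ hy₀ using fun i => p.exists_ext (y i)
  -- the basis over the overlap
  set x₀ : Fin m → p.ideal₀ := fun i => ⟨X.res₁ A (x i), p.res_mem_ideal₀ (x i).2⟩
  have hsum₀ : ∀ z : p.ideal₀, ∑ j, y₀ j z * (x₀ j : X.R₀ A) = z := by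
    intro z
    obtain ⟨N, w, hw, hz⟩ := z.2
    have hts : X.s₀ A ^ N * X.t₀ A ^ N = 1 := by rw [← mul_pow, X.s₀_mul_t₀, one_pow]
    have hz' : z = X.s₀ A ^ N • (⟨X.res₁ A w, p.res_mem_ideal₀ hw⟩ : p.ideal₀) := Subtype.ext (by
      simp only [SetLike.val_smul, smul_eq_mul, ← hz, ← mul_assoc, hts, one_mul])
    conv_lhs => rw [hz']
    simp only [map_smul, smul_eq_mul, hy₀ _ ⟨w, hw⟩, x₀, mul_assoc, ← map_mul, ← Finset.mul_sum,
      ← map_sum]
    rw [show (∑ j, y j ⟨w, hw⟩ * (x j : X.R₁ A)) = w from D₁.sum_eq ⟨w, hw⟩]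
    rw [hz']
    rfl
  let D₀ : DBasis p.ideal₀ m := ⟨x₀, y₀, hsum₀⟩
  -- the section of the norm on the second chart
  set q := p.normPoly
  set d := q.natDegree
  set Q : X.R₂ A := ∑ l ∈ Finset.range (d + 1), q.coeff l • ((1 : A) ⊗ₜ[k] X.g) ^ (d - l)
  have hQ : X.res₂ A Q = X.s₀ A ^ d * X.res₁ A (P : X.R₁ A) := by
    show X.res₂ A Q = X.s₀ A ^ d * X.res₁ A (Polynomial.aeval _ q)
    rw [Polynomial.aeval_eq_sum_range, map_sum, map_sum, Finset.mul_sum]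
    refine Finset.sum_congr rfl fun l hl => ?_
    rw [map_smul, map_smul, map_pow, map_pow, res₂_g, res₁_f, mul_smul_comm]
    congr 1
    have hl' : l ≤ d := Nat.le_of_lt_succ (Finset.mem_range.1 hl)
    conv_rhs => rw [← Nat.sub_add_cancel hl', pow_add, mul_assoc, ← mul_pow, X.s₀_mul_t₀, one_pow, mul_one]
  obtain ⟨h, hQ1⟩ : ∃ h, Q = 1 + h * ((1 : A) ⊗ₜ[k] X.g) := by
    refine ⟨∑ l ∈ Finset.range d, q.coeff l • ((1 : A) ⊗ₜ[k] X.g) ^ (d - l - 1), ?_⟩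
    show (∑ l ∈ Finset.range (d + 1), q.coeff l • ((1 : A) ⊗ₜ[k] X.g) ^ (d - l) : X.R₂ A) = _
    rw [Finset.sum_range_succ, Nat.sub_self, pow_zero,
      show q.coeff d = 1 from p.normPoly_monic, one_smul, add_comm, Finset.sum_mul]
    congr 1
    refine Finset.sum_congr rfl fun l hl => ?_
    rw [smul_mul_assoc, ← pow_succ, show d - l - 1 + 1 = d - l by
      have := Finset.mem_range.1 hl; omega]
  choose N' x' hx' using fun i => X.exists_res₂ A (x₀ i : X.R₀ A)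
  set N := Finset.univ.sup N'
  have hQmem : X.res₂ A Q ∈ p.ideal₀ := by rw [hQ]; exact Ideal.mul_mem_left _ _ (p.res_mem_ideal₀ P.2)
  set x₂ : Fin (m + 1) → p.ideal₀ := Fin.cons ⟨X.res₂ A Q, hQmem⟩ (fun i => X.s₀ A ^ N • x₀ i)
  have hx₂ : ∀ b, ∃ z : X.R₂ A, X.res₂ A z = (x₂ b : X.R₀ A) := by
    refine Fin.cases ?_ (fun i => ?_)
    · exact ⟨Q, by simp [x₂]⟩
    · refine ⟨((1 : A) ⊗ₜ[k] X.g) ^ (N - N' i) * x' i, ?_⟩
      simp only [x₂, Fin.cons_succ, SetLike.val_smul, smul_eq_mul, map_mul, map_pow, res₂_g, ← hx' i]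
      rw [← mul_assoc, ← pow_add, Nat.sub_add_cancel (Finset.le_sup (f := N') (Finset.mem_univ i))]
  choose z₂ hz₂ using hx₂
  choose K v hv using fun (ib : Fin m × Fin (m + 1)) => X.exists_res₂ A (y₀ ib.1 (x₂ ib.2))
  set M := N + Finset.univ.sup K
  obtain ⟨a, b, hab⟩ : ∃ a b : X.R₂ A, a * ((1 : A) ⊗ₜ[k] X.g) ^ M + b * Q = 1 := by
    have : IsCoprime (((1 : A) ⊗ₜ[k] X.g) ^ M) Q :=
      IsCoprime.pow_left ⟨-h, 1, by rw [hQ1]; ring⟩
    exact this
  set y₂ : Fin (m + 1) → p.ideal₀ →ₗ[X.R₀ A] X.R₀ A :=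
    Fin.cons (X.res₂ A b • p.ideal₀.subtype) (fun i => (X.res₂ A a * X.s₀ A ^ (M - N)) • y₀ i)
  have hab₀ : X.res₂ A a * X.s₀ A ^ M + X.res₂ A b * X.res₂ A Q = 1 := by
    have := congrArg (X.res₂ A) hab
    rw [map_add, map_mul, map_mul, map_pow, res₂_g, map_one] at this
    exact this
  have hsum₂ : ∀ z : p.ideal₀, ∑ j, y₂ j z * (x₂ j : X.R₀ A) = z := by
    intro z
    rw [Fin.sum_univ_succ]
    simp only [x₂, y₂, Fin.cons_zero, Fin.cons_succ, LinearMap.smul_apply, smul_eq_mul,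
      SetLike.val_smul, Submodule.coe_subtype]
    have e1 : ∀ i, X.res₂ A a * X.s₀ A ^ (M - N) * y₀ i z * (X.s₀ A ^ N * (x₀ i : X.R₀ A)) =
        X.res₂ A a * X.s₀ A ^ M * (y₀ i z * (x₀ i : X.R₀ A)) := fun i => by
      rw [← Nat.sub_add_cancel (show N ≤ M from Nat.le_add_right _ _), pow_add, Nat.add_sub_cancel]
      ring
    simp only [e1, ← Finset.mul_sum, hsum₀]
    linear_combination (z : X.R₀ A) * hab₀
  let D₂ : DBasis p.ideal₀ (m + 1) := ⟨x₂, y₂, hsum₂⟩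
  have hint : ∀ i j, ∃ z : X.R₂ A, X.res₂ A z = D₂.cross D₂ i j := by
    refine Fin.cases (fun j => ⟨b * z₂ j, ?_⟩) (fun i j => ⟨a * ((1 : A) ⊗ₜ[k] X.g) ^ (M - N - K (i, j)) * v (i, j), ?_⟩)
    · simp [DBasis.cross, D₂, y₂, hz₂]
    · simp only [DBasis.cross, D₂, y₂, Matrix.of_apply, Fin.cons_succ, LinearMap.smul_apply, smul_eq_mul,
        map_mul, map_pow, res₂_g, ← hv (i, j)]
      have : K (i, j) ≤ M - N := by
        simpa [M] using Finset.le_sup (f := K) (Finset.mem_univ (i, j))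
      conv_rhs => rw [← Nat.sub_add_cancel this, pow_add]
      ring
  choose E hE using hint
  have hE' : (Matrix.of E).map (X.res₂ A) = D₂.cross D₂ := Matrix.ext hE
  have hres₁ : (D₁.cross D₁).map (X.res₁ A) = D₀.cross D₀ :=
    Matrix.ext fun i j => (hy₀ i (x j)).symm
  have hP₀ : ∀ r : X.R₀ A, r * X.res₁ A (P : X.R₁ A) = 0 → r = 0 := fun r hr =>
    Charts.mul_res_norm_eq_zero p.normPoly_monic hr
  have h₂ := D₂.isRankOne (P := ⟨_, p.res_mem_ideal₀ P.2⟩) hP₀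
  have hinj := X.res₂_injective A X.isFree
  have hrank₂ : IsRankOne (Matrix.of E) := by
    rw [← hE'] at h₂
    refine ⟨Matrix.map_injective hinj ?_, hinj ?_, fun i j l n => hinj ?_⟩
    · show (Matrix.of E * Matrix.of E).map (X.res₂ A) = _
      rw [Matrix.map_mul, h₂.idem]
    · rw [map_one, ← h₂.trace]
      exact map_sum (X.res₂ A) _ _
    · rw [map_mul, map_mul]; exact h₂.minors i j l n
  let L : Datum X A :=
    { n₁ := m
      n₂ := m + 1
      e₁ := D₁.cross D₁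
      e₂ := Matrix.of E
      u := D₂.cross D₀
      v := D₀.cross D₂
      rank₁ := D₁.isRankOne hP
      rank₂ := hrank₂
      uv := by rw [DBasis.cross_mul, hE']
      vu := by rw [DBasis.cross_mul, hres₁]
      u_cut := by rw [hres₁, DBasis.cross_mul]
      v_cut := by rw [hE', DBasis.cross_mul] }
  refine ⟨L.dual, fun i => (x i : X.R₁ A), z₂, ⟨?_, ?_, ?_, ?_, ?_⟩⟩
  · funext i
    show ∑ j, y j (x i) * (x j : X.R₁ A) = x i
    exact D₁.sum_eq (x i)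
  · funext i
    refine hinj ?_
    show X.res₂ A (∑ j, E j i * z₂ j) = X.res₂ A (z₂ i)
    rw [map_sum]
    refine Eq.trans (Finset.sum_congr rfl fun j _ => ?_) ((hsum₂ (x₂ i)).trans (hz₂ i).symm)
    rw [map_mul]
    exact congrArg₂ (· * ·) (hE j i) (hz₂ j)
  · funext i
    show ∑ j, D₀.y j (x₂ i) * X.res₁ A (x j : X.R₁ A) = X.res₂ A (z₂ i)
    exact (hsum₀ (x₂ i)).trans (hz₂ i).symm
  · refine le_antisymm (Ideal.span_le.2 (by rintro _ ⟨i, rfl⟩; exact (x i).2)) fun z hz => ?_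
    rw [show z = ∑ j, y j ⟨z, hz⟩ * (x j : X.R₁ A) from (D₁.sum_eq ⟨z, hz⟩).symm]
    exact Submodule.sum_mem _ fun j _ => Ideal.mul_mem_left _ _ (Ideal.subset_span ⟨j, rfl⟩)
  · rw [Ideal.eq_top_iff_one]
    have hz0 : z₂ 0 = Q := hinj (by rw [hz₂]; simp [x₂])
    refine Submodule.mem_sup.2 ⟨z₂ 0, Ideal.subset_span ⟨(0 : Fin (m + 1)), rfl⟩, -h * ((1 : A) ⊗ₜ[k] X.g),
      Ideal.mul_mem_left _ _ (Ideal.subset_span rfl), ?_⟩
    rw [hz0, hQ1]
    ring

end ChartPt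

end FLTAgent.PicScheme
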