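import Fermat.Agent.PicScheme.PolyChart
import Fermat.Agent.PicScheme.Datum

/-!
# Coordinates of a chart modulo a monic polynomial, and spreading of bases
-/

set_option autoImplicit false
set_option linter.unusedSectionVars false
set_option linter.style.haveILetI false

noncomputable section

universe u

open TensorProduct Matrix Polynomial

namespace FLTAgent.PicScheme

section Spread

variable {A K : Type u} [CommRing A] [Field K] {ι μ : Type*} [Fintype ι] [DecidableEq ι] [Fintype μ]

/-- Vectors whose images span become spanning after inverting one element. -/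
theorem exists_span_near (ψ : A →+* K) (v : μ → ι → A)
    (h : Submodule.span K (Set.range fun i => ψ ∘ v i) = ⊤) :
    ∃ f : A, ψ f ≠ 0 ∧ ∀ z : ι → A, f • z ∈ Submodule.span A (Set.range v) := by
  classical
  obtain ⟨b, hbv, hbs, hbl⟩ := exists_linearIndependent K (Set.range fun i => ψ ∘ v i)
  haveI : Finite b := ((Set.finite_range _).subset hbv).to_subtype
  let B : Module.Basis b K (ι → K) :=
    Module.Basis.mk hbl (by rw [Subtype.range_coe, hbs, h])
  let e : ι ≃ b := (Pi.basisFun K ι).indexEquiv B
  choose c hc using fun j : ι => hbv (e j).2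
  set M : Matrix ι ι A := Matrix.of fun l j => v (c j) l
  have hM : (M.map ψ).det ≠ 0 := by
    have hli : LinearIndependent K (M.map ψ).col := by
      have h1 := hbl.comp e e.injective
      rwa [show (M.map ψ).col = Subtype.val ∘ e from funext fun j => funext fun l => congrFun (hc j) l]
    exact (Matrix.isUnit_iff_isUnit_det _).1 (Matrix.linearIndependent_cols_iff_isUnit.1 hli) |>.ne_zero
  refine ⟨M.det, ?_, fun z => ?_⟩
  · rwa [RingHom.map_det, RingHom.mapMatrix_apply]
  · have h1 : M *ᵥ (M.adjugate *ᵥ z) = M.det • z := by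
      rw [Matrix.mulVec_mulVec, Matrix.mul_adjugate, Matrix.smul_mulVec, Matrix.one_mulVec]
    rw [← h1]
    have h2 : M *ᵥ (M.adjugate *ᵥ z) = ∑ j, (M.adjugate *ᵥ z) j • v (c j) := by
      funext l
      simp [M, Matrix.mulVec, dotProduct, Finset.sum_apply, mul_comm]
    rw [h2]
    exact Submodule.sum_mem _ fun j _ => Submodule.smul_mem _ _ (Submodule.subset_span ⟨_, rfl⟩)

/-- Vectors whose images form a basis are independent after inverting one element. -/
theorem exists_indep_near (ψ : A →+* K) (v : μ → ι → A)
    (hli : LinearIndependent K fun i => ψ ∘ v i)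
    (hsp : Submodule.span K (Set.range fun i => ψ ∘ v i) = ⊤) :
    ∃ f : A, ψ f ≠ 0 ∧ ∀ a : μ → A, (∑ i, a i • v i) = 0 → ∀ i, f * a i = 0 := by
  classical
  let B : Module.Basis μ K (ι → K) := Module.Basis.mk hli hsp.ge
  let e : ι ≃ μ := (Pi.basisFun K ι).indexEquiv B
  set M : Matrix ι ι A := Matrix.of fun l j => v (e j) l
  have hM : (M.map ψ).det ≠ 0 :=
    ((Matrix.isUnit_iff_isUnit_det _).1 (Matrix.linearIndependent_cols_iff_isUnit.1
      (hli.comp e e.injective : LinearIndependent K (M.map ψ).col))).ne_zero
  refine ⟨M.det, ?_, fun a ha i => ?_⟩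
  · rwa [RingHom.map_det, RingHom.mapMatrix_apply]
  · have h1 : M *ᵥ (a ∘ e) = 0 := by
      rw [← ha]
      funext l
      simp only [Matrix.mulVec, dotProduct, M, Matrix.of_apply, Finset.sum_apply, Pi.smul_apply,
        smul_eq_mul, Function.comp_apply]
      rw [← e.sum_comp]
      exact Finset.sum_congr rfl fun j _ => mul_comm _ _
    have h2 := congrArg (M.adjugate *ᵥ ·) h1
    simp only [Matrix.mulVec_mulVec, Matrix.adjugate_mul, Matrix.smul_mulVec, Matrix.one_mulVec,
      Matrix.mulVec_zero] at h2
    simpa using congrFun h2 (e.symm i)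

end Spread

variable {k : Type u} [Field k] {B : Type u} [CommRing B] [Algebra k B] {b : B}

/-- The value of a polynomial at the coordinate. -/
def atCoord (A : Type u) [CommRing A] [Algebra k A] (b : B) : A[X] →ₐ[A] A ⊗[k] B :=
  Polynomial.aeval ((1 : A) ⊗ₜ[k] b)

variable {A A' : Type u} [CommRing A] [Algebra k A] [CommRing A'] [Algebra k A'] (φ : A →ₐ[k] A')

theorem chartMap_atCoord (q : A[X]) :
    Datum.chartMap B φ (atCoord A b q) = atCoord A' b (q.map φ.toRingHom) := by
  induction q using Polynomial.induction_on' with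
  | add p q hp hq => rw [map_add, map_add, hp, hq, Polynomial.map_add, map_add]
  | monomial n c =>
    simp [atCoord, Datum.chartMap, Polynomial.map_monomial, Polynomial.aeval_monomial,
      Algebra.TensorProduct.algebraMap_apply, Algebra.TensorProduct.tmul_pow]

/-- A basis over `k[b]` of a chart. -/
structure CoordBasis (k : Type u) [Field k] {B : Type u} [CommRing B] [Algebra k B] (b : B) where
  r : ℕ
  β : Fin r → B
  bij : ∀ (A : Type u) [CommRing A] [Algebra k A],
    Function.Bijective fun v : Fin r → A[X] => ∑ i, atCoord A b (v i) * ((1 : A) ⊗ₜ[k] β i)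

theorem exists_coordBasis (hb : PolyChart.IsFree k b) : Nonempty (CoordBasis k b) := by
  obtain ⟨r, β, h⟩ := PolyChart.exists_gens hb
  refine ⟨⟨r, β, fun A _ _ => ?_⟩⟩
  have e : ∀ v : Fin r → A[X], (Fintype.linearCombination A[X] fun i =>
      PolyChart.of b ((1 : A) ⊗ₜ[k] β i)) v = ∑ i, atCoord A b (v i) * ((1 : A) ⊗ₜ[k] β i) := fun v => by
    rw [Fintype.linearCombination_apply]
    exact Finset.sum_congr rfl fun i _ => Algebra.smul_def _ _
  refine ⟨fun v w hvw => (h A).1 ?_, fun x => ?_⟩
  · rw [e, e]; exact hvw
  · obtain ⟨v, hv⟩ := (h A).2 x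
    exact ⟨v, (e v).symm.trans hv⟩

namespace CoordBasis

variable (β : CoordBasis k b)

/-- The element with given coordinates. -/
def build : (Fin β.r → A[X]) ≃ A ⊗[k] B := Equiv.ofBijective _ (β.bij A)

theorem build_apply (v : Fin β.r → A[X]) :
    β.build v = ∑ i, atCoord A b (v i) * ((1 : A) ⊗ₜ[k] β.β i) := rfl

theorem build_add (v w : Fin β.r → A[X]) : β.build (v + w) = β.build v + β.build w := by
  simp [build_apply, Finset.sum_add_distrib, add_mul]

theorem build_smul (q : A[X]) (v : Fin β.r → A[X]) :
    β.build (q • v) = atCoord A b q * β.build v := by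
  simp [build_apply, Finset.mul_sum, mul_assoc]

theorem build_map (v : Fin β.r → A[X]) :
    Datum.chartMap B φ (β.build v) = β.build fun i => (v i).map φ.toRingHom := by
  simp only [build_apply, map_sum, map_mul, chartMap_atCoord]
  exact Finset.sum_congr rfl fun i _ => by simp [Datum.chartMap]

variable (q : A[X]) (d : ℕ)

/-- Coordinates modulo `q`, cut at degree `d`. -/
def rem : A ⊗[k] B →ₗ[A] (Fin β.r × Fin d → A) where
  toFun x il := ((β.build.symm x il.1) %ₘ q).coeff il.2
  map_add' x y := by
    funext il
    have h : β.build.symm (x + y) = β.build.symm x + β.build.symm y := by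
      apply β.build.injective
      simp [build_add]
    simp [h, Polynomial.add_modByMonic]
  map_smul' c x := by
    funext il
    have h : β.build.symm (c • x) = Polynomial.C c • β.build.symm x := by
      apply β.build.injective
      rw [build_smul, Equiv.apply_symm_apply, Equiv.apply_symm_apply, atCoord, Polynomial.aeval_C,
        Algebra.smul_def]
    simp [h, ← Polynomial.smul_eq_C_mul, Polynomial.smul_modByMonic]

theorem rem_apply (x : A ⊗[k] B) (i : Fin β.r) (l : Fin d) :
    β.rem q d x (i, l) = ((β.build.symm x i) %ₘ q).coeff l := rfl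

variable {q d} (hq : q.Monic) (hd : q.natDegree = d)
include hq hd

theorem rem_eq_zero_iff {x : A ⊗[k] B} : β.rem q d x = 0 ↔ ∃ y, x = atCoord A b q * y := by
  constructor
  · intro h
    have hdvd : ∀ i, ∃ w, β.build.symm x i = q * w := fun i => by
      refine (Polynomial.modByMonic_eq_zero_iff_dvd hq).1 (Polynomial.ext fun l => ?_)
      rw [Polynomial.coeff_zero]
      by_cases hl : l < d
      · exact congrFun h (i, ⟨l, hl⟩)
      · rcases subsingleton_or_nontrivial A with hA | hA
        · exact Subsingleton.elim _ _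
        refine Polynomial.coeff_eq_zero_of_degree_lt ((Polynomial.degree_modByMonic_lt _ hq).trans_le ?_)
        exact (Polynomial.degree_le_natDegree).trans (by rw [hd]; exact_mod_cast Nat.le_of_not_lt hl)
    choose w hw using hdvd
    refine ⟨β.build w, ?_⟩
    rw [← β.build_smul, show q • w = β.build.symm x from funext fun i => (hw i).symm,
      Equiv.apply_symm_apply]
  · rintro ⟨y, rfl⟩
    funext il
    show ((β.build.symm (atCoord A b q * y) il.1) %ₘ q).coeff il.2 = 0
    rw [show β.build.symm (atCoord A b q * y) = q • β.build.symm y by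
      apply β.build.injective
      rw [build_smul, Equiv.apply_symm_apply, Equiv.apply_symm_apply]]
    rw [Pi.smul_apply, smul_eq_mul, (Polynomial.modByMonic_eq_zero_iff_dvd hq).2 (dvd_mul_right _ _),
      Polynomial.coeff_zero]

theorem rem_surjective : Function.Surjective (β.rem q d) := by
  intro c
  rcases subsingleton_or_nontrivial A with hA | hA
  · exact ⟨0, Subsingleton.elim _ _⟩
  refine ⟨β.build fun i => ∑ l : Fin d, Polynomial.monomial (l : ℕ) (c (i, l)), ?_⟩
  funext ⟨i, l⟩
  rw [rem_apply, Equiv.symm_apply_apply, (Polynomial.modByMonic_eq_self_iff hq).2 ?_]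
  · simp [Polynomial.finsetSum_coeff, Polynomial.coeff_monomial, Fin.val_inj]
  · rw [Polynomial.degree_eq_natDegree hq.ne_zero, hd]
    refine (Polynomial.degree_sum_le _ _).trans_lt ((Finset.sup_lt_iff (WithBot.bot_lt_coe d)).2 fun j _ => ?_)
    exact (Polynomial.degree_monomial_le _ _).trans_lt (WithBot.coe_lt_coe.2 j.2)

theorem rem_map (x : A ⊗[k] B) :
    β.rem (q.map φ.toRingHom) d (Datum.chartMap B φ x) = φ ∘ β.rem q d x := by
  funext il
  have h : β.build.symm (Datum.chartMap B φ x) = fun i => (β.build.symm x i).map φ.toRingHom := by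
    apply β.build.injective
    rw [Equiv.apply_symm_apply, ← β.build_map φ, Equiv.apply_symm_apply]
  show ((β.build.symm (Datum.chartMap B φ x) il.1) %ₘ _).coeff il.2 = φ (((β.build.symm x il.1) %ₘ q).coeff il.2)
  rw [h, ← Polynomial.map_modByMonic φ.toRingHom hq, Polynomial.coeff_map]
  rfl

end CoordBasis

end FLTAgent.PicScheme
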