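import Fermat.Agent.PicScheme.BaseChange
import Fermat.Agent.PicScheme.Degree.Chi

/-!
# The line of sections of a datum with vanishing cokernel and Euler characteristic one
-/

set_option autoImplicit false
set_option linter.style.haveILetI false

noncomputable section

universe u

open TensorProduct Matrix

namespace FLTAgent.PicScheme

/-- A finite projective module whose fibre at a point is a line is free of rank one near it. -/
theorem exists_generator_near {A M : Type u} [CommRing A] [AddCommGroup M] [Module A M]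
    [Module.Finite A M] [Module.Projective A M] (K : Type u) [Field K] [Algebra A K]
    (hK : Module.finrank K (K ⊗[A] M) = 1) :
    ∃ f : A, algebraMap A K f ≠ 0 ∧ ∃ s : M, (∀ w : M, ∃ a : A, f • w = a • s) ∧
      ∀ (A' : Type u) [CommRing A'] [Algebra A A'],
      IsUnit (algebraMap A A' f) → ∀ t : A' ⊗[A] M, ∃! a : A', a • ((1 : A') ⊗ₜ[A] s) = t := by
  classical
  obtain ⟨m, x, hx⟩ := Module.Finite.exists_fin' A M
  obtain ⟨σ, hσ⟩ := Module.projective_lifting_property x LinearMap.id hx
  set e : Fin m → M := fun j => x (Pi.single j 1)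
  have hsum : ∀ z : M, ∑ j, σ z j • e j = z := fun z => by
    have := LinearMap.congr_fun hσ z
    rw [LinearMap.comp_apply, LinearMap.id_apply, pi_eq_sum_univ' (σ z), map_sum] at this
    simpa [e, map_smul] using this
  haveI : Module.Finite K (K ⊗[A] M) := inferInstance
  obtain ⟨j₀, hj₀⟩ : ∃ j, (1 : K) ⊗ₜ[A] e j ≠ 0 := by
    by_contra hne
    simp only [not_exists, not_not] at hne
    have h0 : ∀ t : K ⊗[A] M, t = 0 := fun t => by
      induction t using TensorProduct.induction_on with
      | zero => rfl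
      | tmul a z =>
        rw [← hsum z, TensorProduct.tmul_sum]
        refine Finset.sum_eq_zero fun j _ => ?_
        rw [TensorProduct.tmul_smul, ← mul_one a, ← smul_eq_mul, ← TensorProduct.smul_tmul', hne,
          smul_zero, smul_zero]
      | add a b ha hb => rw [ha, hb, add_zero]
    haveI : Subsingleton (K ⊗[A] M) := ⟨fun a b => (h0 a).trans (h0 b).symm⟩
    rw [Module.finrank_zero_of_subsingleton] at hK
    exact zero_ne_one hK
  set s := e j₀
  obtain ⟨i₀, hi₀⟩ : ∃ i, algebraMap A K (σ s i) ≠ 0 := by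
    by_contra hne
    simp only [not_exists, not_not] at hne
    refine hj₀ ?_
    show (1 : K) ⊗ₜ[A] s = 0
    rw [← hsum s, TensorProduct.tmul_sum]
    refine Finset.sum_eq_zero fun j _ => ?_
    rw [TensorProduct.tmul_smul, ← algebraMap_smul K, hne, zero_smul]
  set y : M →ₗ[A] A := (LinearMap.proj i₀).comp σ
  set f₀ := y s
  set z : Fin m → M := fun j => f₀ • e j - y (e j) • s
  have hyz : ∀ j, y (z j) = 0 := fun j => by
    simp only [z, map_sub, map_smul, smul_eq_mul, f₀]; ring
  have hzK : ∀ j, (1 : K) ⊗ₜ[A] z j = 0 := fun j => by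
    obtain ⟨c, hc⟩ := (finrank_eq_one_iff_of_nonzero' _ hj₀).1 hK ((1 : K) ⊗ₜ[A] z j)
    have h := congrArg (y.baseChange K) hc
    rw [map_smul, LinearMap.baseChange_tmul, LinearMap.baseChange_tmul, hyz, TensorProduct.tmul_zero]
      at h
    have hne : (1 : K) ⊗ₜ[A] y s ≠ 0 := fun h0 => hi₀ (by
      have := congrArg (TensorProduct.rid A K) h0
      rw [TensorProduct.rid_tmul, map_zero, ← algebraMap_smul K, smul_eq_mul, mul_one] at this
      exact this)
    rw [(smul_eq_zero.1 h).resolve_right hne, zero_smul] at hc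
    exact hc.symm
  set Q : Matrix (Fin m) (Fin m) A := Matrix.of fun l j => σ (z j) l
  have hQK : ∀ l j, algebraMap A K (Q l j) = 0 := fun l j => by
    have := congrArg (((LinearMap.proj l).comp σ).baseChange K) (hzK j)
    rw [LinearMap.baseChange_tmul, map_zero] at this
    have := congrArg (TensorProduct.rid A K) this
    rw [TensorProduct.rid_tmul, map_zero, ← algebraMap_smul K, smul_eq_mul, mul_one] at this
    exact this
  have hker : ∀ w : M, y w = 0 → ∑ j, σ w j • z j = f₀ • w := fun w hw => by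
    have h1 : ∑ j, σ w j • y (e j) • s = y w • s := by
      simp only [smul_smul, ← Finset.sum_smul]
      congr 1
      conv_rhs => rw [← hsum w, map_sum]
      simp [map_smul, smul_eq_mul]
    simp only [z, smul_sub, Finset.sum_sub_distrib, h1, hw, zero_smul, sub_zero]
    rw [← Finset.smul_sum.trans (Finset.sum_congr rfl fun j _ => smul_comm f₀ (σ w j) (e j)), hsum]
  set P : Matrix (Fin m) (Fin m) A := Q - f₀ • (1 : Matrix (Fin m) (Fin m) A)
  have hPQ : P * Q = 0 := by
    rw [Matrix.sub_mul, Matrix.smul_mul, Matrix.one_mul, sub_eq_zero]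
    refine Matrix.ext fun l j => ?_
    have h := congrArg (fun w => σ w l) (hker (z j) (hyz j))
    simp only [map_sum, map_smul, Finset.sum_apply, Pi.smul_apply, smul_eq_mul] at h
    rw [Matrix.mul_apply, Matrix.smul_apply, smul_eq_mul]
    simpa [Q, mul_comm] using h
  set g := P.det
  have hg : g • Q = 0 := by
    have := congrArg (P.adjugate * ·) hPQ
    simp only [mul_zero] at this
    rwa [← Matrix.mul_assoc, Matrix.adjugate_mul, Matrix.smul_mul, Matrix.one_mul] at this
  have hgK : algebraMap A K g ≠ 0 := by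
    rw [show g = P.det from rfl, RingHom.map_det]
    have : (algebraMap A K).mapMatrix P =
        (-algebraMap A K f₀) • (1 : Matrix (Fin m) (Fin m) K) := Matrix.ext fun l j => by
      show algebraMap A K (P l j) = _
      by_cases h : l = j
      · subst h; simp [P, hQK]
      · simp [P, hQK, h]
    rw [this, Matrix.det_smul, Matrix.det_one, mul_one]
    exact pow_ne_zero _ (neg_ne_zero.2 hi₀)
  have hgz : ∀ j, g • z j = 0 := fun j => by
    rw [← hsum (g • z j)]
    refine Finset.sum_eq_zero fun l _ => ?_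
    rw [show σ (g • z j) l = (g • Q) l j by simp [Q], hg]
    simp
  have hkey : ∀ w : M, (g * f₀) • w = (g * y w) • s := fun w => by
    have h1 : ∑ j, σ w j • g • z j = 0 := by simp [hgz]
    have h2 : ∑ j, σ w j • g • z j = (g * f₀) • w - (g * y w) • s := by
      simp only [z, smul_sub, Finset.sum_sub_distrib]
      congr 1
      · conv_rhs => rw [← hsum w, Finset.smul_sum]
        exact Finset.sum_congr rfl fun j _ => by rw [smul_smul, smul_smul, smul_smul]; ring_nf
      · simp only [smul_smul, ← Finset.sum_smul]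
        congr 1
        conv_rhs => rw [← hsum w, map_sum, Finset.mul_sum]
        exact Finset.sum_congr rfl fun j _ => by rw [map_smul, smul_eq_mul]; ring
    exact sub_eq_zero.1 (h2.symm.trans h1)
  refine ⟨g * f₀, by rw [map_mul]; exact mul_ne_zero hgK hi₀, s, fun w => ⟨_, hkey w⟩,
    fun A' _ _ hu t => ?_⟩
  rw [map_mul] at hu
  obtain ⟨d, hd⟩ := hu.exists_left_inv
  let χ : A' ⊗[A] M →ₗ[A'] A' :=
    (TensorProduct.AlgebraTensorModule.rid A A' A').toLinearMap ∘ₗ y.baseChange A'
  have hχ : ∀ (a : A') w, χ (a ⊗ₜ w) = algebraMap A A' (y w) * a := fun a w => by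
    simp [χ, Algebra.smul_def]
  have hall : (algebraMap A A' g * algebraMap A A' f₀) • t =
      (algebraMap A A' g * χ t) • ((1 : A') ⊗ₜ[A] s) := by
    induction t using TensorProduct.induction_on with
    | zero => simp
    | tmul a w =>
      rw [hχ, TensorProduct.smul_tmul', TensorProduct.smul_tmul', smul_eq_mul, smul_eq_mul, mul_one,
        show algebraMap A A' g * algebraMap A A' f₀ * a = (g * f₀) • a by
          rw [Algebra.smul_def, map_mul],
        TensorProduct.smul_tmul, hkey, ← TensorProduct.smul_tmul, Algebra.smul_def, map_mul, mul_assoc]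
    | add a b ha hb => rw [smul_add, map_add, mul_add, add_smul, ha, hb]
  refine ⟨d * (algebraMap A A' g * χ t), ?_, fun a ha => ?_⟩
  · show (d * _) • _ = t
    rw [mul_smul, ← hall, smul_smul, hd, one_smul]
  · have := congrArg χ ha
    rw [map_smul, hχ, mul_one, smul_eq_mul] at this
    rw [← this]
    linear_combination (-a) * hd

namespace Datum

variable {k : Type u} [Field k] {X : Charts k} {A A' : Type u} [CommRing A] [Algebra k A]
  [CommRing A'] [Algebra k A']

/-- The image of a section after base change. -/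
def secMap (φ : A →ₐ[k] A') (L : Datum X A)
    (p : (Fin L.n₁ → X.R₁ A) × (Fin L.n₂ → X.R₂ A)) :
    (Fin L.n₁ → X.R₁ A') × (Fin L.n₂ → X.R₂ A') :=
  (chartMap X.B₁ φ ∘ p.1, chartMap X.B₂ φ ∘ p.2)

theorem secMap_mem (φ : A →ₐ[k] A') (L : Datum X A) {p : (Fin L.n₁ → X.R₁ A) × (Fin L.n₂ → X.R₂ A)}
    (hp : p ∈ L.H0) : secMap φ L p ∈ (L.map φ).H0 := by
  obtain ⟨h1, h2, h3⟩ := hp
  refine ⟨?_, ?_, ?_⟩
  · exact funext fun i => (RingHom.map_mulVec (chartMap X.B₁ φ).toRingHom L.e₁ p.1 i).symm.trans
      (congrArg (chartMap X.B₁ φ) (congrFun h1 i))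
  · exact funext fun i => (RingHom.map_mulVec (chartMap X.B₂ φ).toRingHom L.e₂ p.2 i).symm.trans
      (congrArg (chartMap X.B₂ φ) (congrFun h2 i))
  · funext i
    have e : (X.res₁ A' ∘ chartMap X.B₁ φ ∘ p.1 : Fin L.n₁ → X.R₀ A') =
        (chartMap X.B₀ φ).toRingHom ∘ (X.res₁ A ∘ p.1) :=
      funext fun j => (chartMap_res₁ φ (p.1 j)).symm
    refine (congrArg (fun v => ((L.u.map (chartMap X.B₀ φ).toRingHom) *ᵥ v) i) e).trans ?_
    exact ((RingHom.map_mulVec (chartMap X.B₀ φ).toRingHom L.u _ i).symm.trans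
      (congrArg (chartMap X.B₀ φ) (congrFun h3 i))).trans (chartMap_res₂ φ (p.2 i))

/-- Sections commute with base change when the cokernel vanishes. -/
theorem exists_H0_baseChange (N : Datum X A) (h : N.overlap ≤ LinearMap.range N.delta)
    [Algebra A A'] [IsScalarTower k A A'] :
    ∃ E : A' ⊗[A] LinearMap.ker (Degree.dlt N) ≃ₗ[A'] (N.map (Degree.algHom A A')).H0,
      ∀ s : LinearMap.ker (Degree.dlt N), (E ((1 : A') ⊗ₜ s)).1 =
        secMap (Degree.algHom A A') N (Degree.kerEquiv N s).1 := by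
  have hsurj : Function.Surjective (Degree.dlt N) := fun z => by
    rw [← LinearMap.mem_range, Degree.mem_range_delta]
    exact h (by rw [Degree.overlap_eq_fixed]; exact z.2)
  haveI : Module.Projective A (Degree.fixed A (N.e₂.map (X.res₂ A))) :=
    Degree.projective_fixed (Degree.e₂_idem N)
  set d := Degree.dlt N
  obtain ⟨σ, hσ⟩ := Module.projective_lifting_property d LinearMap.id hsurj
  set π := (LinearMap.id - σ ∘ₗ d).codRestrict (LinearMap.ker d) (fun w => by
    simp [show d (σ (d w)) = d w from LinearMap.congr_fun hσ _])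
  have hdecomp : (LinearMap.ker d).subtype ∘ₗ π + σ ∘ₗ d = LinearMap.id :=
    LinearMap.ext fun w => by simp [π]
  set ι := (LinearMap.ker d).subtype.baseChange A'
  have h3 : ι ∘ₗ π.baseChange A' + σ.baseChange A' ∘ₗ d.baseChange A' = LinearMap.id := by
    rw [← LinearMap.baseChange_comp, ← LinearMap.baseChange_comp, ← LinearMap.baseChange_add,
      hdecomp, LinearMap.baseChange_id]
  have hinj : Function.Injective ι := by
    refine Function.LeftInverse.injective (g := π.baseChange A') fun w => ?_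
    rw [← LinearMap.comp_apply, ← LinearMap.baseChange_comp,
      show π ∘ₗ (LinearMap.ker d).subtype = LinearMap.id from LinearMap.ext fun v =>
        Subtype.ext (by simp [π, LinearMap.mem_ker.1 v.2]), LinearMap.baseChange_id]
    rfl
  have hrange : LinearMap.range ι = LinearMap.ker (d.baseChange A') := by
    refine le_antisymm ?_ fun w hw => ⟨π.baseChange A' w, ?_⟩
    · rintro _ ⟨w, rfl⟩
      rw [LinearMap.mem_ker, ← LinearMap.comp_apply, ← LinearMap.baseChange_comp,
        show d ∘ₗ (LinearMap.ker d).subtype = 0 from LinearMap.ext fun v => LinearMap.mem_ker.1 v.2,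
        LinearMap.baseChange_zero, LinearMap.zero_apply]
    · have := LinearMap.congr_fun h3 w
      simp only [LinearMap.add_apply, LinearMap.comp_apply, LinearMap.id_apply] at this
      rwa [LinearMap.mem_ker.1 hw, map_zero, add_zero] at this
  have hker : (LinearMap.ker (d.baseChange A')).map
      (Degree.sourceEquiv A' N : _ →ₗ[A'] _) =
      LinearMap.ker (Degree.dlt (N.map (Degree.algHom A A'))) := by
    ext w
    rw [Submodule.mem_map_equiv, LinearMap.mem_ker, LinearMap.mem_ker,
      ← (Degree.targetEquiv A' N).map_eq_zero_iff, Degree.targetEquiv_dlt,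
      LinearEquiv.apply_symm_apply]
  refine ⟨((LinearEquiv.ofInjective ι hinj).trans (LinearEquiv.ofEq _ _ hrange)).trans
    ((((Degree.sourceEquiv A' N).submoduleMap _).trans (LinearEquiv.ofEq _ _ hker)).trans
      (Degree.kerEquiv _)), fun s => ?_⟩
  show (Subtype.val (Degree.sourceEquiv A' N ((1 : A') ⊗ₜ s.1)).1,
    Subtype.val (Degree.sourceEquiv A' N ((1 : A') ⊗ₜ s.1)).2) = _
  refine Prod.ext ?_ ?_
  · show Subtype.val (Degree.fixedBaseChange A' N.rank₁.idem ((1 : A') ⊗ₜ s.1.1)) = _
    rw [Degree.fixedBaseChange_tmul, one_smul]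
    rfl
  · show Subtype.val (Degree.fixedBaseChange A' N.rank₂.idem ((1 : A') ⊗ₜ s.1.2)) = _
    rw [Degree.fixedBaseChange_tmul, one_smul]
    rfl

set_option maxHeartbeats 1000000 in
/-- **The line of sections.** Near a point where the cokernel vanishes and the Euler
characteristic is one, the sections after every base change are the multiples of one section. -/
theorem exists_section_of_finrank (N : Datum X A) (h : N.overlap ≤ LinearMap.range N.delta)
    (K : Type u) [Field K] [Algebra k K] (ψ : A →ₐ[k] K)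
    (hdim : Module.finrank K (N.map ψ).H0 = 1) :
    ∃ f : A, ψ f ≠ 0 ∧ ∃ s ∈ N.H0, (∀ y ∈ N.H0, ∃ a : A, f • y = a • s) ∧ ∀ (A' : Type u) [CommRing A'] [Algebra k A'] (φ : A →ₐ[k] A'),
      IsUnit (φ f) → ∀ t ∈ (N.map φ).H0, ∃! a : A', a • secMap φ N s = t := by
  set d := Degree.dlt N
  obtain ⟨hfin, hproj⟩ := N.H0_finite_projective X.isFree h
  haveI : Module.Finite A (LinearMap.ker d) := Module.Finite.equiv (Degree.kerEquiv N).symm
  haveI : Module.Projective A (LinearMap.ker d) :=
    Module.Projective.of_equiv (Degree.kerEquiv N).symm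
  have hK : ∀ [Algebra A K] [IsScalarTower k A K], Degree.algHom A K = ψ →
      Module.finrank K (K ⊗[A] LinearMap.ker d) = 1 := by
    intro _ _ hψ
    obtain ⟨E, -⟩ := N.exists_H0_baseChange (A' := K) h
    rw [E.finrank_eq, hψ, hdim]
  letI : Algebra A K := ψ.toRingHom.toAlgebra
  haveI : IsScalarTower k A K := IsScalarTower.of_algHom ψ
  have hψ : Degree.algHom A K = ψ := AlgHom.ext fun _ => rfl
  have h1 : Module.finrank K (K ⊗[A] LinearMap.ker d) = 1 := hK hψ
  obtain ⟨f, hf, s, hdiv, hs⟩ := exists_generator_near (M := LinearMap.ker d) K h1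
  refine ⟨f, hf, _, (Degree.kerEquiv N s).2, fun y hy => ?_, fun A' _ _ φ hu t ht => ?_⟩
  · obtain ⟨a, ha⟩ := hdiv ((Degree.kerEquiv N).symm ⟨y, hy⟩)
    refine ⟨a, ?_⟩
    have h2 := congrArg (fun w => (Degree.kerEquiv N w).1) ha
    simp only [map_smul, LinearEquiv.apply_symm_apply, Submodule.coe_smul] at h2
    exact h2
  letI : Algebra A A' := φ.toRingHom.toAlgebra
  haveI : IsScalarTower k A A' := IsScalarTower.of_algHom φ
  obtain ⟨E, hE⟩ := N.exists_H0_baseChange (A' := A') h
  obtain ⟨a, ha, huniq⟩ := hs A' hu (E.symm ⟨t, ht⟩)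
  have key : ∀ b : A', b • ((1 : A') ⊗ₜ[A] s) = E.symm ⟨t, ht⟩ ↔
      b • secMap φ N (Degree.kerEquiv N s) = t := fun b => by
    rw [LinearEquiv.eq_symm_apply, map_smul, ← Subtype.coe_inj, Submodule.coe_smul, hE]
    exact Iff.rfl
  exact ⟨a, (key a).1 ha, fun b hb => huniq b ((key b).2 hb)⟩

set_option maxHeartbeats 1000000 in
/-- With Euler characteristic one the sections near the point form a line. -/
theorem exists_section_near (N : Datum X A) (h : N.overlap ≤ LinearMap.range N.delta)
    (K : Type u) [Field K] [Algebra k K] (ψ : A →ₐ[k] K) (hchi : (N.map ψ).chi = 1) :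
    ∃ f : A, ψ f ≠ 0 ∧ ∃ s ∈ N.H0, ∀ (A' : Type u) [CommRing A'] [Algebra k A'] (φ : A →ₐ[k] A'),
      IsUnit (φ f) → ∀ t ∈ (N.map φ).H0, ∃! a : A', a • secMap φ N s = t := by
  have h' := N.overlap_le_map ψ h
  rw [Datum.chi, show ((LinearMap.range (N.map ψ).delta).comap (N.map ψ).overlap.subtype) = ⊤ from
    eq_top_iff.2 fun w _ => h' w.2] at hchi
  haveI : Subsingleton ((N.map ψ).overlap ⧸ (⊤ : Submodule K (N.map ψ).overlap)) :=
    Submodule.Quotient.subsingleton_iff.2 rfl
  rw [Module.finrank_zero_of_subsingleton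
    (M := (N.map ψ).overlap ⧸ (⊤ : Submodule K (N.map ψ).overlap)), Nat.cast_zero, sub_zero] at hchi
  obtain ⟨f, hf, s, hs, -, hline⟩ := N.exists_section_of_finrank h K ψ (by exact_mod_cast hchi)
  exact ⟨f, hf, s, hs, hline⟩

/-- A spanning non-zero section over a field: there is a generator near the point. -/
theorem exists_H0_generator_near (N : Datum X A) (h : N.overlap ≤ LinearMap.range N.delta)
    (K : Type u) [Field K] [Algebra k K] (ψ : A →ₐ[k] K)
    {t : (Fin N.n₁ → X.R₁ K) × (Fin N.n₂ → X.R₂ K)} (ht0 : t ≠ 0) (ht : t ∈ (N.map ψ).H0)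
    (hspan : ∀ q ∈ (N.map ψ).H0, ∃ c : K, q = c • t) :
    ∃ f : A, ψ f ≠ 0 ∧ ∃ q ∈ N.H0, (∃ c : K, c ≠ 0 ∧ secMap ψ N q = c • t) ∧
      ∀ y ∈ N.H0, ∃ a : A, f • y = a • q := by
  have hdim : Module.finrank K (N.map ψ).H0 = 1 := by
    refine finrank_eq_one ⟨t, ht⟩ (fun h0 => ht0 (congrArg Subtype.val h0)) fun w => ?_
    obtain ⟨c, hc⟩ := hspan w.1 w.2
    exact ⟨c, Subtype.ext hc.symm⟩
  obtain ⟨f, hf, s, hs, hdiv, hline⟩ := N.exists_section_of_finrank h K ψ hdim
  obtain ⟨a, ha, -⟩ := hline K ψ (isUnit_iff_ne_zero.2 hf) t ht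
  have ha0 : a ≠ 0 := fun h0 => ht0 (by rw [← ha, h0, zero_smul])
  exact ⟨f, hf, s, hs, ⟨a⁻¹, inv_ne_zero ha0, by
    rw [← ha, smul_smul, inv_mul_cancel₀ ha0, one_smul]⟩, hdiv⟩

/-- Sections over a base change are combinations of images of sections. -/
theorem span_H0_map (N : Datum X A) (h : N.overlap ≤ LinearMap.range N.delta) (φ : A →ₐ[k] A')
    {q : (Fin N.n₁ → X.R₁ A') × (Fin N.n₂ → X.R₂ A')} (hq : q ∈ (N.map φ).H0) :
    q ∈ Submodule.span A' (secMap φ N '' (N.H0 : Set _)) := by
  letI : Algebra A A' := φ.toRingHom.toAlgebra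
  haveI : IsScalarTower k A A' := IsScalarTower.of_algHom φ
  obtain ⟨E, hE⟩ := N.exists_H0_baseChange (A' := A') h
  let val : A' ⊗[A] LinearMap.ker (Degree.dlt N) → (Fin N.n₁ → X.R₁ A') × (Fin N.n₂ → X.R₂ A') :=
    fun w => (E w).1
  suffices ∀ w, val w ∈ Submodule.span A' (secMap φ N '' (N.H0 : Set _)) by
    have h2 := this (E.symm ⟨q, hq⟩)
    simp only [val, LinearEquiv.apply_symm_apply] at h2
    exact h2
  intro w
  induction w using TensorProduct.induction_on with
  | zero => simp only [val, map_zero]; exact zero_mem _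
  | tmul a y =>
    simp only [val]
    rw [← mul_one a, ← smul_eq_mul, ← TensorProduct.smul_tmul', map_smul, Submodule.coe_smul, hE]
    exact Submodule.smul_mem _ _ (Submodule.subset_span ⟨_, (Degree.kerEquiv N y).2, rfl⟩)
  | add a b ha hb =>
    simp only [val] at ha hb ⊢
    rw [map_add, Submodule.coe_add]; exact add_mem ha hb

end Datum

end FLTAgent.PicScheme
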