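import Fermat.Agent.PicScheme.Chart.Free
import Fermat.Agent.PicScheme.Bridge

/-!
# Vectors without common zero on the boundary spread to a neighbourhood
-/

set_option autoImplicit false
set_option linter.style.haveILetI false

noncomputable section

universe u

open TensorProduct Matrix Polynomial

namespace FLTAgent.PicScheme

variable {k : Type u} [Field k] {X : Charts k} {A : Type u} [CommRing A] [Algebra k A]

/-- If the entries generate the unit ideal with the coordinate at a point then they do near it. -/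
theorem exists_unit_mod_near {L : Datum X A} (s₂ : Fin L.n₂ → X.R₂ A) {K : Type u} [Field K]
    [Algebra k K] (ψ : A →ₐ[k] K)
    (h : Ideal.span (Set.range (Datum.chartMap X.B₂ ψ ∘ s₂)) ⊔
      Ideal.span {((1 : K) ⊗ₜ[k] X.g)} = ⊤) :
    ∃ f : A, ψ f ≠ 0 ∧ algebraMap A (X.R₂ A) f ∈
      Ideal.span (Set.range s₂) ⊔ Ideal.span {((1 : A) ⊗ₜ[k] X.g)} := by
  classical
  haveI : Nontrivial A := ψ.toRingHom.domain_nontrivial
  obtain ⟨β⟩ := exists_coordBasis X.isFree.2
  let w : Fin β.r × Fin L.n₂ → X.R₂ A := fun ij => ((1 : A) ⊗ₜ[k] β.β ij.1) * s₂ ij.2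
  let wK : Fin β.r × Fin L.n₂ → X.R₂ K := fun ij =>
    ((1 : K) ⊗ₜ[k] β.β ij.1) * Datum.chartMap X.B₂ ψ (s₂ ij.2)
  let ρ := β.rem (Polynomial.X : A[X]) 1
  let ρK := β.rem (Polynomial.X : K[X]) 1
  have hρ : ∀ ij, (ψ : A → K) ∘ ρ (w ij) = ρK (wK ij) := fun ij => by
    have h1 := β.rem_map ψ Polynomial.monic_X Polynomial.natDegree_X (w ij)
    rw [Polynomial.map_X] at h1
    rw [← h1]
    show ρK (Datum.chartMap X.B₂ ψ (w ij)) = ρK (wK ij)
    refine congrArg ρK ?_
    simp only [w, wK, map_mul]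
    congr 1
    simp [Datum.chartMap]
  have hkill : ∀ y : X.R₂ K, ρK (atCoord K X.g Polynomial.X * y) = 0 := fun y =>
    (β.rem_eq_zero_iff Polynomial.monic_X Polynomial.natDegree_X).2 ⟨y, rfl⟩
  have hX : atCoord K X.g Polynomial.X = (1 : K) ⊗ₜ[k] X.g := Polynomial.aeval_X _
  have hspan : Submodule.span K (Set.range fun ij => (ψ : A → K) ∘ ρ (w ij)) = ⊤ := by
    refine top_unique fun c _ => ?_
    obtain ⟨x, rfl⟩ := β.rem_surjective (A := K) Polynomial.monic_X Polynomial.natDegree_X c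
    have hx : x ∈ Ideal.span (Set.range (Datum.chartMap X.B₂ ψ ∘ s₂)) ⊔
        Ideal.span {((1 : K) ⊗ₜ[k] X.g)} := h ▸ Submodule.mem_top
    obtain ⟨y, hy, z, hz, rfl⟩ := Submodule.mem_sup.1 hx
    obtain ⟨a, rfl⟩ := Ideal.mem_span_range_iff_exists_fun.1 hy
    obtain ⟨b, rfl⟩ := Ideal.mem_span_singleton'.1 hz
    have hb : ρK (b * ((1 : K) ⊗ₜ[k] X.g)) = 0 := by rw [mul_comm, ← hX]; exact hkill b
    show ρK _ ∈ _
    rw [map_add, hb, add_zero, map_sum]
    refine Submodule.sum_mem _ fun j _ => ?_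
    conv in a j => rw [← β.build.apply_symm_apply (a j), β.build_apply]
    rw [Finset.sum_mul, map_sum]
    refine Submodule.sum_mem _ fun i _ => ?_
    set p := β.build.symm (a j) i
    have hp : ρK (atCoord K X.g p * ((1 : K) ⊗ₜ[k] β.β i) * (Datum.chartMap X.B₂ ψ ∘ s₂) j) =
        p.coeff 0 • ρK (wK (i, j)) := by
      have hdec : atCoord K X.g p * ((1 : K) ⊗ₜ[k] β.β i) * (Datum.chartMap X.B₂ ψ ∘ s₂) j =
          atCoord K X.g Polynomial.X * (atCoord K X.g p.divX * wK (i, j)) +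
            p.coeff 0 • wK (i, j) := by
        conv_lhs => rw [← Polynomial.X_mul_divX_add p]
        rw [map_add, map_mul, atCoord, Polynomial.aeval_C, Algebra.smul_def]
        simp only [wK, Function.comp_apply]
        ring
      rw [hdec, map_add, hkill, zero_add, map_smul]
    rw [hp]
    exact Submodule.smul_mem _ _ (Submodule.subset_span ⟨(i, j), hρ (i, j)⟩)
  obtain ⟨f, hf, hz⟩ := exists_span_near ψ.toRingHom (fun ij => ρ (w ij)) hspan
  refine ⟨f, hf, ?_⟩
  obtain ⟨c, hc⟩ := (Submodule.mem_span_range_iff_exists_fun A).1 (hz (ρ 1))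
  have h0 : ρ (algebraMap A (X.R₂ A) f - ∑ ij, c ij • w ij) = 0 := by
    rw [map_sub, map_sum, sub_eq_zero, Algebra.algebraMap_eq_smul_one, map_smul, ← hc]
    exact Finset.sum_congr rfl fun ij _ => (map_smul ρ _ _).symm
  obtain ⟨y, hy⟩ := (β.rem_eq_zero_iff Polynomial.monic_X Polynomial.natDegree_X).1 h0
  rw [sub_eq_iff_eq_add] at hy
  rw [hy]
  refine Submodule.add_mem _ (Submodule.mem_sup_right ?_) (Submodule.mem_sup_left ?_)
  · rw [show atCoord A X.g Polynomial.X = (1 : A) ⊗ₜ[k] X.g from Polynomial.aeval_X _]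
    exact Ideal.mul_mem_right _ _ (Ideal.subset_span rfl)
  · refine Submodule.sum_mem _ fun ij _ => ?_
    rw [Algebra.smul_def]
    exact Ideal.mul_mem_left _ _ (Ideal.mul_mem_left _ _ (Ideal.subset_span ⟨ij.2, rfl⟩))

end FLTAgent.PicScheme
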