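import Fermat.Agent.PicScheme.Chart.Inverse
import Fermat.Agent.PicScheme.BaseChange
import Fermat.Agent.PicScheme.Chart.Line
import Fermat.Agent.PicScheme.Chart.UnitNear
import Fermat.Agent.PicScheme.Chart.AwayPoint
import Fermat.Agent.PicScheme.Chart.Divisor
import Fermat.Agent.PicScheme.Rigid
import Fermat.Agent.PicScheme.Sheaf.Local

/-!
# Good points of a chart

A good point avoids the marked point, and the datum of the point has vanishing cokernel and only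
the multiples of the cutting section as global sections. Good points are determined by the class
of their datum.
-/

set_option autoImplicit false
set_option linter.unusedSectionVars false

noncomputable section

universe u

open TensorProduct Matrix

namespace FLTAgent.PicScheme

variable {k : Type u} [Field k] {X : Charts k} {A A' : Type u} [CommRing A] [Algebra k A]
  [CommRing A'] [Algebra k A'] {n : ℕ} {e : Fin n → X.B₁}

open Datum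

/-- Points with the same ideal are equal. -/
theorem ChartPt.eq_of_ideal {p p' : ChartPt k e A} (h : p.ideal = p'.ideal) : p = p' := by
  refine ChartPt.ext (LinearMap.ext fun b => ?_)
  have h1 : ((1 : A) ⊗ₜ[k] b) - ∑ l, p.φ b l • ((1 : A) ⊗ₜ[k] e l) ∈ p.ideal := by
    rw [p.mem_ideal, map_sub, map_sum, p.ext'_tmul, one_smul, sub_eq_zero]
    funext j
    simp [p.ext'_tmul, p.basis, Pi.single_apply]
  rw [h, p'.mem_ideal, map_sub, map_sum, p'.ext'_tmul, one_smul, sub_eq_zero] at h1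
  rw [h1]
  funext j
  simp [p'.ext'_tmul, p'.basis, Pi.single_apply]

/-- The image of a section under an isomorphism. -/
theorem Datum.Iso.mulVec_mem_H0 {L L' : Datum X A} (i : Iso L L') {s₁ : Fin L.n₁ → X.R₁ A}
    {s₂ : Fin L.n₂ → X.R₂ A} (h₁ : L.e₁ *ᵥ s₁ = s₁) (h₂ : L.e₂ *ᵥ s₂ = s₂)
    (hc : L.u *ᵥ (X.res₁ A ∘ s₁) = X.res₂ A ∘ s₂) :
    L'.e₁ *ᵥ (i.a₁ *ᵥ s₁) = i.a₁ *ᵥ s₁ ∧ L'.e₂ *ᵥ (i.a₂ *ᵥ s₂) = i.a₂ *ᵥ s₂ ∧
      L'.u *ᵥ (X.res₁ A ∘ (i.a₁ *ᵥ s₁)) = X.res₂ A ∘ (i.a₂ *ᵥ s₂) := by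
  have r₁ : X.res₁ A ∘ (i.a₁ *ᵥ s₁) = i.a₁.map (X.res₁ A) *ᵥ (X.res₁ A ∘ s₁) :=
    funext fun l => RingHom.map_mulVec (X.res₁ A).toRingHom i.a₁ s₁ l
  have r₂ : X.res₂ A ∘ (i.a₂ *ᵥ s₂) = i.a₂.map (X.res₂ A) *ᵥ (X.res₂ A ∘ s₂) :=
    funext fun l => RingHom.map_mulVec (X.res₂ A).toRingHom i.a₂ s₂ l
  refine ⟨?_, ?_, ?_⟩
  · rw [← i.ab₁, Matrix.mulVec_mulVec, Matrix.mul_assoc, i.ba₁, ← Matrix.mulVec_mulVec, h₁]
  · rw [← i.ab₂, Matrix.mulVec_mulVec, Matrix.mul_assoc, i.ba₂, ← Matrix.mulVec_mulVec, h₂]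
  · rw [r₁, r₂, ← hc, Matrix.mulVec_mulVec, Matrix.mulVec_mulVec, ← i.compat]
    conv_lhs => rw [← h₁, L.res₁_mulVec, Matrix.mulVec_mulVec]

theorem Datum.Iso.span_range_mulVec {L L' : Datum X A} (i : Iso L L')
    {s₁ : Fin L.n₁ → X.R₁ A} (h₁ : L.e₁ *ᵥ s₁ = s₁) :
    Ideal.span (Set.range (i.a₁ *ᵥ s₁)) = Ideal.span (Set.range s₁) := by
  have hle : ∀ {m l : ℕ} (M : Matrix (Fin m) (Fin l) (X.R₁ A)) (v : Fin l → X.R₁ A),
      Ideal.span (Set.range (M *ᵥ v)) ≤ Ideal.span (Set.range v) := fun M v => by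
    refine Ideal.span_le.2 ?_
    rintro _ ⟨j, rfl⟩
    show ∑ q, M j q * v q ∈ Ideal.span (Set.range v)
    exact Submodule.sum_mem _ fun q _ => Ideal.mul_mem_left _ _ (Ideal.subset_span (Set.mem_range_self q))
  refine le_antisymm (hle _ _) ?_
  conv_lhs => rw [← h₁, ← i.ba₁, ← Matrix.mulVec_mulVec]
  exact hle _ _

/-- The image of a cutting section under an isomorphism cuts out the same point. -/
theorem Cuts.of_iso {p : ChartPt k e A} {L L' : Datum X A} {s₁ : Fin L.n₁ → X.R₁ A}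
    {s₂ : Fin L.n₂ → X.R₂ A} (h : Cuts p L s₁ s₂) (i : Iso L L') :
    Cuts p L' (i.a₁ *ᵥ s₁) (i.a₂ *ᵥ s₂) := by
  obtain ⟨f₁, f₂, f₃⟩ := i.mulVec_mem_H0 h.fix₁ h.fix₂ h.compat
  refine ⟨f₁, f₂, f₃, (i.span_range_mulVec h.fix₁).trans h.ideal_eq, eq_top_iff.2 ?_⟩
  rw [← h.unit_mod]
  refine sup_le_sup_right (Ideal.span_le.2 ?_) _
  rintro _ ⟨j, rfl⟩
  rw [show s₂ j = (i.b₂ *ᵥ (i.a₂ *ᵥ s₂)) j by rw [Matrix.mulVec_mulVec, i.ba₂, h.fix₂]]
  show ∑ q, i.b₂ j q * (i.a₂ *ᵥ s₂) q ∈ Ideal.span (Set.range (i.a₂ *ᵥ s₂))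
  exact Submodule.sum_mem _ fun q _ => Ideal.mul_mem_left _ _ (Ideal.subset_span (Set.mem_range_self q))

/-- If a multiple of a section cuts out a point avoiding the marked point, the multiplier is a
unit and the section cuts out the same ideal. -/
theorem Cuts.isUnit_of_smul {p p' : ChartPt k e A} {L : Datum X A} {s₁ : Fin L.n₁ → X.R₁ A}
    {s₂ : Fin L.n₂ → X.R₂ A} {t₁ : Fin L.n₁ → X.R₁ A} {t₂ : Fin L.n₂ → X.R₂ A}
    (h : Cuts p L s₁ s₂) (h' : Cuts p' L t₁ t₂) (hp : p'.ideal.map (X.evPt A) = ⊤) {a : A}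
    (ha : (t₁, t₂) = a • (s₁, s₂)) : IsUnit a ∧ p'.ideal = p.ideal := by
  have ht : ∀ j, t₁ j = algebraMap A (X.R₁ A) a * s₁ j := fun j => by
    rw [← Algebra.smul_def, ← Pi.smul_apply, show t₁ = a • s₁ from congrArg Prod.fst ha]
  have hu : IsUnit a := by
    rw [← Ideal.span_singleton_eq_top, eq_top_iff, ← hp, ← h'.ideal_eq, Ideal.map_span,
      Ideal.span_le]
    rintro _ ⟨_, ⟨j, rfl⟩, rfl⟩
    rw [ht, map_mul, AlgHom.commutes, Algebra.algebraMap_self_apply]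
    exact Ideal.mul_mem_right _ _ (Ideal.subset_span rfl)
  refine ⟨hu, ?_⟩
  rw [← h.ideal_eq, ← h'.ideal_eq]
  refine le_antisymm (Ideal.span_le.2 ?_) (Ideal.span_le.2 ?_)
  · rintro _ ⟨j, rfl⟩
    rw [ht]
    exact Ideal.mul_mem_left _ _ (Ideal.subset_span ⟨j, rfl⟩)
  · rintro _ ⟨j, rfl⟩
    rw [show s₁ j = algebraMap A (X.R₁ A) ↑hu.unit⁻¹ * t₁ j by
      rw [ht, ← mul_assoc, ← map_mul, IsUnit.val_inv_mul, map_one, one_mul]]
    exact Ideal.mul_mem_left _ _ (Ideal.subset_span ⟨j, rfl⟩)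

/-- A point of the chart avoiding the marked point whose datum has vanishing cokernel and only the
multiples of the cutting section as sections. -/
def ChartPt.IsGood (p : ChartPt k e A) : Prop :=
  p.ideal.map (X.evPt A) = ⊤ ∧ ∃ (L : Datum X A) (s₁ : Fin L.n₁ → X.R₁ A) (s₂ : Fin L.n₂ → X.R₂ A),
    Cuts p L s₁ s₂ ∧ L.overlap ≤ LinearMap.range L.delta ∧ ∀ q ∈ L.H0, ∃ a : A, q = a • (s₁, s₂)

/-- Vanishing of the cokernel is invariant under isomorphism. -/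
theorem Datum.Iso.overlap_le {L L' : Datum X A} (i : Iso L L')
    (h : L.overlap ≤ LinearMap.range L.delta) : L'.overlap ≤ LinearMap.range L'.delta := by
  intro z hz
  set a := i.a₂.map (X.res₂ A)
  set b := i.b₂.map (X.res₂ A)
  obtain ⟨⟨x, y⟩, hp⟩ := h (show b *ᵥ z ∈ L.overlap from L.mem_overlap.2 (by
    conv_rhs => rw [← L'.mem_overlap.1 hz]
    rw [Matrix.mulVec_mulVec, Matrix.mulVec_mulVec, ← Matrix.map_mul, ← Matrix.map_mul, ← i.ba₂,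
      Matrix.mul_assoc, i.ab₂]))
  refine ⟨(i.a₁ *ᵥ (L.e₁ *ᵥ x), i.a₂ *ᵥ (L.e₂ *ᵥ y)), ?_⟩
  have r₁ : X.res₁ A ∘ (i.a₁ *ᵥ (L.e₁ *ᵥ x)) =
      (i.a₁.map (X.res₁ A) * L.e₁.map (X.res₁ A)) *ᵥ (X.res₁ A ∘ x) := by
    rw [← Matrix.mulVec_mulVec, ← L.res₁_mulVec]
    exact funext fun l => RingHom.map_mulVec (X.res₁ A).toRingHom i.a₁ _ l
  have r₂ : X.res₂ A ∘ (i.a₂ *ᵥ (L.e₂ *ᵥ y)) =
      (a * L.e₂.map (X.res₂ A)) *ᵥ (X.res₂ A ∘ y) := by
    rw [← Matrix.mulVec_mulVec, ← L.res₂_mulVec]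
    exact funext fun l => RingHom.map_mulVec (X.res₂ A).toRingHom i.a₂ _ l
  show L'.u *ᵥ (X.res₁ A ∘ _) - L'.e₂.map (X.res₂ A) *ᵥ (X.res₂ A ∘ _) = z
  conv_rhs => rw [← L'.mem_overlap.1 hz, ← i.ab₂, Matrix.map_mul, ← Matrix.mulVec_mulVec, ← hp]
  show _ = a *ᵥ (L.u *ᵥ (X.res₁ A ∘ x) - L.e₂.map (X.res₂ A) *ᵥ (X.res₂ A ∘ y))
  rw [r₁, r₂, Matrix.mulVec_sub, Matrix.mulVec_mulVec, Matrix.mulVec_mulVec, Matrix.mulVec_mulVec,
    Matrix.mulVec_mulVec, ← Matrix.mul_assoc, ← Matrix.mul_assoc, i.compat, ← Matrix.map_mul,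
    ← Matrix.map_mul, ← Matrix.map_mul, i.cut₂]

namespace ChartPt.IsGood

variable {p p' : ChartPt k e A} (hp : p.IsGood)
include hp

/-- Every datum of a good point has vanishing cokernel and only the multiples of the section. -/
theorem gen {L : Datum X A} {s₁ : Fin L.n₁ → X.R₁ A} {s₂ : Fin L.n₂ → X.R₂ A}
    (h : Cuts p L s₁ s₂) :
    L.overlap ≤ LinearMap.range L.delta ∧ ∀ q ∈ L.H0, ∃ a : A, q = a • (s₁, s₂) := by
  obtain ⟨hev, L₀, c₁, c₂, h₀, hov, hgen⟩ := hp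
  obtain ⟨i⟩ := h₀.nonempty_iso h
  refine ⟨i.overlap_le hov, ?_⟩
  have key : ∀ q ∈ L.H0, ∃ a : A, q = a • (i.a₁ *ᵥ c₁, i.a₂ *ᵥ c₂) := by
    rintro ⟨q₁, q₂⟩ ⟨g₁, g₂, g₃⟩
    obtain ⟨a, ha⟩ := hgen _ (show (i.b₁ *ᵥ q₁, i.b₂ *ᵥ q₂) ∈ L₀.H0 from
      i.symm.mulVec_mem_H0 g₁ g₂ g₃)
    refine ⟨a, Prod.ext ?_ ?_⟩
    · have := congrArg (fun z => i.a₁ *ᵥ z) (congrArg Prod.fst ha)
      simpa [Matrix.mulVec_mulVec, i.ab₁, g₁, Matrix.mulVec_smul] using this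
    · have := congrArg (fun z => i.a₂ *ᵥ z) (congrArg Prod.snd ha)
      simpa [Matrix.mulVec_mulVec, i.ab₂, g₂, Matrix.mulVec_smul] using this
  obtain ⟨a, ha⟩ := key (s₁, s₂) ⟨h.fix₁, h.fix₂, h.compat⟩
  obtain ⟨hu, -⟩ := (h₀.of_iso i).isUnit_of_smul h hev ha
  intro q hq
  obtain ⟨b, hb⟩ := key q hq
  refine ⟨b * hu.unit⁻¹, ?_⟩
  rw [ha, ← mul_smul, mul_assoc, IsUnit.val_inv_mul, mul_one]
  exact hb

/-- Good points are determined by the isomorphism class of their data. -/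
theorem eq_of_iso (hp' : p'.IsGood) {L L' : Datum X A} {s₁ : Fin L.n₁ → X.R₁ A}
    {s₂ : Fin L.n₂ → X.R₂ A} {t₁ : Fin L'.n₁ → X.R₁ A} {t₂ : Fin L'.n₂ → X.R₂ A}
    (h : Cuts p L s₁ s₂) (h' : Cuts p' L' t₁ t₂) (i : Iso L L') : p = p' := by
  obtain ⟨a, ha⟩ := (hp'.gen h').2 (i.a₁ *ᵥ s₁, i.a₂ *ᵥ s₂) (i.mulVec_mem_H0 h.fix₁ h.fix₂ h.compat)
  exact ChartPt.eq_of_ideal ((h'.isUnit_of_smul (h.of_iso i) hp.1 ha).2)

end ChartPt.IsGood

theorem Datum.chartMap_smul_one {B : Type u} [CommRing B] [Algebra k B] (φ : A →ₐ[k] A') (a : A) :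
    chartMap B φ (algebraMap A (A ⊗[k] B) a) = algebraMap A' (A' ⊗[k] B) (φ a) := by
  rw [Algebra.algebraMap_eq_smul_one, Datum.chartMap_smul, map_one, Algebra.algebraMap_eq_smul_one]

/-- Multiples of one section stay so after base change. -/
theorem Datum.gen_map {L : Datum X A} (h : L.overlap ≤ LinearMap.range L.delta)
    {s : (Fin L.n₁ → X.R₁ A) × (Fin L.n₂ → X.R₂ A)} (hgen : ∀ q ∈ L.H0, ∃ a : A, q = a • s)
    (φ : A →ₐ[k] A') : ∀ q ∈ (L.map φ).H0, ∃ a : A', q = a • secMap φ L s := by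
  letI : Algebra A A' := φ.toRingHom.toAlgebra
  haveI : IsScalarTower k A A' := IsScalarTower.of_algHom φ
  obtain ⟨E, hE⟩ := L.exists_H0_baseChange (A' := A') h
  intro q hq
  obtain ⟨z, hz⟩ := E.surjective ⟨q, hq⟩
  have key : ∀ z, ∃ a : A', (E z).1 = a • secMap φ L s := fun z => by
    induction z using TensorProduct.induction_on with
    | zero => exact ⟨0, by rw [map_zero, zero_smul]; rfl⟩
    | tmul a w =>
      obtain ⟨c, hc⟩ := hgen _ (Degree.kerEquiv L w).2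
      refine ⟨a * φ c, ?_⟩
      rw [show a ⊗ₜ[A] w = a • ((1 : A') ⊗ₜ[A] w) by rw [TensorProduct.smul_tmul', smul_eq_mul, mul_one],
        map_smul, Submodule.coe_smul, hE, hc, mul_smul]
      congr 1
      exact Prod.ext (vecMap_smul φ X.B₁ c s.1) (vecMap_smul φ X.B₂ c s.2)
    | add x y hx hy =>
      obtain ⟨a, ha⟩ := hx
      obtain ⟨b, hb⟩ := hy
      exact ⟨a + b, ((congrArg Subtype.val (map_add E x y)).trans (congrArg₂ (· + ·) ha hb)).trans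
        (add_smul a b _).symm⟩
  obtain ⟨a, ha⟩ := key z
  exact ⟨a, by rw [← ha, hz]⟩

/-- The ideal of a point avoiding the marked point does so after base change. -/
theorem ChartPt.map_evPt_eq_top {p : ChartPt k e A} (h : p.ideal.map (X.evPt A) = ⊤)
    (φ : A →ₐ[k] A') : (p.map φ).ideal.map (X.evPt A') = ⊤ := by
  rw [p.ideal_map φ]
  show ((p.ideal.map (Datum.chartMap X.B₁ φ : X.R₁ A →+* X.R₁ A')).map
    (X.evPt A' : X.R₁ A' →+* A')) = ⊤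
  rw [Ideal.map_map]
  rw [show ((X.evPt A' : X.R₁ A' →+* A')).comp (Datum.chartMap X.B₁ φ : X.R₁ A →+* X.R₁ A') =
      (φ : A →+* A').comp (X.evPt A : X.R₁ A →+* A) from RingHom.ext (evPt_chartMap φ),
    ← Ideal.map_map]
  exact (congrArg (Ideal.map (φ : A →+* A')) h).trans (Ideal.map_top _)

/-- Good points are stable under base change. -/
theorem ChartPt.IsGood.map {p : ChartPt k e A} (hp : p.IsGood) (φ : A →ₐ[k] A') :
    (p.map φ).IsGood := by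
  obtain ⟨hev, L, s₁, s₂, h, hov, hgen⟩ := hp
  exact ⟨ChartPt.map_evPt_eq_top hev φ, L.map φ, _, _, h.map φ, L.overlap_le_map φ hov,
    L.gen_map hov hgen φ⟩

/-- A localisation of a localisation below one localisation. -/
theorem exists_away_below {f₀ : A} {g : Localization.Away f₀} {K : Type u} [Field K] [Algebra k K]
    (ψ₀ : Localization.Away f₀ →ₐ[k] K) (hg : ψ₀ g ≠ 0) :
    ∃ f : A, (ψ₀.comp (toAway k f₀)) f ≠ 0 ∧
      ∃ χ : Localization.Away g →ₐ[k] Localization.Away f,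
        (χ.comp (toAway k g)).comp (toAway k f₀) = toAway k f := by
  obtain ⟨N, a, ha⟩ := IsLocalization.Away.surj f₀ g
  have hf₀ : IsUnit (toAway k f₀ f₀) :=
    IsLocalization.map_units (Localization.Away f₀) (⟨f₀, 1, pow_one _⟩ : Submonoid.powers f₀)
  have hψa : ψ₀ (toAway k f₀ a) = ψ₀ g * ψ₀ (toAway k f₀ f₀) ^ N := by
    rw [← map_pow, ← map_mul]
    exact congrArg ψ₀ ha.symm
  refine ⟨f₀ * a, ?_, ?_⟩
  · show ψ₀ (toAway k f₀ (f₀ * a)) ≠ 0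
    rw [map_mul, map_mul, hψa]
    exact mul_ne_zero (hf₀.map ψ₀).ne_zero (mul_ne_zero hg (pow_ne_zero _ (hf₀.map ψ₀).ne_zero))
  · have hd : f₀ ∣ f₀ * a := dvd_mul_right _ _
    have hu : IsUnit (awayLE (k := k) hd g) := by
      have h := congrArg (awayLE (k := k) hd) ha
      rw [map_mul, map_pow] at h
      have h' : IsUnit (awayLE (k := k) hd (algebraMap A _ a)) := by
        rw [show awayLE (k := k) hd (algebraMap A _ a) = toAway k (f₀ * a) a from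
          DFunLike.congr_fun (awayLE_comp hd) a]
        exact isUnit_toAway_of_dvd (dvd_mul_left a f₀)
      rw [← h] at h'
      exact isUnit_of_mul_isUnit_left h'
    exact ⟨awayTo (awayLE hd) hu, by rw [awayTo_comp, awayLE_comp]⟩

/-- Being cut out by a good point near a field valued point descends from a localisation. -/
theorem exists_good_push {K : Type u} [Field K] [Algebra k K] {L : Datum X A} {f₀ : A}
    (ψ₀ : Localization.Away f₀ →ₐ[k] K)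
    (h : ∃ f, ψ₀ f ≠ 0 ∧ ∃ p : ChartPt k e (Localization.Away f), p.IsGood ∧
      ∃ s₁ s₂, Cuts p ((L.map (toAway k f₀)).map (toAway k f)) s₁ s₂) :
    ∃ f, (ψ₀.comp (toAway k f₀)) f ≠ 0 ∧ ∃ p : ChartPt k e (Localization.Away f), p.IsGood ∧
      ∃ s₁ s₂, Cuts p (L.map (toAway k f)) s₁ s₂ := by
  obtain ⟨g, hg, p, hp, hs⟩ := h
  obtain ⟨f, hf, χ, hχ⟩ := exists_away_below ψ₀ hg
  refine ⟨f, hf, p.map χ, hp.map χ, ?_⟩
  obtain ⟨s₁, s₂, hs⟩ := hs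
  rw [← hχ, Datum.map_comp, Datum.map_comp]
  exact ⟨_, _, hs.map χ⟩

/-- A good point over a field extends to a good point near it, cutting out the given datum. -/
theorem exists_good_near {L : Datum X A} {K : Type u} [Field K] [Algebra k K] (ψ : A →ₐ[k] K)
    {pK : ChartPt k e K} (hg : pK.IsGood)
    (hK : ∃ t₁ t₂, Cuts pK (L.map ψ) t₁ t₂) :
    ∃ f, ψ f ≠ 0 ∧ ∃ p : ChartPt k e (Localization.Away f), p.IsGood ∧
      ∃ s₁ s₂, Cuts p (L.map (toAway k f)) s₁ s₂ := by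
  obtain ⟨f₀, hf₀, hf₀'⟩ := L.exists_smul_mem_range K ψ (by
    obtain ⟨t₁, t₂, h⟩ := hK
    exact (hg.gen h).1)
  set L₁ := L.map (toAway k f₀) with hL₁
  set ψ₁ := awayTo ψ (isUnit_iff_ne_zero.2 hf₀) with hψ₁
  have hψ : ψ₁.comp (toAway k f₀) = ψ := awayTo_comp _ _
  rw [← hψ] at hK ⊢
  rw [Datum.map_comp] at hK
  refine exists_good_push ψ₁ ?_
  have hov : L₁.overlap ≤ LinearMap.range L₁.delta := by
    rw [← surjective_fullDelta_iff, ← LinearMap.range_eq_top, L.range_fullDelta_map]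
    refine Submodule.eq_top_iff'.2 fun y => ?_
    refine Submodule.span_le.2 ?_ (span_vecMap (toAway k f₀) X.B₀ y)
    rintro _ ⟨z, rfl⟩
    have hu : IsUnit (toAway k f₀ f₀) := isUnit_toAway_of_dvd dvd_rfl
    rw [SetLike.mem_coe, ← Submodule.smul_mem_iff_of_isUnit _ hu, ← vecMap_smul]
    refine Submodule.subset_span ⟨_, ?_, rfl⟩
    obtain ⟨q, hq⟩ := hf₀' (L.e₂.map (X.res₂ A) *ᵥ z) ⟨z, rfl⟩
    refine ⟨(q, f₀ • z), ?_⟩
    rw [fullDelta_apply, hq, Matrix.mulVec_smul, add_sub_cancel]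
  obtain ⟨t₁, t₂, hK⟩ := hK
  obtain ⟨hovK, hgK⟩ := hg.gen hK
  have ht : ((t₁, t₂) : _ × _) ∈ (L₁.map ψ₁).H0 := ⟨hK.fix₁, hK.fix₂, hK.compat⟩
  obtain ⟨j₀, hj₀⟩ : ∃ j, X.evPt K (t₁ j) ≠ 0 := by
    by_contra hne
    simp only [not_exists, not_not] at hne
    refine one_ne_zero (α := K) ?_
    have h1 : (1 : K) ∈ pK.ideal.map (X.evPt K) := by rw [hg.1]; trivial
    rw [← hK.ideal_eq, Ideal.map_span] at h1
    rw [← Ideal.mem_bot]
    refine Ideal.span_le.2 ?_ h1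
    rintro _ ⟨_, ⟨j, rfl⟩, rfl⟩
    exact hne j
  have hne : ((t₁, t₂) : _ × _) ≠ 0 := fun h0 => hj₀ (by
    rw [show t₁ = 0 from congrArg Prod.fst h0, Pi.zero_apply, map_zero])
  have hchi : (L₁.map ψ₁).chi = 1 := by
    haveI : Subsingleton ((L₁.map ψ₁).overlap ⧸
        (LinearMap.range (L₁.map ψ₁).delta).comap (L₁.map ψ₁).overlap.subtype) :=
      Submodule.Quotient.subsingleton_iff.2 (eq_top_iff.2 fun w _ => hovK w.2)
    rw [Datum.chi, Module.finrank_zero_of_subsingleton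
      (M := _ ⧸ (LinearMap.range (L₁.map ψ₁).delta).comap (L₁.map ψ₁).overlap.subtype),
      Nat.cast_zero, sub_zero, Nat.cast_eq_one,
      finrank_eq_one_iff_of_nonzero' (⟨_, ht⟩ : (L₁.map ψ₁).H0) (fun h0 => hne (congrArg Subtype.val h0))]
    intro w
    obtain ⟨a, ha⟩ := hgK _ w.2
    exact ⟨a, Subtype.ext ha.symm⟩
  obtain ⟨f₁, hf₁, s, hs, hgen⟩ := L₁.exists_section_near hov K ψ₁ hchi
  obtain ⟨c, hc, -⟩ := hgen K ψ₁ (isUnit_iff_ne_zero.2 hf₁) _ ht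
  have hc₁ : ∀ j, t₁ j = c • chartMap X.B₁ ψ₁ (s.1 j) := fun j =>
    (congrFun (congrArg Prod.fst hc) j).symm
  have hc₂ : ∀ j, t₂ j = c • chartMap X.B₂ ψ₁ (s.2 j) := fun j =>
    (congrFun (congrArg Prod.snd hc) j).symm
  obtain ⟨f₂, hf₂, hf₂'⟩ := exists_unit_mod_near (L := L₁) s.2 ψ₁ (by
    rw [eq_top_iff, ← hK.unit_mod]
    refine sup_le_sup_right (Ideal.span_le.2 ?_) _
    rintro _ ⟨j, rfl⟩
    rw [hc₂, Algebra.smul_def]
    exact Ideal.mul_mem_left _ _ (Ideal.subset_span ⟨j, rfl⟩))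
  set f₄ := X.evPt _ (s.1 j₀)
  have hf₄ : ψ₁ f₄ ≠ 0 := fun h0 => hj₀ (by
    rw [hc₁, map_smul, evPt_chartMap, h0, smul_zero])
  set g := f₁ * f₂ * f₄
  have hgne : ψ₁ g ≠ 0 := by simp only [g, map_mul]; exact mul_ne_zero (mul_ne_zero hf₁ hf₂) hf₄
  set ψ₂ := awayTo ψ₁ (isUnit_iff_ne_zero.2 hgne)
  have hψ₂ : ψ₂.comp (toAway k g) = ψ₁ := awayTo_comp _ _
  rw [← hψ₂]
  refine exists_good_push ψ₂ ?_
  set φ := toAway k g
  set L₂ := L₁.map φ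
  set s₁ : Fin L₂.n₁ → X.R₁ (Localization.Away g) := chartMap X.B₁ φ ∘ s.1
  set s₂ : Fin L₂.n₂ → X.R₂ (Localization.Away g) := chartMap X.B₂ φ ∘ s.2
  obtain ⟨g₁, g₂, g₃⟩ := secMap_mem φ L₁ hs
  have hu₂ : IsUnit (φ f₁) ∧ IsUnit (φ f₂) ∧ IsUnit (φ f₄) :=
    ⟨isUnit_toAway_of_dvd ⟨f₂ * f₄, mul_assoc _ _ _⟩,
      isUnit_toAway_of_dvd ⟨f₁ * f₄, by simp only [g]; ring⟩,
      isUnit_toAway_of_dvd (dvd_mul_left _ _)⟩
  have hov₂ := L₁.overlap_le_map φ hov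
  have hgen₂ : ∀ q ∈ L₂.H0, ∃ a, q = a • ((s₁, s₂) : _ × _) := fun q hq =>
    (hgen _ φ hu₂.1 q hq).exists.imp fun _ h => h.symm
  have hu : Ideal.span (Set.range s₂) ⊔ Ideal.span {(1 : Localization.Away g) ⊗ₜ[k] X.g} = ⊤ := by
    refine Ideal.eq_top_of_isUnit_mem _ ?_ (hu₂.2.1.map (algebraMap _ (X.R₂ _)))
    have h1 := Ideal.mem_map_of_mem (chartMap X.B₂ φ) hf₂'
    rw [Ideal.map_sup, Ideal.map_span, Ideal.map_span, Set.image_singleton, ← Set.range_comp] at h1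
    rw [chartMap_smul_one, show chartMap X.B₂ φ ((1 : Localization.Away f₀) ⊗ₜ[k] X.g) = 1 ⊗ₜ[k] X.g by
      simp [chartMap]] at h1
    exact h1
  have hK₂ : Ideal.span (Set.range (chartMap X.B₁ ψ₂ ∘ s₁)) = pK.ideal := by
    have hcne : c ≠ 0 := fun h0 => hj₀ (by rw [hc₁, h0, zero_smul, map_zero])
    have he : chartMap X.B₁ ψ₂ ∘ s₁ = chartMap X.B₁ ψ₁ ∘ s.1 := by
      rw [← hψ₂, chartMap_comp]; rfl
    rw [he, ← hK.ideal_eq]
    refine le_antisymm (Ideal.span_le.2 ?_) (Ideal.span_le.2 ?_)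
    · rintro _ ⟨j, rfl⟩
      rw [Function.comp_apply, show chartMap X.B₁ ψ₁ (s.1 j) = c⁻¹ • t₁ j by
        rw [hc₁, inv_smul_smul₀ hcne], Algebra.smul_def]
      exact Ideal.mul_mem_left _ _ (Ideal.subset_span ⟨j, rfl⟩)
    · rintro _ ⟨j, rfl⟩
      rw [hc₁, Algebra.smul_def]
      exact Ideal.mul_mem_left _ _ (Ideal.subset_span ⟨j, rfl⟩)
  obtain ⟨f₃, hf₃, hspan, hind⟩ := exists_free_near (L := L₂) g₁ g₃ hu ψ₂ pK hK₂
  obtain ⟨p, hp⟩ := exists_cuts_away (L := L₂) g₁ g₂ g₃ hu f₃ hspan hind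
  refine ⟨f₃, hf₃, p, ⟨?_, _, _, _, hp, L₂.overlap_le_map _ hov₂, L₂.gen_map hov₂ hgen₂ _⟩,
    _, _, hp⟩
  refine Ideal.eq_top_of_isUnit_mem _ ?_ (hu₂.2.2.map (toAway k f₃))
  rw [show toAway k f₃ (φ f₄) = X.evPt _ (chartMap X.B₁ (toAway k f₃) (s₁ j₀)) by
    rw [evPt_chartMap]; exact congrArg _ (evPt_chartMap φ (s.1 j₀)).symm]
  exact Ideal.mem_map_of_mem _ (hp.ideal_eq ▸ Ideal.subset_span ⟨j₀, rfl⟩)

/-- Being good spreads from a field valued point. -/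
theorem exists_good_open (hB : GoodChart k X.B₁) (p : ChartPt k e A) {K : Type u} [Field K]
    [Algebra k K] (ψ : A →ₐ[k] K) (hg : (p.map ψ).IsGood) :
    ∃ f, ψ f ≠ 0 ∧ (p.map (toAway k f)).IsGood := by
  obtain ⟨L, s₁, s₂, h⟩ := p.exists_cuts hB
  obtain ⟨f, hf, p', hp', h'⟩ := exists_good_near ψ hg ⟨_, _, h.map ψ⟩
  obtain ⟨j₀, hj₀⟩ : ∃ j, ψ (X.evPt A (s₁ j)) ≠ 0 := by
    by_contra hne
    simp only [not_exists, not_not] at hne
    refine one_ne_zero (α := K) ?_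
    have h1 : (1 : K) ∈ (p.map ψ).ideal.map (X.evPt K) := by rw [hg.1]; trivial
    rw [← (h.map ψ).ideal_eq, Ideal.map_span] at h1
    rw [← Ideal.mem_bot]
    refine Ideal.span_le.2 ?_ h1
    rintro _ ⟨_, ⟨j, rfl⟩, rfl⟩
    exact (evPt_chartMap ψ (s₁ j)).trans (hne j)
  set F := f * X.evPt A (s₁ j₀)
  have hF : ψ F ≠ 0 := by rw [map_mul]; exact mul_ne_zero hf hj₀
  set χ := awayLE (k := k) (dvd_mul_right f (X.evPt A (s₁ j₀)))
  have hh : ∃ t₁ t₂, Cuts (p'.map χ) (L.map (toAway k F)) t₁ t₂ := by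
    obtain ⟨t₁, t₂, ht⟩ := h'
    rw [show toAway k F = χ.comp (toAway k f) from (awayLE_comp _).symm, Datum.map_comp]
    exact ⟨_, _, ht.map χ⟩
  obtain ⟨t₁, t₂, ht⟩ := hh
  have hs := h.map (toAway k F)
  have hev : (p.map (toAway k F)).ideal.map (X.evPt _) = ⊤ := by
    refine Ideal.eq_top_of_isUnit_mem _ ?_
      (isUnit_toAway_of_dvd (k := k) (dvd_mul_left (X.evPt A (s₁ j₀)) f))
    rw [← evPt_chartMap]
    exact Ideal.mem_map_of_mem _ (hs.ideal_eq ▸ Ideal.subset_span ⟨j₀, rfl⟩)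
  obtain ⟨a, ha⟩ := ((hp'.map χ).gen ht).2
    (chartMap X.B₁ (toAway k F) ∘ s₁, chartMap X.B₂ (toAway k F) ∘ s₂) ⟨hs.fix₁, hs.fix₂, hs.compat⟩
  refine ⟨F, hF, ?_⟩
  rw [ChartPt.eq_of_ideal (ht.isUnit_of_smul hs hev ha).2]
  exact hp'.map χ

end FLTAgent.PicScheme
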