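import Fermat.Agent.PicScheme.Chart.Sections
import Fermat.Agent.PicScheme.Chart.Free

/-!
# From a section to a point of the chart

A section with no zero outside the first chart whose zero scheme at a point is free on the given
elements is, near that point, cut out by a point of the chart.
-/

set_option autoImplicit false
set_option linter.unusedSectionVars false
set_option linter.style.haveILetI false

noncomputable section

universe u

open TensorProduct Matrix Polynomial

namespace FLTAgent.PicScheme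

variable {k : Type u} [Field k] {X : Charts k} {A : Type u} [CommRing A] [Algebra k A]

theorem res₁_atCoord (q : A[X]) :
    X.res₁ A (atCoord A X.f q) = Polynomial.aeval (X.t₀ A) q := (Polynomial.aeval_algHom_apply _ _ _).symm

theorem res₂_atCoord (q : A[X]) :
    X.res₂ A (atCoord A X.g q) = Polynomial.aeval (X.s₀ A) q := (Polynomial.aeval_algHom_apply _ _ _).symm

variable {L : Datum X A} {s₁ : Fin L.n₁ → X.R₁ A} {s₂ : Fin L.n₂ → X.R₂ A}

/-- A section with no zero outside the first chart has a monic polynomial of the coordinate in the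
ideal it spans. -/
theorem exists_monic_mem (hc : L.u *ᵥ (X.res₁ A ∘ s₁) = X.res₂ A ∘ s₂)
    (hu : Ideal.span (Set.range s₂) ⊔ Ideal.span {(1 : A) ⊗ₜ[k] X.g} = ⊤) :
    ∃ q : A[X], q.Monic ∧ atCoord A X.f q ∈ Ideal.span (Set.range s₁) := by
  set J : Ideal (X.R₀ A) := (Ideal.span (Set.range s₁)).map (X.res₁ A)
  have hJ : ∀ w ∈ Ideal.span (Set.range s₂), X.res₂ A w ∈ J := by
    intro w hw
    refine Submodule.span_induction (p := fun w _ => X.res₂ A w ∈ J) ?_ ?_ ?_ ?_ hw
    · rintro _ ⟨i, rfl⟩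
      rw [show X.res₂ A (s₂ i) = (L.u *ᵥ (X.res₁ A ∘ s₁)) i from (congrFun hc i).symm]
      show ∑ j, L.u i j * X.res₁ A (s₁ j) ∈ J
      exact Submodule.sum_mem _ fun j _ =>
        J.mul_mem_left _ (Ideal.mem_map_of_mem _ (Ideal.subset_span ⟨j, rfl⟩))
    · simp
    · intro a b _ _ ha hb; rw [map_add]; exact J.add_mem ha hb
    · intro c a _ ha; rw [smul_eq_mul, map_mul]; exact J.mul_mem_left _ ha
  obtain ⟨w, hw, y, hy, hwy⟩ := Submodule.mem_sup.1 ((Ideal.eq_top_iff_one _).1 hu)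
  obtain ⟨a, rfl⟩ := Ideal.mem_span_singleton'.1 hy
  have ha : X.t₀ A - X.res₂ A a ∈ J := by
    have h1 : X.t₀ A = X.t₀ A * X.res₂ A w + X.res₂ A a := by
      have := congrArg (fun z => X.t₀ A * X.res₂ A z) hwy
      simp only [map_add, map_mul, map_one, mul_one] at this
      conv_lhs => rw [← this]
      rw [show X.res₂ A ((1 : A) ⊗ₜ[k] X.g) = X.s₀ A from rfl]
      linear_combination (X.res₂ A a) * X.t₀_mul_s₀ A
    rw [h1, add_sub_cancel_right]
    exact J.mul_mem_left _ (hJ w hw)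
  -- `a` is integral over the polynomials in the coordinate
  obtain ⟨m, Φ, -⟩ := PolyChart.free (A := A) X.isFree.2
  haveI : Module.Finite A[X] (PolyChart k A X.g) := Module.Finite.equiv Φ
  obtain ⟨F, hF, hFa⟩ := Algebra.IsIntegral.isIntegral (R := A[X]) (PolyChart.of X.g a)
  rcases subsingleton_or_nontrivial A with hA | hA
  · exact ⟨1, monic_one, by rw [show (1 : A[X]) = 0 from Subsingleton.elim _ _, map_zero]; exact zero_mem _⟩
  set d := F.natDegree
  set N := Finset.univ.sup fun i : Fin d => (F.coeff i).natDegree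
  -- the polynomial in `t`
  set q : A[X] := Polynomial.X ^ (d + N) + ∑ i : Fin d, (F.coeff i).reflect N * Polynomial.X ^ (i : ℕ)
  have hqdeg : (∑ i : Fin d, (F.coeff i).reflect N * Polynomial.X ^ (i : ℕ)).degree < ((d + N : ℕ) : WithBot ℕ) := by
    refine (Polynomial.degree_sum_le _ _).trans_lt
      ((Finset.sup_lt_iff (WithBot.bot_lt_coe _)).2 fun i _ => ?_)
    refine (Polynomial.degree_le_natDegree).trans_lt (WithBot.coe_lt_coe.2 ?_)
    refine Polynomial.natDegree_mul_le.trans_lt ?_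
    have h1 : ((F.coeff i).reflect N).natDegree ≤ N := by
      refine Polynomial.natDegree_le_iff_coeff_eq_zero.2 fun l hl => ?_
      rw [Polynomial.coeff_reflect]
      refine Polynomial.coeff_eq_zero_of_natDegree_lt ?_
      rw [Polynomial.revAt_eq_self_of_lt hl]
      exact lt_of_le_of_lt (Finset.le_sup (f := fun i : Fin d => (F.coeff i).natDegree) (Finset.mem_univ i)) hl
    have h2 : ((Polynomial.X : A[X]) ^ (i : ℕ)).natDegree ≤ i := Polynomial.natDegree_X_pow_le _
    exact Nat.lt_of_le_of_lt (Nat.add_le_add h1 h2)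
      (by rw [Nat.add_comm d N]; exact Nat.add_lt_add_left i.2 N)
  have hmem : X.res₁ A (atCoord A X.f q) ∈ J := by
    have h0 : Polynomial.eval₂ (Polynomial.aeval (X.s₀ A) : A[X] →ₐ[A] X.R₀ A).toRingHom (X.res₂ A a) F = 0 := by
      have h3 : Polynomial.eval₂ (Polynomial.aeval ((1 : A) ⊗ₜ[k] X.g) : A[X] →ₐ[A] X.R₂ A).toRingHom a F = 0 := hFa
      have := congrArg (X.res₂ A).toRingHom h3
      rw [Polynomial.hom_eval₂, map_zero] at this
      rw [← this]
      congr 1
      refine RingHom.ext fun p => ?_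
      exact (Polynomial.aeval_algHom_apply (X.res₂ A) _ p)
    set σ := (Polynomial.aeval (X.s₀ A) : A[X] →ₐ[A] X.R₀ A)
    have h1 : Polynomial.eval₂ σ.toRingHom (X.t₀ A) F ∈ J := by
      have := Polynomial.sub_dvd_eval_sub (X.t₀ A) (X.res₂ A a) (F.map σ.toRingHom)
      rw [Polynomial.eval_map, Polynomial.eval_map, h0, sub_zero] at this
      obtain ⟨c, hc'⟩ := this
      rw [hc']
      exact J.mul_mem_right _ ha
    have h2 : X.res₁ A (atCoord A X.f q) = X.t₀ A ^ N * Polynomial.eval₂ σ.toRingHom (X.t₀ A) F := by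
      rw [res₁_atCoord, map_add, map_pow, Polynomial.aeval_X, map_sum, Polynomial.eval₂_eq_sum_range,
        Finset.sum_range_succ, show F.coeff d = 1 from hF, map_one, one_mul, mul_add, ← pow_add,
        Nat.add_comm N d, add_comm, ← Fin.sum_univ_eq_sum_range
          (fun i => σ.toRingHom (F.coeff i) * X.t₀ A ^ i), Finset.mul_sum]
      congr 1
      refine Finset.sum_congr rfl fun i _ => ?_
      rw [map_mul, map_pow, Polynomial.aeval_X, ← mul_assoc]
      congr 1
      have hle : (F.coeff i).natDegree ≤ N :=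
        Finset.le_sup (f := fun i : Fin d => (F.coeff i).natDegree) (Finset.mem_univ i)
      letI : Invertible (X.s₀ A) := ⟨X.t₀ A, X.t₀_mul_s₀ A, X.s₀_mul_t₀ A⟩
      have := Polynomial.eval₂_reflect_mul_pow (algebraMap A (X.R₀ A)) (X.s₀ A) N (F.coeff i) hle
      rw [show ⅟(X.s₀ A) = X.t₀ A from rfl] at this
      have hts : X.t₀ A ^ N * X.s₀ A ^ N = 1 := by rw [← mul_pow, X.t₀_mul_s₀, one_pow]
      show Polynomial.eval₂ (algebraMap A (X.R₀ A)) (X.t₀ A) ((F.coeff i).reflect N) =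
        X.t₀ A ^ N * Polynomial.eval₂ (algebraMap A (X.R₀ A)) (X.s₀ A) (F.coeff i)
      rw [← this]
      linear_combination (-(Polynomial.eval₂ (algebraMap A (X.R₀ A)) (X.t₀ A) ((F.coeff i).reflect N))) * hts
    rw [h2]
    exact J.mul_mem_left _ h1
  -- back to the first chart
  have hclear : ∀ z ∈ J, ∃ (M : ℕ) (w : X.R₁ A), w ∈ Ideal.span (Set.range s₁) ∧
      X.t₀ A ^ M * z = X.res₁ A w := by
    intro z hz
    refine Submodule.span_induction ?_ ?_ ?_ ?_ hz
    · rintro _ ⟨w, hw, rfl⟩; exact ⟨0, w, hw, by simp⟩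
    · exact ⟨0, 0, zero_mem _, by simp⟩
    · rintro x y _ _ ⟨M, w, hw, e⟩ ⟨M', w', hw', e'⟩
      refine ⟨M + M', ((1 : A) ⊗ₜ X.f) ^ M' * w + ((1 : A) ⊗ₜ X.f) ^ M * w',
        add_mem (Ideal.mul_mem_left _ _ hw) (Ideal.mul_mem_left _ _ hw'), ?_⟩
      rw [map_add, map_mul, map_mul, map_pow, map_pow, ← e, ← e', ← Charts.t₀]
      ring
    · rintro c x _ ⟨M, w, hw, e⟩
      obtain ⟨M', v, hv⟩ := X.exists_res₁ A c
      exact ⟨M' + M, v * w, Ideal.mul_mem_left _ _ hw, by rw [smul_eq_mul, map_mul, ← hv, ← e]; ring⟩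
  obtain ⟨M, w', hw', he⟩ := hclear _ hmem
  refine ⟨Polynomial.X ^ M * q, (Polynomial.monic_X_pow M).mul ((Polynomial.monic_X_pow _).add_of_left
    (by rw [Polynomial.degree_X_pow]; exact hqdeg)), ?_⟩
  have : atCoord A X.f (Polynomial.X ^ M * q) = w' := X.res₁_injective A X.isFree (by
    rw [← he, map_mul, map_mul, map_pow, map_pow, atCoord, Polynomial.aeval_X, ← Charts.t₀])
  rw [this]
  exact hw'

/-- Near a point at which the zero scheme is free on the `e i` the ideal of the section has this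
property. -/
theorem exists_free_near {n : ℕ} {e : Fin n → X.B₁} {K : Type u} [Field K] [Algebra k K]
    (hs₁ : L.e₁ *ᵥ s₁ = s₁) (hc : L.u *ᵥ (X.res₁ A ∘ s₁) = X.res₂ A ∘ s₂)
    (hu : Ideal.span (Set.range s₂) ⊔ Ideal.span {(1 : A) ⊗ₜ[k] X.g} = ⊤)
    (ψ : A →ₐ[k] K) (pK : ChartPt k e K)
    (hK : Ideal.span (Set.range (Datum.chartMap X.B₁ ψ ∘ s₁)) = pK.ideal) :
    ∃ f : A, ψ f ≠ 0 ∧
      (∀ z : X.R₁ A, f • z ∈ Submodule.span A (Set.range fun i => (1 : A) ⊗ₜ[k] e i) ⊔
        (Ideal.span (Set.range s₁)).restrictScalars A) ∧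
      ∀ a : Fin n → A, (∑ i, a i • ((1 : A) ⊗ₜ[k] e i)) ∈ Ideal.span (Set.range s₁) →
        ∀ i, f * a i = 0 := by
  classical
  obtain ⟨q, hq, hqI⟩ := exists_monic_mem hc hu
  obtain ⟨β⟩ := exists_coordBasis (k := k) X.isFree.1
  set d := q.natDegree
  set Q : X.R₁ A := atCoord A X.f q with hQdef
  set qK := q.map ψ.toRingHom
  have hqK : qK.Monic := hq.map _
  have hdK : qK.natDegree = d := hq.natDegree_map _
  set cm := Datum.chartMap X.B₁ ψ
  have hQK : cm Q = atCoord (k := k) K X.f qK := chartMap_atCoord ψ q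
  set remA := β.rem q d
  set remK := β.rem qK d
  have hrem : ∀ x, remK (cm x) = ψ ∘ remA x := fun x => β.rem_map ψ hq rfl x
  obtain ⟨c, hcQ⟩ := (Ideal.mem_span_range_iff_exists_fun).1 hqI
  -- the map back to the row module
  set δ : (Fin L.n₁ → X.R₁ A) → X.R₁ A := fun ζ => ζ ⬝ᵥ s₁
  set uu : X.R₁ A → (Fin L.n₁ → X.R₁ A) := fun r => r • (c ᵥ* L.e₁)
  have hδu : ∀ r, δ (uu r) = r * Q := fun r => by
    show (r • (c ᵥ* L.e₁)) ⬝ᵥ s₁ = r * Q
    rw [smul_dotProduct, ← Matrix.dotProduct_mulVec, hs₁, smul_eq_mul]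
    congr 1
  set t : Fin L.n₁ → X.R₁ K := cm ∘ s₁
  set eK := L.e₁.map cm
  set cK : Fin L.n₁ → X.R₁ K := cm ∘ c
  have ht : eK *ᵥ t = t := by
    funext i
    conv_rhs => rw [show t i = cm ((L.e₁ *ᵥ s₁) i) by rw [hs₁]; rfl]
    exact (RingHom.map_mulVec cm.toRingHom L.e₁ s₁ i).symm
  have hrankK : IsRankOne eK := Datum.IsRankOne.map cm.toRingHom L.rank₁
  have hcK : cK ⬝ᵥ t = atCoord (k := k) K X.f qK := by
    rw [← hQK, ← show ∑ j, c j * s₁ j = Q from hcQ, map_sum]
    exact Finset.sum_congr rfl fun j _ => (map_mul cm _ _).symm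
  have hpmem : ∀ j, t j ∈ pK.ideal := fun j => hK ▸ Ideal.subset_span ⟨j, rfl⟩
  have hQI : atCoord (k := k) K X.f qK ∈ pK.ideal := by
    rw [← hcK]; exact Submodule.sum_mem _ fun j _ => Ideal.mul_mem_left _ _ (hpmem j)
  have hbasis : ∀ a : Fin n → K, (∑ i, a i • ((1 : K) ⊗ₜ[k] e i)) ∈ pK.ideal → a = 0 := fun a ha => by
    rw [pK.mem_ideal, map_sum] at ha
    rw [← ha]
    funext j
    simp [pK.ext'_tmul, pK.basis, Pi.single_apply]
  -- generators of the row module
  let γ := Fin L.n₁ × Fin β.r × Fin d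
  set η : γ → (Fin L.n₁ → X.R₁ A) := fun w =>
    Pi.single w.1 (atCoord A X.f (Polynomial.X ^ (w.2.2 : ℕ)) * ((1 : A) ⊗ₜ[k] β.β w.2.1)) ᵥ* L.e₁
  set vE : Fin n → (Fin β.r × Fin d → K) := fun i => remK ((1 : K) ⊗ₜ[k] e i)
  set vD : γ → (Fin β.r × Fin d → K) := fun w => remK (cm (δ (η w)))
  have hmulQ : ∀ y, remK (atCoord (k := k) K X.f qK * y) = 0 := fun y =>
    (β.rem_eq_zero_iff hqK hdK).2 ⟨y, rfl⟩
  have hremI : ∀ x : X.R₁ K, remK x = 0 → x ∈ pK.ideal := fun x hx => by
    obtain ⟨y, rfl⟩ := (β.rem_eq_zero_iff hqK hdK).1 hx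
    exact Ideal.mul_mem_right _ _ hQI
  -- the images of the generators of the row module span the image of the ideal
  have hcol : ∀ (ζ : Fin L.n₁ → X.R₁ K),
      remK ((ζ ᵥ* eK) ⬝ᵥ t) ∈ Submodule.span K (Set.range vD) := by
    intro ζ
    have hgen : ∀ (j : Fin L.n₁) (x : X.R₁ K),
        remK (x * t j) ∈ Submodule.span K (Set.range vD) := by
      intro j x
      obtain ⟨v, rfl⟩ := β.build.surjective x
      have hv : ∀ i, v i = (v i %ₘ qK) + qK * (v i /ₘ qK) := fun i => (Polynomial.modByMonic_add_div _ _).symm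
      rw [show β.build v = β.build (fun i => v i %ₘ qK) + atCoord (k := k) K X.f qK * β.build (fun i => v i /ₘ qK) by
        rw [← β.build_smul, ← β.build_add]
        congr 1
        funext i
        exact hv i, add_mul, map_add, mul_assoc, hmulQ, add_zero, β.build_apply, Finset.sum_mul, map_sum]
      refine Submodule.sum_mem _ fun i _ => ?_
      have hdeg : (v i %ₘ qK).natDegree < d ∨ v i %ₘ qK = 0 := by
        rcases eq_or_ne (v i %ₘ qK) 0 with h | h
        · exact Or.inr h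
        · left
          have := Polynomial.degree_modByMonic_lt (v i) hqK
          rw [Polynomial.degree_eq_natDegree h, Polynomial.degree_eq_natDegree hqK.ne_zero, hdK] at this
          exact_mod_cast this
      rcases hdeg with hdeg | hdeg
      swap
      · rw [hdeg, map_zero, zero_mul, zero_mul, map_zero]; exact zero_mem _
      rw [(v i %ₘ qK).as_sum_range' d hdeg, map_sum, Finset.sum_mul, Finset.sum_mul, map_sum]
      refine Submodule.sum_mem _ fun l hl => ?_
      set a := (v i %ₘ qK).coeff l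
      have e1 : atCoord (k := k) K X.f (Polynomial.monomial l a) * ((1 : K) ⊗ₜ[k] β.β i) * t j =
          a • cm (δ (η (j, i, ⟨l, Finset.mem_range.1 hl⟩))) := by
        have e2 : δ (η (j, i, ⟨l, Finset.mem_range.1 hl⟩)) =
            (atCoord A X.f (Polynomial.X ^ l) * ((1 : A) ⊗ₜ[k] β.β i)) * s₁ j := by
          show (Pi.single j _ ᵥ* L.e₁) ⬝ᵥ s₁ = _
          rw [← Matrix.dotProduct_mulVec, hs₁, single_dotProduct]
        rw [e2, map_mul, map_mul, chartMap_atCoord, Polynomial.map_pow, Polynomial.map_X,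
          ← Polynomial.C_mul_X_pow_eq_monomial, map_mul, show atCoord (k := k) K X.f (Polynomial.C a) =
            algebraMap K (X.R₁ K) a from Polynomial.aeval_C _ _, Algebra.smul_def]
        simp only [cm, Datum.chartMap, Algebra.TensorProduct.map_tmul, map_one, AlgHom.id_apply]
        rw [mul_assoc, mul_assoc, mul_assoc]
        rfl
      rw [e1, map_smul]
      exact Submodule.smul_mem _ _ (Submodule.subset_span ⟨_, rfl⟩)
    rw [← Matrix.dotProduct_mulVec, ht, dotProduct, map_sum]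
    exact Submodule.sum_mem _ fun j _ => hgen j _
  have hImem : ∀ x ∈ pK.ideal, remK x ∈ Submodule.span K (Set.range vD) := by
    intro x hx
    rw [← hK] at hx
    obtain ⟨ζ, rfl⟩ := (Ideal.mem_span_range_iff_exists_fun).1 hx
    have := hcol ζ
    rw [← Matrix.dotProduct_mulVec, ht] at this
    exact this
  have hdecomp : ∀ x : X.R₁ K, x - ∑ i, pK.ext' x i • ((1 : K) ⊗ₜ[k] e i) ∈ pK.ideal := fun x => by
    rw [pK.mem_ideal, map_sub, map_sum, sub_eq_zero]
    funext j
    simp [pK.ext'_tmul, pK.basis, Pi.single_apply]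
  -- a basis adapted to the fibre
  have hvE : LinearIndependent K vE := Fintype.linearIndependent_iff.2 fun a ha => by
    have : remK (∑ i, a i • ((1 : K) ⊗ₜ[k] e i)) = 0 := by
      rw [map_sum]; simpa [vE, map_smul] using ha
    exact fun i => congrFun (hbasis a (hremI _ this)) i
  obtain ⟨T, hT, hTsp, hTli⟩ := exists_linearIndependent K (Set.range vD)
  choose wT hwT using hT
  haveI : Finite T := ((Set.finite_range vD).subset fun x hx => hwT hx ▸ ⟨_, rfl⟩).to_subtype
  haveI := Fintype.ofFinite T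
  set ηT : T → (Fin L.n₁ → X.R₁ A) := fun x => η (wT x.2)
  set v₁ : Fin n ⊕ T → (Fin β.r × Fin d → A) :=
    Sum.elim (fun i => remA ((1 : A) ⊗ₜ[k] e i)) (fun x => remA (δ (ηT x)))
  have hv₁ : (fun s => ψ ∘ v₁ s) = Sum.elim vE (fun x : T => (x : Fin β.r × Fin d → K)) := by
    funext s
    rcases s with i | x
    · show ψ ∘ remA _ = remK _
      rw [← hrem]; simp [cm, Datum.chartMap]
    · show ψ ∘ remA _ = _
      rw [← hrem]; exact hwT x.2
  have hTrange : Submodule.span K (Set.range fun x : T => (x : Fin β.r × Fin d → K)) =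
      Submodule.span K (Set.range vD) := by rw [Subtype.range_coe, hTsp]
  have hvD_mem : ∀ z ∈ Submodule.span K (Set.range vD), ∃ x ∈ pK.ideal, remK x = z := by
    intro z hz
    refine Submodule.span_induction ?_ ⟨0, zero_mem _, map_zero _⟩ ?_ ?_ hz
    · rintro _ ⟨w, rfl⟩
      refine ⟨_, ?_, rfl⟩
      show cm (∑ j, η w j * s₁ j) ∈ pK.ideal
      rw [map_sum]
      exact Submodule.sum_mem _ fun j _ => by rw [map_mul]; exact Ideal.mul_mem_left _ _ (hpmem j)
    · rintro a b _ _ ⟨x, hx, rfl⟩ ⟨y, hy, rfl⟩; exact ⟨x + y, add_mem hx hy, map_add _ _ _⟩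
    · rintro a b _ ⟨x, hx, rfl⟩
      exact ⟨a • x, (pK.ideal.restrictScalars K).smul_mem a hx, map_smul _ _ _⟩
  have hli₁ : LinearIndependent K fun s => ψ ∘ v₁ s := by
    rw [hv₁]
    refine LinearIndependent.sum_type hvE hTli ?_
    rw [Submodule.disjoint_def]
    intro z hz hz'
    rw [hTrange] at hz'
    obtain ⟨a, rfl⟩ := (Submodule.mem_span_range_iff_exists_fun K).1 hz
    obtain ⟨x, hx, hxz⟩ := hvD_mem _ hz'
    have h0 : remK ((∑ i, a i • ((1 : K) ⊗ₜ[k] e i)) - x) = 0 := by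
      rw [map_sub, hxz, map_sum]; simp [vE, map_smul]
    have := hbasis a (by simpa using pK.ideal.add_mem (hremI _ h0) hx)
    simp [this]
  have hsp₁ : Submodule.span K (Set.range fun s => ψ ∘ v₁ s) = ⊤ := by
    rw [hv₁, Set.Sum.elim_range, Submodule.span_union, hTrange, eq_top_iff]
    intro z _
    obtain ⟨x, rfl⟩ := β.rem_surjective hqK hdK z
    rw [show x = (∑ i, pK.ext' x i • ((1 : K) ⊗ₜ[k] e i)) + (x - ∑ i, pK.ext' x i • ((1 : K) ⊗ₜ[k] e i)) by
      abel, map_add]
    refine Submodule.add_mem_sup ?_ (hImem _ (hdecomp x))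
    rw [map_sum]
    exact Submodule.sum_mem _ fun i _ => by
      rw [map_smul]; exact Submodule.smul_mem _ _ (Submodule.subset_span ⟨i, rfl⟩)
  obtain ⟨f₁, hf₁, hind⟩ := exists_indep_near ψ.toRingHom v₁ hli₁ hsp₁
  obtain ⟨f₁', hf₁', hspan₁⟩ := exists_span_near ψ.toRingHom v₁ hsp₁
  -- the row module near the point
  let ι₂ := Fin L.n₁ × Fin β.r × Fin d
  set rv : (Fin L.n₁ → X.R₁ A) → (ι₂ → A) := fun ζ w => remA (ζ w.1) w.2
  set rvK : (Fin L.n₁ → X.R₁ K) →ₗ[K] (ι₂ → K) :=
    LinearMap.pi fun w => (LinearMap.proj w.2).comp (remK.comp (LinearMap.proj w.1))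
  have hrv : ∀ ζ, ψ ∘ rv ζ = rvK (cm ∘ ζ) := fun ζ => funext fun w => (congrFun (hrem (ζ w.1)) w.2).symm
  set gen : γ → (Fin L.n₁ → X.R₁ A) := fun w =>
    Pi.single w.1 (atCoord A X.f (Polynomial.X ^ (w.2.2 : ℕ)) * ((1 : A) ⊗ₜ[k] β.β w.2.1))
  set v₂ : (Fin n ⊕ T) ⊕ γ → (ι₂ → A) :=
    Sum.elim (Sum.elim (fun i => rv (uu ((1 : A) ⊗ₜ[k] e i))) (fun x => rv (ηT x)))
      (fun w => rv (gen w - η w))
  set S := Submodule.span K (Set.range fun s => ψ ∘ v₂ s)
  have hS : ∀ s, rvK (cm ∘ (Sum.elim (Sum.elim (fun i => uu ((1 : A) ⊗ₜ[k] e i)) ηT) (fun w => gen w - η w) s)) ∈ S := by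
    intro s
    refine Submodule.subset_span ⟨s, ?_⟩
    rcases s with (i | x) | w <;> exact hrv _
  have rvK_Q : ∀ b : Fin L.n₁ → X.R₁ K, rvK (atCoord (k := k) K X.f qK • b) = 0 := fun b => funext fun w => by
    simp only [rvK, LinearMap.pi_apply, LinearMap.comp_apply, LinearMap.proj_apply]
    rw [Pi.zero_apply]
    have e0 : (atCoord (k := k) K X.f qK • b) w.1 = atCoord (k := k) K X.f qK • b w.1 := rfl
    rw [e0, smul_eq_mul, hmulQ, Pi.zero_apply]
  have huK : ∀ r : X.R₁ A, cm ∘ uu r = cm r • (cK ᵥ* eK) := fun r => funext fun j => by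
    show cm (r * (c ᵥ* L.e₁) j) = cm r * (cK ᵥ* eK) j
    rw [map_mul]
    congr 1
    exact RingHom.map_vecMul cm.toRingHom L.e₁ c j
  have hηK : ∀ w, cm ∘ η w = (cm ∘ gen w) ᵥ* eK := fun w => funext fun j =>
    RingHom.map_vecMul cm.toRingHom L.e₁ (gen w) j
  have hker : ∀ z : Fin L.n₁ → X.R₁ K, z ᵥ* eK = z → rvK z ∈ S := by
    intro z hz
    have h1 := hcol z
    rw [hz, ← hTrange] at h1
    obtain ⟨b, hb⟩ := (Submodule.mem_span_range_iff_exists_fun K).1 h1
    set z' := z - ∑ x : T, b x • (cm ∘ ηT x)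
    have hz' : z' ᵥ* eK = z' := by
      have hfix : ∀ x : T, (cm ∘ ηT x) ᵥ* eK = cm ∘ ηT x := fun x => by
        show (cm ∘ η _) ᵥ* eK = cm ∘ η _
        rw [hηK, Matrix.vecMul_vecMul, hrankK.idem]
      simp only [z', Matrix.sub_vecMul, Matrix.sum_vecMul, Matrix.smul_vecMul, hz, hfix]
    have h0 : remK (z' ⬝ᵥ t) = 0 := by
      rw [sub_dotProduct, map_sub, sum_dotProduct, map_sum, ← hb, sub_eq_zero]
      refine Finset.sum_congr rfl fun x _ => ?_
      rw [smul_dotProduct, map_smul]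
      congr 1
      rw [← hwT x.2]
      show remK (cm (∑ j, η (wT x.2) j * s₁ j)) = _
      simp only [dotProduct, map_sum, map_mul]
      rfl
    obtain ⟨r, hr⟩ := (β.rem_eq_zero_iff hqK hdK).1 h0
    have e1 : z' = r • (cK ᵥ* eK) := by
      funext j
      refine sub_eq_zero.1 (Charts.mul_norm_eq_zero hqK ?_)
      show (z' j - r * (cK ᵥ* eK) j) * atCoord (k := k) K X.f qK = 0
      have hm : z' j * atCoord (k := k) K X.f qK = (z' ⬝ᵥ t) * (cK ᵥ* eK) j := by
        rw [← hcK]
        conv_lhs => rw [← hz']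
        simp only [Matrix.vecMul, dotProduct, Finset.sum_mul, Finset.mul_sum]
        refine Finset.sum_congr rfl fun m _ => Finset.sum_congr rfl fun l _ => ?_
        linear_combination (z' l * cK m) * hrankK.minors_vec ht l j m
      rw [sub_mul, hm, hr]
      ring
    obtain ⟨ζ, hζ⟩ := (Ideal.mem_span_range_iff_exists_fun).1 (hK.symm ▸ hdecomp r :
      r - ∑ i, pK.ext' r i • ((1 : K) ⊗ₜ[k] e i) ∈ Ideal.span (Set.range t))
    have e2 : (ζ ⬝ᵥ t) • (cK ᵥ* eK) = atCoord (k := k) K X.f qK • (ζ ᵥ* eK) := by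
      funext j
      show (ζ ⬝ᵥ t) * (cK ᵥ* eK) j = atCoord (k := k) K X.f qK * (ζ ᵥ* eK) j
      rw [← hcK]
      simp only [Matrix.vecMul, dotProduct, Finset.sum_mul, Finset.mul_sum]
      refine Finset.sum_comm.trans (Finset.sum_congr rfl fun m _ => Finset.sum_congr rfl fun l _ => ?_)
      linear_combination (-(ζ m * cK l)) * hrankK.minors_vec ht m j l
    rw [show z = z' + ∑ x : T, b x • (cm ∘ ηT x) by simp [z'], map_add, e1,
      show r = (∑ i, pK.ext' r i • ((1 : K) ⊗ₜ[k] e i)) + ζ ⬝ᵥ t by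
        rw [show ζ ⬝ᵥ t = r - ∑ i, pK.ext' r i • ((1 : K) ⊗ₜ[k] e i) from hζ]; abel,
      add_smul, e2, map_add, rvK_Q, add_zero, Finset.sum_smul, map_sum, map_sum]
    refine add_mem (Submodule.sum_mem _ fun i _ => ?_) (Submodule.sum_mem _ fun x _ => ?_)
    · rw [smul_assoc, map_smul]
      refine S.smul_mem _ ?_
      have h := hS (Sum.inl (Sum.inl i))
      simp only [Sum.elim_inl, huK] at h
      simpa [cm, Datum.chartMap] using h
    · rw [map_smul]; exact S.smul_mem _ (hS (Sum.inl (Sum.inr x)))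
  have hsp₂ : S = ⊤ := by
    rw [eq_top_iff]
    intro z _
    rw [← Finset.univ_sum_single z]
    refine Submodule.sum_mem _ fun w _ => ?_
    rw [show Pi.single w (z w) = z w • Pi.single w (1 : K) by rw [← Pi.single_smul, smul_eq_mul, mul_one]]
    refine S.smul_mem _ ?_
    have e1 : Pi.single w (1 : K) = rvK (cm ∘ gen w) := by
      obtain ⟨j, i, l⟩ := w
      funext ⟨j', i', l'⟩
      show _ = remK (cm (gen (j, i, l) j')) (i', l')
      by_cases hj : j' = j
      · subst hj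
        rw [show gen (j', i, l) j' = atCoord A X.f (Polynomial.X ^ (l : ℕ)) * ((1 : A) ⊗ₜ[k] β.β i) from
          Pi.single_eq_same _ _, map_mul, chartMap_atCoord, Polynomial.map_pow, Polynomial.map_X]
        have hb : atCoord (k := k) K X.f (Polynomial.X ^ (l : ℕ)) * cm ((1 : A) ⊗ₜ[k] β.β i) =
            β.build (Pi.single i (Polynomial.X ^ (l : ℕ))) := by
          rw [β.build_apply, Finset.sum_eq_single i (fun m _ hm => by simp [Pi.single_eq_of_ne hm])
            (fun h => (h (Finset.mem_univ _)).elim), Pi.single_eq_same]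
          simp [cm, Datum.chartMap]
        rw [hb, β.rem_apply, Equiv.symm_apply_apply, Pi.single_apply]
        by_cases hi : i' = i
        · subst hi
          rw [Pi.single_eq_same, (Polynomial.modByMonic_eq_self_iff hqK).2 (by
            rw [Polynomial.degree_X_pow, Polynomial.degree_eq_natDegree hqK.ne_zero, hdK]
            exact WithBot.coe_lt_coe.2 l.2), Polynomial.coeff_X_pow]
          refine if_congr ⟨fun h => congrArg Fin.val (Prod.mk.inj (Prod.mk.inj h).2).2,
            fun h => by rw [Fin.ext h]⟩ rfl rfl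
        · rw [Pi.single_eq_of_ne hi, Polynomial.zero_modByMonic, Polynomial.coeff_zero, if_neg]
          exact fun h => hi (Prod.mk.inj (Prod.mk.inj h).2).1
      · rw [show gen (j, i, l) j' = 0 from Pi.single_eq_of_ne hj _, map_zero, map_zero,
          Pi.single_eq_of_ne (fun h => hj (Prod.mk.inj h).1)]
        rfl
    rw [e1, show cm ∘ gen w = (cm ∘ η w) + cm ∘ (gen w - η w) from funext fun j => by
      simp [← map_add], map_add]
    exact add_mem (hker _ (by rw [hηK, Matrix.vecMul_vecMul, hrankK.idem])) (hS (Sum.inr w))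
  obtain ⟨f₂, hf₂, hspan₂⟩ := exists_span_near ψ.toRingHom v₂ hsp₂
  -- conclusion
  set I := (Ideal.span (Set.range s₁)).restrictScalars A
  set W := Submodule.span A (Set.range fun x : T => δ (ηT x)) ⊔
    (Ideal.span {Q}).restrictScalars A with hWdef
  have hWI : W ≤ I := by
    refine sup_le (Submodule.span_le.2 ?_) fun y hy => ?_
    · rintro _ ⟨x, rfl⟩
      exact Submodule.sum_mem (Ideal.span (Set.range s₁)) fun j _ =>
        Ideal.mul_mem_left _ _ (Ideal.subset_span ⟨j, rfl⟩)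
    · exact (Ideal.span_le.2 (by rintro _ rfl; exact hqI) : Ideal.span {Q} ≤ _) hy
  have hIW : ∀ x ∈ Ideal.span (Set.range s₁), f₂ • x ∈ W := by
    intro x hx
    obtain ⟨ζ, rfl⟩ := (Ideal.mem_span_range_iff_exists_fun).1 hx
    obtain ⟨a, ha⟩ := (Submodule.mem_span_range_iff_exists_fun A).1 (hspan₂ (rv ζ))
    set vec : (Fin n ⊕ T) ⊕ γ → (Fin L.n₁ → X.R₁ A) :=
      Sum.elim (Sum.elim (fun i => uu ((1 : A) ⊗ₜ[k] e i)) ηT) (fun w => gen w - η w)
    have hv₂ : ∀ s, v₂ s = rv (vec s) := by rintro ((i | x) | w) <;> rfl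
    have hdiv : ∀ j, ∃ y, (f₂ • ζ - ∑ s, a s • vec s) j = Q * y := fun j => by
      refine (β.rem_eq_zero_iff hq rfl).1 (funext fun il => ?_)
      have := congrFun ha (j, il)
      simp only [Finset.sum_apply, Pi.smul_apply, hv₂, rv, smul_eq_mul] at this
      show remA _ il = 0
      simp only [Pi.sub_apply, Pi.smul_apply, Finset.sum_apply, map_sub, map_sum, map_smul, smul_eq_mul]
      rw [← this, sub_self]
    choose y hy using hdiv
    have e1 : f₂ • (ζ ⬝ᵥ s₁) = (f₂ • ζ) ⬝ᵥ s₁ := (smul_dotProduct _ _ _).symm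
    rw [show (∑ j, ζ j * s₁ j) = ζ ⬝ᵥ s₁ from rfl, e1,
      show f₂ • ζ = (∑ s, a s • vec s) + (fun j => Q * y j) from by
        funext j; rw [Pi.add_apply, ← hy, Pi.sub_apply, add_sub_cancel], add_dotProduct, sum_dotProduct]
    refine add_mem (Submodule.sum_mem _ fun s _ => ?_) (Submodule.mem_sup_right ?_)
    · rw [smul_dotProduct]
      refine W.smul_mem _ ?_
      rcases s with (i | x) | w
      · refine Submodule.mem_sup_right (Ideal.mem_span_singleton'.2 ⟨(1 : A) ⊗ₜ[k] e i, ?_⟩)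
        exact (hδu _).symm
      · exact Submodule.mem_sup_left (Submodule.subset_span ⟨x, rfl⟩)
      · show (gen w - gen w ᵥ* L.e₁) ⬝ᵥ s₁ ∈ W
        rw [sub_dotProduct, ← Matrix.dotProduct_mulVec, hs₁, sub_self]
        exact W.zero_mem
    · exact Submodule.sum_mem (Ideal.span {Q}) fun j _ =>
        Ideal.mul_mem_right _ _ (Ideal.mul_mem_right _ _ (Ideal.subset_span rfl))
  refine ⟨f₁ * f₂ * f₁', by
    simp only [map_mul]
    exact mul_ne_zero (mul_ne_zero hf₁ hf₂) hf₁', fun z => ?_, fun a ha => ?_⟩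
  · rw [mul_smul]
    refine Submodule.smul_mem _ _ ?_
    obtain ⟨a, ha⟩ := (Submodule.mem_span_range_iff_exists_fun A).1 (hspan₁ (remA z))
    obtain ⟨y, hy⟩ := (β.rem_eq_zero_iff hq rfl).1 (show remA (f₁' • z -
      ((∑ i, a (Sum.inl i) • ((1 : A) ⊗ₜ[k] e i)) + ∑ x, a (Sum.inr x) • δ (ηT x))) = 0 by
        rw [map_sub, map_add, map_smul, map_sum, map_sum, sub_eq_zero, ← ha, Fintype.sum_sum_type]
        simp only [map_smul]
        rfl)
    rw [← sub_add_cancel (f₁' • z) ((∑ i, a (Sum.inl i) • ((1 : A) ⊗ₜ[k] e i)) + ∑ x, a (Sum.inr x) • δ (ηT x)), hy]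
    refine add_mem (Submodule.mem_sup_right (Ideal.mul_mem_right _ _ hqI)) (add_mem
      (Submodule.sum_mem _ fun i _ => Submodule.smul_mem _ _
        (Submodule.mem_sup_left (Submodule.subset_span ⟨i, rfl⟩)))
      (Submodule.sum_mem _ fun x _ => Submodule.smul_mem _ _ (Submodule.mem_sup_right ?_)))
    exact hWI (Submodule.mem_sup_left (Submodule.subset_span ⟨x, rfl⟩))
  · intro i
    have h := hIW _ ha
    obtain ⟨w, hw, y, hy, hwy⟩ := Submodule.mem_sup.1 h
    obtain ⟨b, rfl⟩ := (Submodule.mem_span_range_iff_exists_fun A).1 hw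
    obtain ⟨r, rfl⟩ := Ideal.mem_span_singleton'.1 hy
    have h0 : ∑ s, (Sum.elim (fun i => f₂ * a i) (fun x => -b x) s) • v₁ s = 0 := by
      rw [Fintype.sum_sum_type]
      simp only [v₁, Sum.elim_inl, Sum.elim_inr, ← map_smul, ← map_sum, ← map_add]
      refine (β.rem_eq_zero_iff hq rfl).2 ⟨r, ?_⟩
      simp only [mul_smul, neg_smul, Finset.sum_neg_distrib, ← Finset.smul_sum, ← hwy]
      rw [mul_comm (atCoord A X.f q), ← hQdef]
      abel
    have := hind _ h0 (Sum.inl i)
    simp only [Sum.elim_inl] at this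
    linear_combination f₁' * this

end FLTAgent.PicScheme
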