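import Fermat.Agent.PicScheme.Bridge
import Fermat.Agent.PicScheme.Basic
import Fermat.Agent.PicScheme.Chart

/-!
# Data with a section cutting out a point of the chart
-/

set_option autoImplicit false
set_option linter.unusedSectionVars false

noncomputable section

universe u

open TensorProduct Matrix

namespace FLTAgent.PicScheme

section RankOne

variable {R : Type u} [CommRing R] {n n' : ℕ} {e : Matrix (Fin n) (Fin n) R}

/-- On a module of rank one the fixed vectors are proportional. -/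
theorem IsRankOne.minors_vec (he : IsRankOne e) {s : Fin n → R} (hs : e *ᵥ s = s) (l m j : Fin n) :
    e l m * s j = s l * e j m := by
  conv_lhs => rw [← hs]
  conv_rhs => rw [← hs]
  simp only [Matrix.mulVec, dotProduct, Finset.mul_sum, Finset.sum_mul]
  refine Finset.sum_congr rfl fun q _ => ?_
  rw [← mul_assoc, he.minors l m j q]
  ring

/-- Cut matrices which agree on a section are equal. -/
theorem IsRankOne.ext_of_mulVec (he : IsRankOne e) {s : Fin n → R} (hs : e *ᵥ s = s)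
    (hreg : ∀ r : R, (∀ j, r * s j = 0) → r = 0) {Z Z' : Matrix (Fin n') (Fin n) R}
    (hZ : Z * e = Z) (hZ' : Z' * e = Z') (h : Z *ᵥ s = Z' *ᵥ s) : Z = Z' := by
  refine Matrix.ext fun l m => sub_eq_zero.1 (hreg _ fun j => ?_)
  have key : ∀ W : Matrix (Fin n') (Fin n) R, W * e = W → W l m * s j = (W *ᵥ s) l * e j m := by
    intro W hW
    conv_lhs => rw [← hW]
    simp only [Matrix.mul_apply, Matrix.mulVec, dotProduct, Finset.sum_mul, mul_assoc]
    exact Finset.sum_congr rfl fun p _ => by rw [he.minors_vec hs]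
  rw [sub_mul, key Z hZ, key Z' hZ', h, sub_self]

end RankOne

variable {k : Type u} [Field k] {X : Charts k} {A A' : Type u} [CommRing A] [Algebra k A]
  [CommRing A'] [Algebra k A'] {n : ℕ} {e : Fin n → X.B₁}

namespace Charts

variable (X) (A)

theorem res₁_tmul (a : A) (b : X.B₁) : X.res₁ A (a ⊗ₜ b) = a ⊗ₜ X.ι₁ b := by
  simp [Charts.res₁]

end Charts

/-- The ideal of the image of a point. -/
theorem ChartPt.ideal_map (p : ChartPt k e A) (φ : A →ₐ[k] A') :
    (p.map φ).ideal = p.ideal.map (Datum.chartMap X.B₁ φ) := by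
  have hext : ∀ x : A ⊗[k] X.B₁, (p.map φ).ext' (Datum.chartMap X.B₁ φ x) = φ ∘ p.ext' x := by
    intro x
    induction x using TensorProduct.induction_on with
    | zero => funext i; simp
    | tmul a b =>
      funext i
      simp [Datum.chartMap, ChartPt.ext'_tmul, ChartPt.map_φ]
    | add x y hx hy => rw [map_add, map_add, hx, hy, map_add]; funext i; simp
  refine le_antisymm ?_ (Ideal.map_le_iff_le_comap.2 fun x hx => ?_)
  · set I' := p.ideal.map (Datum.chartMap X.B₁ φ)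
    suffices h : ∀ y : A' ⊗[k] X.B₁,
        y - ∑ l, (p.map φ).ext' y l • ((1 : A') ⊗ₜ[k] e l) ∈ I' by
      intro y hy
      have := h y
      rw [(p.map φ).mem_ideal.1 hy] at this
      simpa using this
    intro y
    induction y using TensorProduct.induction_on with
    | zero => simp
    | tmul a b =>
      have h1 : ((1 : A) ⊗ₜ[k] b) - ∑ l, p.φ b l • ((1 : A) ⊗ₜ[k] e l) ∈ p.ideal := by
        rw [p.mem_ideal, map_sub, map_sum, p.ext'_tmul, one_smul, sub_eq_zero]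
        funext j
        simp [p.ext'_tmul, p.basis, Pi.single_apply]
      have h2 := Ideal.mul_mem_left _ (a ⊗ₜ[k] (1 : X.B₁)) (Ideal.mem_map_of_mem (Datum.chartMap X.B₁ φ) h1)
      convert h2 using 1
      simp [Datum.chartMap, mul_sub, Finset.mul_sum, ChartPt.ext'_tmul, ChartPt.map_φ, map_sum,
        TensorProduct.smul_tmul']
    | add x y hx hy =>
      simp only [map_add, Pi.add_apply, add_smul, Finset.sum_add_distrib]
      rw [add_sub_add_comm]
      exact I'.add_mem hx hy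
  · show (p.map φ).ext' (Datum.chartMap X.B₁ φ x) = 0
    rw [hext, p.mem_ideal.1 hx]
    funext i
    simp

/-- The norm of the coordinate on the quotient, as an element of the ideal. -/
def ChartPt.normPoly (p : ChartPt k e A) : Polynomial A :=
  (Matrix.of fun l i => p.φ (X.f * e i) l).charpoly

theorem ChartPt.normPoly_mem (p : ChartPt k e A) :
    Polynomial.aeval ((1 : A) ⊗ₜ[k] X.f : A ⊗[k] X.B₁) p.normPoly ∈ p.ideal := by
  set M : Matrix (Fin n) (Fin n) A := Matrix.of fun l i => p.φ (X.f * e i) l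
  have h1 : ∀ x, p.ext' (((1 : A) ⊗ₜ[k] X.f) * x) = M *ᵥ p.ext' x := fun x => by
    rw [p.ext'_mul]
    funext l
    simp [M, Matrix.mulVec, dotProduct, mul_comm]
  have h2 : ∀ q : Polynomial A, p.ext' (Polynomial.aeval ((1 : A) ⊗ₜ[k] X.f : A ⊗[k] X.B₁) q) =
      (Polynomial.aeval M q) *ᵥ p.ext' 1 := by
    intro q
    induction q using Polynomial.induction_on' with
    | add a b ha hb => rw [map_add, map_add, map_add, Matrix.add_mulVec, ha, hb]
    | monomial m c =>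
      rw [Polynomial.aeval_monomial, Polynomial.aeval_monomial, ← Algebra.smul_def, ← Algebra.smul_def,
        map_smul, Matrix.smul_mulVec]
      congr 1
      induction m with
      | zero => simp
      | succ m ih => rw [pow_succ', pow_succ', h1, ih, Matrix.mulVec_mulVec]
  rw [p.mem_ideal, h2, ChartPt.normPoly, Matrix.aeval_self_charpoly, Matrix.zero_mulVec]

theorem ChartPt.normPoly_monic (p : ChartPt k e A) : p.normPoly.Monic := Matrix.charpoly_monic _

theorem Charts.mul_norm_eq_zero {q : Polynomial A} (hq : q.Monic) {r : X.R₁ A}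
    (h : r * Polynomial.aeval ((1 : A) ⊗ₜ[k] X.f : X.R₁ A) q = 0) : r = 0 := by
  obtain ⟨m, Φ, -⟩ := PolyChart.free (A := A) X.isFree.1
  obtain ⟨v, hv⟩ := Φ.surjective (PolyChart.of X.f r)
  have h0 : Φ (q • v) = 0 := by
    rw [map_smul, hv, Algebra.smul_def, PolyChart.algebraMap_poly, mul_comm]
    exact h
  rw [← map_zero Φ] at h0
  have h1 : q • v = 0 := Φ.injective h0
  have hv0 : v = 0 := funext fun i => hq.isRegular.left (by simpa using congrFun h1 i)
  rw [hv0, map_zero] at hv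
  exact hv.symm

theorem Charts.mul_res_norm_eq_zero {q : Polynomial A} (hq : q.Monic) {r : X.R₀ A}
    (h : r * X.res₁ A (Polynomial.aeval ((1 : A) ⊗ₜ[k] X.f : X.R₁ A) q) = 0) : r = 0 := by
  obtain ⟨N, w, hw⟩ := X.exists_res₁ A r
  have h1 : X.res₁ A (w * Polynomial.aeval ((1 : A) ⊗ₜ[k] X.f : X.R₁ A) q) = 0 := by
    rw [map_mul, ← hw, mul_assoc, h, mul_zero]
  rw [← map_zero (X.res₁ A)] at h1
  rw [Charts.mul_norm_eq_zero hq (X.res₁_injective A X.isFree h1), map_zero] at hw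
  have h2 := congrArg (X.s₀ A ^ N * ·) hw
  simpa [← mul_assoc, ← mul_pow, X.s₀_mul_t₀] using h2

/-- A section of a datum with ideal that of a point of the chart, with no zero outside the first
chart. -/
structure Cuts (p : ChartPt k e A) (L : Datum X A) (s₁ : Fin L.n₁ → X.R₁ A) (s₂ : Fin L.n₂ → X.R₂ A) :
    Prop where
  fix₁ : L.e₁ *ᵥ s₁ = s₁
  fix₂ : L.e₂ *ᵥ s₂ = s₂
  compat : L.u *ᵥ (X.res₁ A ∘ s₁) = X.res₂ A ∘ s₂
  ideal_eq : Ideal.span (Set.range s₁) = p.ideal
  unit_mod : Ideal.span (Set.range s₂) ⊔ Ideal.span {(1 : A) ⊗ₜ[k] X.g} = ⊤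

namespace Cuts

variable {p : ChartPt k e A} {L : Datum X A} {s₁ : Fin L.n₁ → X.R₁ A} {s₂ : Fin L.n₂ → X.R₂ A}
  (h : Cuts p L s₁ s₂)
include h

theorem regular₀ (r : X.R₀ A) (hr : ∀ j, r * X.res₁ A (s₁ j) = 0) : r = 0 := by
  refine Charts.mul_res_norm_eq_zero p.normPoly_monic ?_
  have hP := p.normPoly_mem
  rw [← h.ideal_eq] at hP
  refine Submodule.span_induction (p := fun z _ => r * X.res₁ A z = 0) ?_ ?_ ?_ ?_ hP
  · rintro _ ⟨j, rfl⟩; exact hr j
  · rw [map_zero, mul_zero]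
  · intro a b _ _ ha hb; rw [map_add, mul_add, ha, hb, add_zero]
  · intro c a _ ha; rw [smul_eq_mul, map_mul, mul_left_comm, ha, mul_zero]

theorem regular₁ (r : X.R₁ A) (hr : ∀ j, r * s₁ j = 0) : r = 0 := by
  refine X.res₁_injective A X.isFree ?_
  rw [map_zero]
  exact h.regular₀ _ fun j => by rw [← map_mul, hr, map_zero]

theorem v_res₂ : L.v *ᵥ (X.res₂ A ∘ s₂) = X.res₁ A ∘ s₁ := by
  rw [← h.compat, Matrix.mulVec_mulVec, L.vu, ← L.res₁_mulVec, h.fix₁]

theorem regular₂ (r : X.R₂ A) (hr : ∀ j, r * s₂ j = 0) : r = 0 := by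
  refine X.res₂_injective A X.isFree ?_
  rw [map_zero]
  refine h.regular₀ _ fun j => ?_
  rw [show X.res₁ A (s₁ j) = (L.v *ᵥ (X.res₂ A ∘ s₂)) j from (congrFun h.v_res₂ j).symm]
  simp only [Matrix.mulVec, dotProduct, Function.comp_apply, Finset.mul_sum]
  refine Finset.sum_eq_zero fun i _ => ?_
  rw [mul_left_comm, ← map_mul, hr, map_zero, mul_zero]

theorem mem_span₂ {z : X.R₂ A} (hz : ∃ c : Fin L.n₁ → X.R₀ A, X.res₂ A z = ∑ j, c j * X.res₁ A (s₁ j)) :
    z ∈ Ideal.span (Set.range s₂) := by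
  obtain ⟨c, hc⟩ := hz
  set d := c ᵥ* L.v
  have hd : X.res₂ A z = ∑ b, d b * X.res₂ A (s₂ b) := by
    rw [hc]
    show c ⬝ᵥ (X.res₁ A ∘ s₁) = (c ᵥ* L.v) ⬝ᵥ (X.res₂ A ∘ s₂)
    rw [← Matrix.dotProduct_mulVec, h.v_res₂]
  choose N x hx using fun b => X.exists_res₂ A (d b)
  set M := Finset.univ.sup N
  have hM : ((1 : A) ⊗ₜ[k] X.g) ^ M * z = ∑ b, ((1 : A) ⊗ₜ[k] X.g) ^ (M - N b) * x b * s₂ b := by
    refine X.res₂_injective A X.isFree ?_
    rw [map_mul, map_pow, map_sum, hd, Finset.mul_sum]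
    refine Finset.sum_congr rfl fun b _ => ?_
    rw [map_mul, map_mul, map_pow, ← hx, ← Charts.s₀, ← mul_assoc, ← mul_assoc, ← pow_add,
      Nat.sub_add_cancel (Finset.le_sup (f := N) (Finset.mem_univ b))]
  have hgM : ((1 : A) ⊗ₜ[k] X.g) ^ M * z ∈ Ideal.span (Set.range s₂) := by
    rw [hM]
    exact Submodule.sum_mem _ fun b _ => Ideal.mul_mem_left _ _ (Ideal.subset_span ⟨b, rfl⟩)
  obtain ⟨w, hw, y, hy, hwy⟩ := Submodule.mem_sup.1 ((Ideal.eq_top_iff_one _).1 h.unit_mod)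
  obtain ⟨a, rfl⟩ := Ideal.mem_span_singleton'.1 hy
  have hco : IsCoprime (((1 : A) ⊗ₜ[k] X.g) ^ M) w :=
    IsCoprime.pow_left ⟨a, 1, by rw [one_mul, add_comm]; exact hwy⟩
  obtain ⟨a', b', hab⟩ := hco
  rw [show z = a' * (((1 : A) ⊗ₜ[k] X.g) ^ M * z) + b' * z * w by linear_combination (-z) * hab]
  exact add_mem (Ideal.mul_mem_left _ _ hgM) (Ideal.mul_mem_left _ _ hw)

/-- Two data with sections cutting out the same point are isomorphic. -/
theorem nonempty_iso {L' : Datum X A} {t₁ : Fin L'.n₁ → X.R₁ A} {t₂ : Fin L'.n₂ → X.R₂ A}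
    (h' : Cuts p L' t₁ t₂) : Nonempty (Datum.Iso L L') := by
  have hco : ∀ (l : Fin L'.n₁), ∃ r : Fin L.n₁ → X.R₁ A, ∑ j, r j * s₁ j = t₁ l := fun l => by
    have : t₁ l ∈ Ideal.span (Set.range s₁) := by
      rw [h.ideal_eq, ← h'.ideal_eq]; exact Ideal.subset_span ⟨l, rfl⟩
    exact (Ideal.mem_span_range_iff_exists_fun).1 this
  have hco' : ∀ (l : Fin L.n₁), ∃ r : Fin L'.n₁ → X.R₁ A, ∑ j, r j * t₁ j = s₁ l := fun l => by
    have : s₁ l ∈ Ideal.span (Set.range t₁) := by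
      rw [h'.ideal_eq, ← h.ideal_eq]; exact Ideal.subset_span ⟨l, rfl⟩
    exact (Ideal.mem_span_range_iff_exists_fun).1 this
  choose R hR using hco
  choose R' hR' using hco'
  have hco₂ : ∀ (l : Fin L'.n₂), ∃ r : Fin L.n₂ → X.R₂ A, ∑ j, r j * s₂ j = t₂ l := fun l => by
    refine (Ideal.mem_span_range_iff_exists_fun).1 (h.mem_span₂ ⟨fun j => ∑ i, L'.u l i * X.res₁ A (R i j), ?_⟩)
    rw [show X.res₂ A (t₂ l) = (L'.u *ᵥ (X.res₁ A ∘ t₁)) l from (congrFun h'.compat l).symm]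
    simp only [Matrix.mulVec, dotProduct, Function.comp_apply, Finset.sum_mul]
    rw [Finset.sum_comm]
    refine Finset.sum_congr rfl fun i _ => ?_
    rw [← hR i, map_sum, Finset.mul_sum]
    exact Finset.sum_congr rfl fun j _ => by rw [map_mul, mul_assoc]
  have hco₂' : ∀ (l : Fin L.n₂), ∃ r : Fin L'.n₂ → X.R₂ A, ∑ j, r j * t₂ j = s₂ l := fun l => by
    refine (Ideal.mem_span_range_iff_exists_fun).1 (h'.mem_span₂ ⟨fun j => ∑ i, L.u l i * X.res₁ A (R' i j), ?_⟩)
    rw [show X.res₂ A (s₂ l) = (L.u *ᵥ (X.res₁ A ∘ s₁)) l from (congrFun h.compat l).symm]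
    simp only [Matrix.mulVec, dotProduct, Function.comp_apply, Finset.sum_mul]
    rw [Finset.sum_comm]
    refine Finset.sum_congr rfl fun i _ => ?_
    rw [← hR' i, map_sum, Finset.mul_sum]
    exact Finset.sum_congr rfl fun j _ => by rw [map_mul, mul_assoc]
  choose Q hQ using hco₂
  choose Q' hQ' using hco₂'
  set a₁ := L'.e₁ * Matrix.of R * L.e₁
  set b₁ := L.e₁ * Matrix.of R' * L'.e₁
  set a₂ := L'.e₂ * Matrix.of Q * L.e₂
  set b₂ := L.e₂ * Matrix.of Q' * L'.e₂
  have ha₁ : a₁ *ᵥ s₁ = t₁ := by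
    simp only [a₁, ← Matrix.mulVec_mulVec, h.fix₁]
    rw [show Matrix.of R *ᵥ s₁ = t₁ from funext hR, h'.fix₁]
  have hb₁ : b₁ *ᵥ t₁ = s₁ := by
    simp only [b₁, ← Matrix.mulVec_mulVec, h'.fix₁]
    rw [show Matrix.of R' *ᵥ t₁ = s₁ from funext hR', h.fix₁]
  have ha₂ : a₂ *ᵥ s₂ = t₂ := by
    simp only [a₂, ← Matrix.mulVec_mulVec, h.fix₂]
    rw [show Matrix.of Q *ᵥ s₂ = t₂ from funext hQ, h'.fix₂]
  have hb₂ : b₂ *ᵥ t₂ = s₂ := by
    simp only [b₂, ← Matrix.mulVec_mulVec, h'.fix₂]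
    rw [show Matrix.of Q' *ᵥ t₂ = s₂ from funext hQ', h.fix₂]
  refine ⟨{ a₁ := a₁, b₁ := b₁, a₂ := a₂, b₂ := b₂, ab₁ := ?_, ba₁ := ?_, ab₂ := ?_, ba₂ := ?_, compat := ?_ }⟩
  · exact L'.rank₁.ext_of_mulVec h'.fix₁ h'.regular₁
      (by simp only [b₁, Matrix.mul_assoc, L'.rank₁.idem]) L'.rank₁.idem
      (by rw [← Matrix.mulVec_mulVec, hb₁, ha₁, h'.fix₁])
  · exact L.rank₁.ext_of_mulVec h.fix₁ h.regular₁
      (by simp only [a₁, Matrix.mul_assoc, L.rank₁.idem]) L.rank₁.idem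
      (by rw [← Matrix.mulVec_mulVec, ha₁, hb₁, h.fix₁])
  · exact L'.rank₂.ext_of_mulVec h'.fix₂ h'.regular₂
      (by simp only [b₂, Matrix.mul_assoc, L'.rank₂.idem]) L'.rank₂.idem
      (by rw [← Matrix.mulVec_mulVec, hb₂, ha₂, h'.fix₂])
  · exact L.rank₂.ext_of_mulVec h.fix₂ h.regular₂
      (by simp only [a₂, Matrix.mul_assoc, L.rank₂.idem]) L.rank₂.idem
      (by rw [← Matrix.mulVec_mulVec, ha₂, hb₂, h.fix₂])
  · have hres : IsRankOne (L.e₁.map (X.res₁ A)) := Datum.IsRankOne.map (X.res₁ A).toRingHom L.rank₁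
    refine hres.ext_of_mulVec (s := X.res₁ A ∘ s₁) (by rw [← L.res₁_mulVec, h.fix₁]) h.regular₀
      (by rw [Matrix.mul_assoc, ← Matrix.map_mul, L.rank₁.idem])
      (by rw [Matrix.mul_assoc, L.u_cut]) ?_
    rw [← Matrix.mulVec_mulVec, ← L.res₁_mulVec, h.fix₁, ← Matrix.mulVec_mulVec,
      ← Matrix.mulVec_mulVec, h.compat,
      show a₁.map (X.res₁ A) *ᵥ (X.res₁ A ∘ s₁) = X.res₁ A ∘ t₁ from by
        rw [← ha₁]; exact (funext fun i => RingHom.map_mulVec (X.res₁ A).toRingHom a₁ s₁ i).symm,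
      show a₂.map (X.res₂ A) *ᵥ (X.res₂ A ∘ s₂) = X.res₂ A ∘ t₂ from by
        rw [← ha₂]; exact (funext fun i => RingHom.map_mulVec (X.res₂ A).toRingHom a₂ s₂ i).symm,
      h'.compat]

/-- The image of a cutting section. -/
theorem map (φ : A →ₐ[k] A') :
    Cuts (p.map φ) (L.map φ) (Datum.chartMap X.B₁ φ ∘ s₁) (Datum.chartMap X.B₂ φ ∘ s₂) where
  fix₁ := by
    conv_rhs => rw [← h.fix₁]
    exact (funext fun i => RingHom.map_mulVec (Datum.chartMap X.B₁ φ).toRingHom L.e₁ s₁ i).symm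
  fix₂ := by
    conv_rhs => rw [← h.fix₂]
    exact (funext fun i => RingHom.map_mulVec (Datum.chartMap X.B₂ φ).toRingHom L.e₂ s₂ i).symm
  compat := by
    funext i
    have h1 := congrArg (Datum.chartMap X.B₀ φ).toRingHom (congrFun h.compat i)
    have h2 := (RingHom.map_mulVec (Datum.chartMap X.B₀ φ).toRingHom L.u (X.res₁ A ∘ s₁) i).symm.trans h1
    have h3 : (X.res₁ A' ∘ Datum.chartMap X.B₁ φ ∘ s₁ : Fin L.n₁ → X.R₀ A') =
        (Datum.chartMap X.B₀ φ).toRingHom ∘ (X.res₁ A ∘ s₁) :=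
      funext fun j => (Datum.chartMap_res₁ φ (s₁ j)).symm
    refine (Eq.trans ?_ (h2.trans (Datum.chartMap_res₂ φ (s₂ i))))
    exact congrArg (fun v => ((L.u.map (Datum.chartMap X.B₀ φ).toRingHom) *ᵥ v) i) h3
  ideal_eq := by
    rw [p.ideal_map φ, ← h.ideal_eq, Ideal.map_span]
    exact congrArg Ideal.span (Set.range_comp _ _)
  unit_mod := by
    have h1 := congrArg (Ideal.map (Datum.chartMap X.B₂ φ)) h.unit_mod
    rw [Ideal.map_sup, Ideal.map_span, Ideal.map_span, Ideal.map_top, Set.image_singleton,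
      ← Set.range_comp] at h1
    have hg : Datum.chartMap X.B₂ φ ((1 : A) ⊗ₜ[k] X.g) = (1 : A') ⊗ₜ[k] X.g := by simp [Datum.chartMap]
    rw [hg] at h1
    exact h1

/-- A cutting section which does not vanish at the marked point rigidifies. -/
theorem isRigidifiable
    (hpt : Ideal.map (Algebra.TensorProduct.lift (AlgHom.id A A) ((Algebra.ofId k A).comp X.pt)
      (fun _ _ => Commute.all _ _)).toRingHom p.ideal = ⊤) : L.IsRigidifiable := by
  set ev := Algebra.TensorProduct.lift (AlgHom.id A A) ((Algebra.ofId k A).comp X.pt)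
    (fun _ _ => Commute.all _ _)
  rw [← h.ideal_eq, Ideal.map_span, ← Set.range_comp, Ideal.eq_top_iff_one] at hpt
  obtain ⟨c, hc⟩ := (Ideal.mem_span_range_iff_exists_fun).1 hpt
  change ∑ j, c j * ev (s₁ j) = 1 at hc
  refine ⟨fun i => ev (s₁ i), fun m => ∑ j, c j * ev (L.e₁ j m), ?_, ?_⟩
  · rw [← hc, dotProduct]
    simp only [Finset.sum_mul]
    rw [Finset.sum_comm]
    refine Finset.sum_congr rfl fun j _ => ?_
    conv_rhs => rw [← h.fix₁]
    simp only [Matrix.mulVec, dotProduct, map_sum, map_mul, Finset.mul_sum, mul_assoc]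
  · ext l m
    rw [Matrix.map_apply, Matrix.vecMulVec_apply, Finset.mul_sum]
    show ev (L.e₁ l m) = _
    conv_lhs => rw [← one_mul (ev (L.e₁ l m)), ← hc, Finset.sum_mul]
    refine Finset.sum_congr rfl fun j _ => ?_
    have := congrArg ev (L.rank₁.minors_vec h.fix₁ l m j)
    rw [map_mul, map_mul] at this
    linear_combination (c j) * this

end Cuts

end FLTAgent.PicScheme
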